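import Fermat.Agent.SemistableHecke.Steinberg
import Fermat.Agent.MazurStep.LatticeConj
import Fermat.Agent.MazurStep.Conjugation

/-!
# An element killing all cusp forms kills the torsion of the Jacobian

Main result: `formsKillTorsion`, proved through the lattice evaluation of the torsion.
-/

set_option autoImplicit false

noncomputable section

open CongruenceSubgroup AlgebraicCurve ModularCurve ModularCurve.Period
open FLTAgent.HeckeJacobian FLTAgent.Periods FLTAgent.GaloisAttach

namespace FLTAgent.SemistableHecke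

local notation "Qbar" => AlgebraicClosure ℚ

section Lattice

variable [Algebra Qbar ℂ] {N : ℕ} [NeZero N] {p : ℕ} [Fact p.Prime]

/-- The Hecke action preserves complex linear relations between lattice elements. -/
theorem latticeEval_sum_eq_zero (hT : TorsionCount N p) (t : HeckeAlg) :
    ∀ (ι : Type) (_ : Fintype ι) (c : ι → ℂ) (φ : ι → charLattice N),
      ∑ i, (zmultiplesHom ℂ (c i)).comp (φ i).1 = 0 →
      ∑ i, (zmultiplesHom ℂ (c i)).comp (latticeEval hT t (φ i)).1 = 0 := by
  induction t using MvPolynomial.induction_on with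
  | C a =>
    intro ι inst c φ h
    refine AddMonoidHom.ext fun x => ?_
    have hx : ∑ i, (zmultiplesHom ℂ (c i)) ((φ i).1 x) = 0 := by
      have := DFunLike.congr_fun h x
      rwa [AddMonoidHom.finsetSum_apply] at this
    rw [AddMonoidHom.finsetSum_apply, AddMonoidHom.zero_apply]
    calc ∑ i, zmultiplesHom ℂ (c i) ((latticeEval hT (MvPolynomial.C a) (φ i)).1 x)
        = ∑ i, a • zmultiplesHom ℂ (c i) ((φ i).1 x) := by
          refine Finset.sum_congr rfl fun i _ => ?_
          rw [latticeEval_C, Module.End.intCast_apply]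
          exact map_zsmul (zmultiplesHom ℂ (c i)) a ((φ i).1 x)
      _ = 0 := by rw [← Finset.smul_sum, hx, smul_zero]
  | add s u hs hu =>
    intro ι inst c φ h
    have h1 := hs ι inst c φ h
    have h2 := hu ι inst c φ h
    have h3 : ∑ i, (zmultiplesHom ℂ (c i)).comp (latticeEval hT (s + u) (φ i)).1 =
        ∑ i, ((zmultiplesHom ℂ (c i)).comp (latticeEval hT s (φ i)).1 +
          (zmultiplesHom ℂ (c i)).comp (latticeEval hT u (φ i)).1) := by
      refine Finset.sum_congr rfl fun i _ => AddMonoidHom.ext fun x => ?_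
      rw [map_add, LinearMap.add_apply]
      exact map_add (zmultiplesHom ℂ (c i)) _ _
    rw [h3, Finset.sum_add_distrib, h1, h2, add_zero]
  | mul_X u ℓ hu =>
    intro ι inst c φ h
    have : NeZero (ℓ : ℕ) := ⟨ℓ.2.ne_zero⟩
    have h1 : ∑ i, (zmultiplesHom ℂ (c i)).comp (latticeEval hT (heckeGen ℓ) (φ i)).1 = 0 := by
      have := congrArg (heckeHom N ℓ ℂ) h
      rw [map_sum, map_zero] at this
      refine Eq.trans (Finset.sum_congr rfl fun i _ => ?_) this
      rw [heckeHom_comp, latticeEval_heckeGen, coe_latticeHecke]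
    have h2 := hu ι inst c (fun i => latticeEval hT (heckeGen ℓ) (φ i)) h1
    rw [show (MvPolynomial.X ℓ : HeckeAlg) = heckeGen ℓ from rfl]
    simpa only [map_mul, Module.End.mul_apply] using h2

/-- An element killing every cusp form kills the lattice. -/
theorem latticeEval_eq_zero (hT : TorsionCount N p) (t : HeckeAlg)
    (ht : heckeEvalS2 N t = 0) : latticeEval hT t = 0 := by
  refine LinearMap.ext fun φ => ?_
  let cast : Additive (Gamma0 N) →+ ℂ := (Int.castAddHom ℂ).comp φ.1
  have hcast : cast ∈ parabolicHoms ℂ (Gamma0 N) ℂ := fun γ hγ => by simp [cast, φ.2 γ hγ]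
  rw [← MazurStep.range_periodPairLin] at hcast
  obtain ⟨⟨a, b⟩, hab⟩ := hcast
  rw [MazurStep.periodPairLin_apply, MazurStep.charInvolution_periodMap] at hab
  have := FLTAgent.Periods.finiteDimensional_cuspForm_two N
  have hs := LinearMap.injective_iff_surjective.mp (frickeLin_injective N)
  obtain ⟨a', rfl⟩ := hs a
  obtain ⟨b', hb'⟩ := hs (conjForm b)
  obtain ⟨ι₁, _, c, φ₁, h₁⟩ := exists_sum_charLattice
    (FLTAgent.Periods.periodMap_mem_parabolicHoms (frickeLin N a'))
  obtain ⟨ι₂, _, d, φ₂, h₂⟩ := exists_sum_charLattice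
    (FLTAgent.Periods.periodMap_mem_parabolicHoms (frickeLin N b'))
  rw [← hb'] at hab
  let star' := (starRingEnd ℂ).toAddMonoidHom
  have hconj : ∀ (e : ℂ) (ψ : Additive (Gamma0 N) →+ ℤ), star'.comp ((zmultiplesHom ℂ e).comp ψ) =
      (zmultiplesHom ℂ (star' e)).comp ψ := fun e ψ => AddMonoidHom.ext fun x => by
    show star' (zmultiplesHom ℂ e (ψ x)) = zmultiplesHom ℂ (star' e) (ψ x)
    rw [zmultiplesHom_apply, zmultiplesHom_apply, map_zsmul]
  -- the relation
  let cc : Option (ι₁ ⊕ ι₂) → ℂ := fun o => o.elim (-1) (Sum.elim c fun j => -(star' (d j)))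
  let ff : Option (ι₁ ⊕ ι₂) → charLattice N := fun o => o.elim φ (Sum.elim φ₁ φ₂)
  have hneg : ∀ (e : ℂ) (ψ : Additive (Gamma0 N) →+ ℤ), (zmultiplesHom ℂ (-e)).comp ψ =
      -((zmultiplesHom ℂ e).comp ψ) := fun e ψ => AddMonoidHom.ext fun x => by
    show zmultiplesHom ℂ (-e) (ψ x) = -(zmultiplesHom ℂ e (ψ x))
    rw [zmultiplesHom_apply, zmultiplesHom_apply, smul_neg]
  have h1 : ∀ ψ : Additive (Gamma0 N) →+ ℤ, (zmultiplesHom ℂ (1 : ℂ)).comp ψ =
      (Int.castAddHom ℂ).comp ψ := fun ψ => AddMonoidHom.ext fun x => by simp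
  have hrel : ∑ o, (zmultiplesHom ℂ (cc o)).comp (ff o).1 = 0 := by
    simp only [Fintype.sum_option, Fintype.sum_sum_type, cc, ff, Option.elim_none,
      Option.elim_some, Sum.elim_inl, Sum.elim_inr, hneg, h1, Finset.sum_neg_distrib, ← hconj]
    have h3 : ∑ j, star'.comp ((zmultiplesHom ℂ (d j)).comp (φ₂ j).1) =
        star'.comp (ModularCurve.periodMap N (frickeLin N b')) := by
      rw [h₂]
      refine AddMonoidHom.ext fun x => ?_
      rw [AddMonoidHom.finsetSum_apply]
      show _ = star' ((∑ j, (zmultiplesHom ℂ (d j)).comp (φ₂ j).1) x)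
      rw [AddMonoidHom.finsetSum_apply, map_sum]
      rfl
    rw [h3, ← h₁]
    show -cast + _ = 0
    rw [← hab]
    abel
  have hres := latticeEval_sum_eq_zero hT t _ _ cc ff hrel
  have z₁ := periodMap_heckeEvalS2 hT t a' ι₁ inferInstance c φ₁ h₁
  have z₂ := periodMap_heckeEvalS2 hT t b' ι₂ inferInstance d φ₂ h₂
  rw [ht, LinearMap.zero_apply, map_zero, ← FLTAgent.Periods.periodMapLin_apply, map_zero]
    at z₁ z₂
  simp only [Fintype.sum_option, Fintype.sum_sum_type, cc, ff, Option.elim_none,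
    Option.elim_some, Sum.elim_inl, Sum.elim_inr, hneg, h1, Finset.sum_neg_distrib, ← hconj,
    ← z₁] at hres
  have h4 : ∑ j, star'.comp ((zmultiplesHom ℂ (d j)).comp (latticeEval hT t (φ₂ j)).1) = 0 := by
    refine AddMonoidHom.ext fun x => ?_
    rw [AddMonoidHom.finsetSum_apply, AddMonoidHom.zero_apply]
    have := congrArg star' (DFunLike.congr_fun z₂ x)
    rw [AddMonoidHom.zero_apply, map_zero, AddMonoidHom.finsetSum_apply, map_sum] at this
    exact this.symm
  rw [h4, neg_zero, add_zero, add_zero, neg_eq_zero] at hres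
  refine Subtype.ext (AddMonoidHom.ext fun x => ?_)
  have := DFunLike.congr_fun hres x
  simpa using this

/-- An element killing the lattice kills the torsion. -/
theorem smul_eq_zero_of_latticeEval (hT : TorsionCount N p) (t : HeckeAlg)
    (ht : latticeEval hT t = 0) :
    letI := heckeModuleBar N
    ∀ (k : ℕ) (x : JZero N), (p ^ k) • x = 0 → t • x = 0 := by
  let := heckeModuleBar N
  intro k x hx
  have hp : p.Prime := Fact.out
  have hn : ∀ j, p ^ j ≠ 0 := fun j => pow_ne_zero _ hp.ne_zero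
  obtain ⟨E, hE⟩ := exists_lift (N := N) hp
  -- divide `x` by `p ^ E`
  obtain ⟨R, -, hcard⟩ := id hT
  obtain ⟨y, hy, rfl⟩ : ∃ y : JZero N, (p ^ (k + E)) • y = 0 ∧ (p ^ E) • y = x := by
    exact exists_nsmul_pow_eq hcard E hx
  have hry := kummerRel_kummer (N := N) (hn (k + E)) ⟨y, hy⟩
  set d := kummer N (hn (k + E)) ⟨y, hy⟩
  obtain ⟨φ, hφ⟩ := hE k d (hry.parabolic (hn _)) (hry.nsmul_eq_zero (hn _))
  have hx' : KummerRel N (p ^ k) ((p ^ E) • y) (redChar (p ^ k) φ) := by
    rw [hφ]
    refine KummerRel.of_mul ?_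
    rw [← pow_add]
    exact hry
  have h := kummerRel_smul hT k t _ φ hx'
  rw [ht, LinearMap.zero_apply, map_zero] at h
  exact MazurStep.kummerRel_eq_of_same (hn k) h KummerRel.zero

end Lattice

/-- `FormsKillTorsion` holds. -/
theorem formsKillTorsion (M M₀ p : ℕ) [NeZero M] [NeZero M₀] (h : M₀ ∣ M) (hp : p.Prime) :
    FormsKillTorsion M M₀ p h := by
  let := heckeModuleBar M₀
  intro S r hr k x hx
  let : Algebra Qbar ℂ := qbarToC.toAlgebra
  have : Fact p.Prime := ⟨hp⟩
  have hev : heckeEvalS2 M₀ (goodIncl M S r) =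
      ((lowerTheta M M₀ h S r : CuspForm.heckeAlgebra M₀ 2 S) :
        Module.End ℂ (CuspForm (Gamma0 M₀) 2)) := by
    refine RingHom.congr_fun (f := (heckeEvalS2 M₀).comp (goodIncl M S))
      (g := ((CuspForm.heckeAlgebra M₀ 2 S).val.toRingHom).comp (lowerTheta M M₀ h S))
      (MvPolynomial.ringHom_ext (fun a => ?_) fun i => ?_) r
    · simp
    · show heckeEvalS2 M₀ (goodIncl M S (MvPolynomial.X i)) =
        ((lowerTheta M M₀ h S (MvPolynomial.X i) : CuspForm.heckeAlgebra M₀ 2 S) :
          Module.End ℂ (CuspForm (Gamma0 M₀) 2))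
      rw [lowerTheta_X, show goodIncl M S (MvPolynomial.X i) = heckeGen i.1 by simp [goodIncl],
        heckeEvalS2_T M₀ i.1 fun hd => i.2.1 (hd.trans h)]
      rfl
  exact smul_eq_zero_of_latticeEval (torsionCount p) _
    (latticeEval_eq_zero _ _ (by rw [hev, hr]; rfl)) k x hx

end FLTAgent.SemistableHecke
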