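import Fermat.Agent.GaloisAttach.TraceFun
import Mathlib.Algebra.MonoidAlgebra.Basic
import Mathlib.LinearAlgebra.Matrix.Trace
import Mathlib.LinearAlgebra.Matrix.Adjugate

/-!
# From relations on torsion to relations between matrices

`ρ : G →* M₂(A)` has the trace function produced by witnesses on the torsion of `J`.  An element
of `ℤ[G]` killing `e J[p^k]` for all `k` maps to a singular matrix, as soon as `λ(e) ≠ 0`.
-/

set_option autoImplicit false

noncomputable section

namespace FLTAgent.SemistableHecke.Transfer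

open FLTAgent.GaloisAttach MonoidAlgebra

variable {G R J A : Type*} [Group G] [CommRing R] [AddCommGroup J] [Module R J]
  [DistribMulAction G J] [CommRing A]
variable {p : ℕ} [Fact p.Prime]

theorem end_add (f g : AddMonoid.End J) (x : J) : (f + g) x = f x + g x := rfl

theorem end_mul (f g : AddMonoid.End J) (x : J) : (f * g) x = f (g x) := rfl

theorem end_one (x : J) : (1 : AddMonoid.End J) x = x := rfl

theorem end_zsmul (n : ℤ) (f : AddMonoid.End J) (x : J) : (n • f) x = n • f x := rfl

variable (G J) in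
/-- The group ring acting on `J`. -/
def act : MonoidAlgebra ℤ G →+* AddMonoid.End J :=
  (MonoidAlgebra.lift ℤ (AddMonoid.End J) G (DistribMulAction.toAddMonoidEnd G J)).toRingHom

theorem act_single (g : G) (n : ℤ) (x : J) : act G J (single g n) x = n • g • x := by
  simp [act]
  rfl

theorem act_mem (X : MonoidAlgebra ℤ G) (S : AddSubgroup J) {x : J}
    (h : ∀ g : G, g • x ∈ S) : act G J X x ∈ S := by
  induction X using MonoidAlgebra.induction_on with
  | of g => rw [MonoidAlgebra.of_apply, act_single, one_smul]; exact h g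
  | add X Y hX hY =>
    rw [map_add, end_add]
    exact add_mem hX hY
  | smul n X hX =>
    rw [map_zsmul, end_zsmul]
    exact zsmul_mem hX n

theorem act_smul [SMulCommClass G R J] (X : MonoidAlgebra ℤ G) (r : R) (x : J) :
    act G J X (r • x) = r • act G J X x := by
  induction X using MonoidAlgebra.induction_on with
  | of g => rw [MonoidAlgebra.of_apply, act_single, act_single, one_smul, one_smul, smul_comm]
  | add X Y hX hY =>
    simp only [map_add, end_add, hX, hY, smul_add]
  | smul n X hX =>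
    simp only [map_zsmul, end_zsmul, hX, smul_comm n r]

/-- The adjoint element on `J[p^n]`: `g ↦ χ(g) g⁻¹`. -/
def actAdj (χ : G →* ℤ_[p]) (n : ℕ) : MonoidAlgebra ℤ G →+ AddMonoid.End J :=
  (Finsupp.liftAddHom fun g : G => (smulAddHom ℤ (AddMonoid.End J)).flip
    (chiNat χ n g • DistribMulAction.toAddMonoidEnd G J g⁻¹)).comp
    MonoidAlgebra.coeffAddEquiv.toAddMonoidHom

theorem actAdj_single (χ : G →* ℤ_[p]) (n : ℕ) (g : G) (z : ℤ) (x : J) :
    actAdj χ n (single g z) x = z • chiNat χ n g • g⁻¹ • x := by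
  simp [actAdj]
  rfl

theorem pow_nsmul_actAdj {χ : G →* ℤ_[p]} {n : ℕ} (X : MonoidAlgebra ℤ G) {x : J}
    (hx : (p ^ n) • x = 0) : (p ^ n) • actAdj χ n X x = 0 := by
  rw [← map_nsmul, hx, map_zero]

variable (G A) in
/-- The group ring acting through a matrix representation. -/
def mat (ρ : G →* Matrix (Fin 2) (Fin 2) A) :
    MonoidAlgebra ℤ G →+* Matrix (Fin 2) (Fin 2) A :=
  (MonoidAlgebra.lift ℤ (Matrix (Fin 2) (Fin 2) A) G ρ).toRingHom

theorem mat_single (ρ : G →* Matrix (Fin 2) (Fin 2) A) (g : G) (n : ℤ) :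
    mat G A ρ (single g n) = n • ρ g := by
  simp [mat]

theorem mat_of (ρ : G →* Matrix (Fin 2) (Fin 2) A) (g : G) :
    mat G A ρ (MonoidAlgebra.of ℤ G g) = ρ g := by
  rw [MonoidAlgebra.of_apply, mat_single, one_smul]

/-- The adjugate, written linearly. -/
def adjM (P : Matrix (Fin 2) (Fin 2) A) : Matrix (Fin 2) (Fin 2) A := P.trace • 1 - P

theorem adjM_eq_adjugate (P : Matrix (Fin 2) (Fin 2) A) : adjM P = P.adjugate := by
  ext i j
  fin_cases i <;> fin_cases j <;>
    simp [adjM, Matrix.adjugate_fin_two, Matrix.trace_fin_two]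

theorem adjM_add (P Q : Matrix (Fin 2) (Fin 2) A) : adjM (P + Q) = adjM P + adjM Q := by
  simp [adjM, Matrix.trace_add, add_smul]; abel

theorem adjM_zsmul (n : ℤ) (P : Matrix (Fin 2) (Fin 2) A) : adjM (n • P) = n • adjM P := by
  rw [adjM, adjM, Matrix.trace_smul, smul_sub, smul_assoc]

theorem trace_mul_adjM_self (P : Matrix (Fin 2) (Fin 2) A) :
    (P * adjM P).trace = 2 * P.det := by
  rw [adjM_eq_adjugate, Matrix.mul_adjugate, Matrix.trace_smul, Matrix.trace_one, smul_eq_mul]
  simp [mul_comm]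

theorem adjM_map_eq (ρ : G →* Matrix (Fin 2) (Fin 2) A) (g : G) :
    adjM (ρ g) = (ρ g).det • ρ g⁻¹ := by
  rw [adjM_eq_adjugate]
  calc (ρ g).adjugate = (ρ g).adjugate * (ρ g * ρ g⁻¹) := by
        rw [← map_mul, mul_inv_cancel, map_one, mul_one]
    _ = _ := by rw [← mul_assoc, Matrix.adjugate_mul, smul_mul_assoc, one_mul]

variable {I : Ideal A} [IsAdicComplete I A] {hpI : (p : A) ∈ I}

/-- A matrix representation linked with witnesses on the torsion of `J`. -/
structure Linked (χ : G →* ℤ_[p]) (lam : R →+* A) (hpI : (p : A) ∈ I) (c : ℕ)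
    (ρ : G →* Matrix (Fin 2) (Fin 2) A) : Prop where
  det_eq : ∀ g, (ρ g).det = padicTo hpI (χ g)
  exists_wit : ∀ (k : ℕ) (g : G), ∃ t : R, IsWit J χ k g t
  spec : ∀ (k : ℕ) (g : G) (t : R), IsWit J χ (k + c) g t → lam t - (ρ g).trace ∈ I ^ k
  kill : ∀ (k : ℕ) (t : R), (∀ x : J, (p ^ (k + c)) • x = 0 → t • x = 0) → lam t ∈ I ^ k

variable {χ : G →* ℤ_[p]} {lam : R →+* A} {c : ℕ} {ρ : G →* Matrix (Fin 2) (Fin 2) A}
  (L : Linked (J := J) χ lam hpI c ρ)

include L in
theorem exists_cross_single (k : ℕ) (g h : G) :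
    ∃ d : R, (∀ x : J, (p ^ (k + c)) • x = 0 →
      g • chiNat χ (k + c) h • h⁻¹ • x + h • chiNat χ (k + c) g • g⁻¹ • x = d • x) ∧
      lam d - (ρ g * adjM (ρ h)).trace ∈ I ^ k := by
  set n := k + c
  obtain ⟨t, ht⟩ := L.exists_wit n (g * h⁻¹)
  refine ⟨(chiNat χ n h : R) * t, fun x hx => ?_, ?_⟩
  · rw [mul_smul, Nat.cast_smul_eq_nsmul, ← ht x hx, nsmul_add, ← mul_smul (chiNat χ n h)
      (chiNat χ n (g * h⁻¹)), mul_inv_rev, inv_inv]
    simp only [smul_comm g, smul_comm h, mul_smul]
    congr 1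
    rw [← mul_smul (chiNat χ n h)]
    refine nsmul_eq_of_natCast_eq ?_ (pow_nsmul_smul_zero h (pow_nsmul_smul_zero g⁻¹ hx))
    rw [Nat.cast_mul, natCast_chiNat, natCast_chiNat, natCast_chiNat, ← map_mul, ← map_mul]
    congr 1
    rw [map_mul χ h, mul_comm, ← map_mul, inv_mul_cancel_right]
  · rw [adjM_map_eq, mul_smul_comm, ← map_mul, Matrix.trace_smul, smul_eq_mul, L.det_eq, map_mul,
      map_natCast]
    have h1 : padicTo hpI (χ h) - (chiNat χ n h : A) ∈ I ^ k :=
      Ideal.pow_le_pow_right (Nat.le_add_right k c) (padicTo_sub_mem hpI n (χ h))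
    have h2 := L.spec k _ t ht
    have := sub_mem (Ideal.mul_mem_left _ (chiNat χ n h : A) h2)
      (Ideal.mul_mem_right (ρ (g * h⁻¹)).trace _ h1)
    convert this using 1
    ring

include L in
theorem exists_cross (k : ℕ) (X Y : MonoidAlgebra ℤ G) :
    ∃ d : R, (∀ x : J, (p ^ (k + c)) • x = 0 →
      act G J X (actAdj χ (k + c) Y x) + act G J Y (actAdj χ (k + c) X x) = d • x) ∧
      lam d - (mat G A ρ X * adjM (mat G A ρ Y)).trace ∈ I ^ k := by
  induction X using MonoidAlgebra.induction_on with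
  | of g =>
    induction Y using MonoidAlgebra.induction_on with
    | of h =>
      obtain ⟨d, hd, hl⟩ := exists_cross_single L k g h
      refine ⟨d, fun x hx => ?_, by simpa only [mat_of] using hl⟩
      simp only [MonoidAlgebra.of_apply, act_single, actAdj_single, one_smul]
      exact hd x hx
    | add Y Y' hY hY' =>
      obtain ⟨d, hd, hl⟩ := hY
      obtain ⟨d', hd', hl'⟩ := hY'
      refine ⟨d + d', fun x hx => ?_, ?_⟩
      · rw [add_smul, ← hd x hx, ← hd' x hx]
        simp only [map_add, end_add]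
        abel
      · rw [map_add, map_add, adjM_add, mul_add, Matrix.trace_add, add_sub_add_comm]
        exact add_mem hl hl'
    | smul z Y hY =>
      obtain ⟨d, hd, hl⟩ := hY
      refine ⟨z • d, fun x hx => ?_, ?_⟩
      · rw [smul_assoc, ← hd x hx]
        simp only [map_zsmul, end_zsmul, smul_add]
      · rw [map_zsmul, map_zsmul, adjM_zsmul, mul_smul_comm, Matrix.trace_smul, ← smul_sub]
        exact zsmul_mem hl z
  | add X X' hX hX' =>
    obtain ⟨d, hd, hl⟩ := hX
    obtain ⟨d', hd', hl'⟩ := hX'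
    refine ⟨d + d', fun x hx => ?_, ?_⟩
    · rw [add_smul, ← hd x hx, ← hd' x hx]
      simp only [map_add, end_add]
      abel
    · rw [map_add, map_add, add_mul, Matrix.trace_add, add_sub_add_comm]
      exact add_mem hl hl'
  | smul z X hX =>
    obtain ⟨d, hd, hl⟩ := hX
    refine ⟨z • d, fun x hx => ?_, ?_⟩
    · rw [smul_assoc, ← hd x hx]
      simp only [map_zsmul, end_zsmul, smul_add]
    · rw [map_zsmul, map_zsmul, smul_mul_assoc, Matrix.trace_smul, ← smul_sub]
      exact zsmul_mem hl z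

include L in
/-- Twice the determinant is represented by `X` composed with twice its adjoint. -/
theorem exists_double_det (k : ℕ) (X : MonoidAlgebra ℤ G) :
    ∃ d : R, (∀ x : J, (p ^ (k + c)) • x = 0 →
      act G J X (2 • actAdj χ (k + c) X x) = d • x) ∧
      lam d - 2 * (mat G A ρ X).det ∈ I ^ k := by
  obtain ⟨d, hd, hl⟩ := exists_cross L k X X
  refine ⟨d, fun x hx => ?_, by rwa [trace_mul_adjM_self] at hl⟩
  rw [two_nsmul, map_add]
  exact hd x hx

variable [SMulCommClass G R J]

omit [SMulCommClass G R J] in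
include L in
/-- An element of the group ring killing `e J[p^∞]` has singular image. -/
theorem det_eq_zero_of_kill [IsDomain A] (h2 : (2 : A) ≠ 0) {X : MonoidAlgebra ℤ G} {e : R}
    (he : lam e ≠ 0) (hX : ∀ (k : ℕ) (x : J), (p ^ k) • x = 0 → e • act G J X x = 0) :
    (mat G A ρ X).det = 0 := by
  have key : ∀ k, lam e * (2 * (mat G A ρ X).det) ∈ I ^ k := fun k => by
    obtain ⟨d, hd, hl⟩ := exists_double_det L k X
    have h0 : lam (e * d) ∈ I ^ k := L.kill k _ fun x hx => by
      rw [mul_smul, ← hd x hx]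
      exact hX (k + c) _ (by rw [smul_comm _ (2 : ℕ), pow_nsmul_actAdj X hx, smul_zero])
    have := sub_mem h0 (Ideal.mul_mem_left _ (lam e) hl)
    rw [map_mul] at this
    convert this using 1
    ring
  have h0 := eq_of_forall_sub_mem_pow (I := I) (a := lam e * (2 * (mat G A ρ X).det)) (b := 0)
    fun k => by rw [sub_zero]; exact key k
  exact (mul_eq_zero.mp ((mul_eq_zero.mp h0).resolve_left he)).resolve_left h2

include L in
/-- If `e X J[p^∞]` lies in a subgroup `S` on whose `G`-stable part of exponent `p` an element `Y`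
with unit determinant vanishes, then `X` has singular image. -/
theorem det_eq_zero_of_range_subset [IsDomain A] (h2 : (2 : A) ≠ 0)
    {X Y : MonoidAlgebra ℤ G} {e : R} (he : lam e ≠ 0) (S : AddSubgroup J)
    (hX : ∀ (k : ℕ) (x : J), (p ^ k) • x = 0 → e • act G J X x ∈ S)
    (hY : ∀ y : J, p • y = 0 → (∀ g : G, g • y ∈ S) → act G J Y y = 0)
    (hYu : IsUnit (mat G A ρ Y).det) : (mat G A ρ X).det = 0 := by
  have key : ∀ k, lam e * (2 * (mat G A ρ X).det) * 2 ∈ I ^ k := fun k => by
    obtain ⟨d, hd, hl⟩ := exists_double_det L k X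
    set n := k + c
    have hB : ∀ z : J, (p ^ n) • z = 0 → ∀ g : G, g • (e * d) • z ∈ S := fun z hz g => by
      rw [smul_comm g (e * d) z, mul_smul, ← hd _ (pow_nsmul_smul_zero g hz)]
      exact hX n _ (by
        rw [smul_comm _ (2 : ℕ), pow_nsmul_actAdj X (pow_nsmul_smul_zero g hz), smul_zero])
    have hz' : ∀ (j : ℕ) (Z : MonoidAlgebra ℤ G) (z : J), (p ^ n) • z = 0 →
        (p ^ j) • (e * d) • act G J Z z = 0 → (e * d) • act G J (Y ^ j * Z) z = 0 := by
      intro j
      induction j with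
      | zero => intro Z z _ h; rwa [pow_zero, one_nsmul, ← one_mul Z, ← pow_zero Y] at h
      | succ j ih =>
        intro Z z hz h
        have hb : p • (p ^ j) • (e * d) • act G J Z z = 0 := by rwa [← mul_smul, ← pow_succ']
        have hmem : ∀ g : G, g • (p ^ j) • (e * d) • act G J Z z ∈ S := fun g => by
          rw [smul_comm g (p ^ j)]
          exact nsmul_mem (hB _ (by rw [← map_nsmul, hz, map_zero]) g) _
        have h1 := hY _ hb hmem
        rw [map_nsmul, act_smul, ← end_mul, ← map_mul] at h1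
        have := ih (Y * Z) z hz h1
        rwa [← mul_assoc, ← pow_succ] at this
    have hkill : ∀ z : J, (p ^ n) • z = 0 → (e * d) • act G J (Y ^ n) z = 0 := fun z hz => by
      simpa using hz' n 1 z hz (by rw [map_one, end_one, smul_comm, hz, smul_zero])
    obtain ⟨d', hd', hl'⟩ := exists_double_det L k (Y ^ n)
    have h0 : lam (e * d * d') ∈ I ^ k := L.kill k _ fun x hx => by
      rw [mul_smul, ← hd' x hx]
      exact hkill _ (by rw [smul_comm _ (2 : ℕ), pow_nsmul_actAdj _ hx, smul_zero])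
    obtain ⟨u, hu⟩ := (hYu.pow n)
    rw [← Matrix.det_pow, ← map_pow] at hu
    rw [map_mul, map_mul] at h0
    have h1 : lam e * (2 * (mat G A ρ X).det) * (2 * (mat G A ρ (Y ^ n)).det) ∈ I ^ k := by
      have a1 := Ideal.mul_mem_left _ (lam e * lam d) hl'
      have a2 := Ideal.mul_mem_left _ (lam e * (2 * (mat G A ρ (Y ^ n)).det)) hl
      have := sub_mem (sub_mem h0 a1) a2
      convert this using 1
      ring
    have h3 := Ideal.mul_mem_right (↑u⁻¹ : A) _ h1
    rw [← hu] at h3
    have h4 : lam e * (2 * (mat G A ρ X).det) * 2 ∈ I ^ k := by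
      convert h3 using 1
      rw [mul_assoc _ _ (↑u⁻¹ : A), mul_assoc 2, Units.mul_inv, mul_one]
    exact h4
  have h0 := eq_of_forall_sub_mem_pow (I := I) (a := lam e * (2 * (mat G A ρ X).det) * 2) (b := 0)
    fun k => by rw [sub_zero]; exact key k
  exact (mul_eq_zero.mp ((mul_eq_zero.mp ((mul_eq_zero.mp h0).resolve_right h2)).resolve_left
    he)).resolve_left h2

end FLTAgent.SemistableHecke.Transfer
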