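import Fermat.Agent.GaloisAttach.DatumUnramified
import Fermat.Agent.GaloisAttach.ModularTrace

/-!
# Local consequences of relations satisfied by the Galois action on `J₀(N)[p^∞]`

Relations such as `(σ - 1)² = 0` or `(σ² - 1)(σ² - q²) = 0` on the torsion points turn into
identities for the attached trace function.
-/

set_option autoImplicit false

noncomputable section

namespace FLTAgent.SemistableHecke

open ModularCurve FLTAgent.GaloisAttach
open FLTAgent.Density (GalQ Qbar)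

/-- A relation `(σ - 1)² = 0` on all `p`-power torsion of `J₀(N)`. -/
def UnipotentSqOn (N p : ℕ) [NeZero N] (σ : GalQ) : Prop :=
  ∀ (k : ℕ) (x : JZero N), (p ^ k) • x = 0 → σ • σ • x + x = 2 • σ • x

/-- The relation `e (σ² - 1)(σ² - q²) = 0` up to a bounded power of `p`. -/
def FrobSqRelOn (N p : ℕ) [NeZero N] (e : HeckeAlg) (q : ℕ) (σ : GalQ) : Prop :=
  letI := heckeModuleBar N
  ∃ d : ℕ, ∀ (k : ℕ) (x : JZero N), (p ^ k) • x = 0 →
    (p ^ d) • e • (σ • σ • σ • σ • x + q ^ 2 • x) =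
      (p ^ d) • e • ((1 + q ^ 2) • σ • σ • x)

section Abstract

variable {G R J : Type*} [Group G] [CommRing R] [AddCommGroup J] [Module R J]
  [DistribMulAction G J]

theorem sq_sub_smul_eq {σ : G} {t : R} {q n : ℕ}
    (hT : ∀ y : J, n • y = 0 → t • y = σ • y + q • σ⁻¹ • y) {x : J} (hx : n • x = 0) :
    (t ^ 2 - (((q + 1) ^ 2 : ℕ) : R)) • x =
      (σ • σ • x + q ^ 2 • σ⁻¹ • σ⁻¹ • x) - (1 + q ^ 2) • x := by
  have hn : ∀ (g : G) (y : J), n • y = 0 → n • g • y = 0 := fun g y hy => by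
    rw [smul_comm n g y, hy, smul_zero]
  have hy : n • (σ • x + q • σ⁻¹ • x) = 0 := by
    rw [smul_add, hn σ x hx, zero_add, smul_comm n q, hn σ⁻¹ x hx, smul_zero]
  rw [sub_smul, pow_two t, mul_smul, hT x hx, hT _ hy, Nat.cast_smul_eq_nsmul,
    show (q + 1) ^ 2 = (1 + q ^ 2) + 2 * q by ring, add_smul (1 + q ^ 2) (2 * q) x]
  simp only [smul_add]
  rw [smul_comm σ q (σ⁻¹ • x), smul_inv_smul, smul_comm σ⁻¹ q (σ⁻¹ • x), inv_smul_smul,
    ← mul_smul q q, ← pow_two, mul_smul 2 q x, two_nsmul, add_smul]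
  abel

omit [DistribMulAction G J] in
theorem smul_smul_sub_eq_zero {m : ℕ} {r : R} {a b : J} (h : m • r • a = m • r • b) :
    m • r • (a - b) = 0 := by
  rw [smul_sub, smul_sub, h, sub_self]

end Abstract

variable {N : ℕ} [NeZero N] {p : ℕ} [Fact p.Prime] {S : Set ℕ} {A : Type} [CommRing A]
  {I : Ideal A} [IsAdicComplete I A] {χ : CuspForm.heckeAlgebra N 2 S →+* A}
  {hpI : (p : A) ∈ I} {T : AttachedTrace N p S I χ} {c : ℕ}

omit [NeZero N] in
theorem chiNat_smul_eq {k n : ℕ} {σ : GalQ} (hσ : cyc p σ = n) {x : JZero N}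
    (hx : (p ^ k) • x = 0) : chiNat (cyc p) k σ • x = n • x :=
  nsmul_eq_of_natCast_eq (by rw [natCast_chiNat, hσ, map_natCast]) hx

theorem det_eq_natCast (L : TraceLink hpI T c) {σ : GalQ} {n : ℕ} (hσ : cyc p σ = n) :
    T.ε σ = n := by
  rw [L.det_eq, hσ, map_natCast]

theorem trace_eq_two (L : TraceLink hpI T c) {σ : GalQ} (hσ : cyc p σ = 1)
    (hrel : UnipotentSqOn N p σ) : T.f σ = 2 := by
  let := heckeModuleBar N
  refine (eq_of_forall_sub_mem_pow (I := I) fun k => ?_).symm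
  have hw : IsWitness (p := p) (k + c) σ (2 : GoodRing N S) := by
    intro x hx
    have hy := pow_nsmul_smul_zero σ⁻¹ hx
    have h := hrel (k + c) _ hy
    rw [smul_inv_smul] at h
    rw [chiNat_smul_eq (n := 1) (by rw [hσ, Nat.cast_one]) hy, one_smul, map_ofNat, h,
      ← Nat.cast_ofNat (R := HeckeAlg), Nat.cast_smul_eq_nsmul]
  have := L.spec k σ 2 hw
  rwa [map_ofNat, map_ofNat] at this

theorem trace_eq_of_frobSqRel [IsDomain A] (L : TraceLink hpI T c) (hp0 : (p : A) ≠ 0)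
    {σ : GalQ} {q : ℕ} (hσ : cyc p σ = q) {e : GoodRing N S}
    (he : χ (goodTheta N S e) ≠ 0) (hrel : FrobSqRelOn N p (goodIncl N S e) q σ) :
    T.f σ = q + 1 ∨ T.f σ = -((q : A) + 1) := by
  let := heckeModuleBar N
  obtain ⟨d, hd⟩ := hrel
  have key : ∀ k, (p : A) ^ d * χ (goodTheta N S e) * (T.f σ ^ 2 - ((q : A) + 1) ^ 2) ∈ I ^ k := by
    intro k
    obtain ⟨t, ht⟩ := L.exists_wit (k + c) σ
    have hkill : ∀ x : JZero N, (p ^ (k + c)) • x = 0 →
        goodIncl N S (((p ^ d : ℕ) : GoodRing N S) * e *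
          (t ^ 2 - (((q + 1) ^ 2 : ℕ) : GoodRing N S))) • x = 0 := by
      intro x hx
      have hT : ∀ y : JZero N, (p ^ (k + c)) • y = 0 →
          goodIncl N S t • y = σ • y + q • σ⁻¹ • y := fun y hy => by
        rw [← ht y hy, chiNat_smul_eq hσ (pow_nsmul_smul_zero σ⁻¹ hy)]
      have hx1 := pow_nsmul_smul_zero σ⁻¹ hx
      have hx2 := pow_nsmul_smul_zero σ⁻¹ hx1
      have h0 := hd (k + c) _ hx2
      simp only [smul_inv_smul] at h0
      have hexp : goodIncl N S (t ^ 2 - (((q + 1) ^ 2 : ℕ) : GoodRing N S)) • x =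
          (σ • σ • x + q ^ 2 • σ⁻¹ • σ⁻¹ • x) - (1 + q ^ 2) • x := by
        rw [map_sub, map_pow, map_natCast]
        exact sq_sub_smul_eq hT hx
      rw [map_mul, map_mul, mul_smul, mul_smul, map_natCast, Nat.cast_smul_eq_nsmul, hexp]
      exact smul_smul_sub_eq_zero h0
    have h1 := L.kill k _ hkill
    simp only [map_mul, map_sub, map_pow, map_natCast, Nat.cast_pow, Nat.cast_add,
      Nat.cast_one, map_add, map_one] at h1
    have h2 := L.spec k σ t ht
    have h3 : χ (goodTheta N S t) ^ 2 - T.f σ ^ 2 ∈ I ^ k := by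
      rw [sq_sub_sq]
      exact Ideal.mul_mem_left _ _ h2
    have := sub_mem h1 (Ideal.mul_mem_left _ ((p : A) ^ d * χ (goodTheta N S e)) h3)
    convert this using 1
    ring
  have h0 := eq_of_forall_sub_mem_pow (I := I)
    (a := (p : A) ^ d * χ (goodTheta N S e) * (T.f σ ^ 2 - ((q : A) + 1) ^ 2)) (b := 0)
    fun k => by rw [sub_zero]; exact key k
  rcases mul_eq_zero.mp h0 with h | h
  · exact absurd h (mul_ne_zero (pow_ne_zero _ hp0) he)
  · exact eq_or_eq_neg_of_sq_eq_sq _ _ (sub_eq_zero.mp h)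

omit [Fact p.Prime] [IsAdicComplete I A] in
/-- In a ring without `2`-torsion a trace function determines its determinant character. -/
theorem two_mul_det (T : AttachedTrace N p S I χ) (g : GalQ) :
    2 * T.ε g = T.f g ^ 2 - T.f (g * g) := by
  have h := T.mul g g
  rw [mul_inv_cancel, T.one] at h
  linear_combination h

omit [Fact p.Prime] [IsAdicComplete I A] in
/-- The determinant of a matrix representation with trace the attached trace function. -/
theorem det_eq_of_trace_eq (h2 : ∀ a : A, 2 * a = 0 → a = 0)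
    (T : AttachedTrace N p S I χ) (M : GalQ →* Matrix (Fin 2) (Fin 2) A)
    (htr : ∀ g, (M g).trace = T.f g) (g : GalQ) : (M g).det = T.ε g := by
  refine sub_eq_zero.mp (h2 _ ?_)
  have h := two_mul_det T g
  rw [← htr g, ← htr (g * g), map_mul, Matrix.trace_fin_two, Matrix.trace_fin_two] at h
  simp only [Matrix.mul_apply, Fin.sum_univ_two] at h
  rw [Matrix.det_fin_two]
  linear_combination -h

end FLTAgent.SemistableHecke
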