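import Fermat.Agent.SemistableHecke.Separator
import Fermat.Agent.SemistableHecke.TraceFacts

/-!
# Frobenius at a prime exactly dividing the level of a newform

S35 from the relation `FrobRelNewPart` for Frobenius on the part of the torsion of the Jacobian
new at that prime; the relation is proved in `SemistableHecke.Assembly`.
-/

set_option autoImplicit false

noncomputable section

open Polynomial

namespace FLTAgent.SemistableHecke

open ModularCurve FLTAgent.GaloisAttach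
open FLTAgent.Density (GalQ Qbar)

/-- A Hecke polynomial killing the forms of level `M₀` kills the torsion of `J₀(M₀)`. -/
def FormsKillTorsion (M M₀ p : ℕ) [NeZero M] [NeZero M₀] (h : M₀ ∣ M) : Prop :=
  letI := heckeModuleBar M₀
  ∀ (S : Set ℕ) (r : GoodRing M S), lowerTheta M M₀ h S r = 0 →
    ∀ (k : ℕ) (x : JZero M₀), (p ^ k) • x = 0 → goodIncl M S r • x = 0

/-- The semistable input at a prime `q` exactly dividing `M = M₀ q`: on the part of the torsion
of `J₀(M)` new at `q` a Frobenius at `q` satisfies `(σ² - 1)(σ² - q²) = 0`, up to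
bounded torsion. -/
def FrobRelNewPart (M M₀ p q : ℕ) [NeZero M] [NeZero M₀] : Prop :=
  ∀ (S : Set ℕ) (e : GoodRing M S),
    (letI := heckeModuleBar M₀;
      ∀ (k : ℕ) (x : JZero M₀), (p ^ k) • x = 0 → goodIncl M S e • x = 0) →
    ∀ P : ValuationSubring Qbar, P.LiesOverPrime q → ∀ σ : GalQ, P.IsFrobeniusAt σ q →
      FrobSqRelOn M p (goodIncl M S e) q σ

theorem eq_zero_of_map_eq_zero {R₀ : Subring ℂ} (hint : ∀ x ∈ R₀, IsIntegral ℤ x) {O : Type}
    [CommRing O] [IsDomain O] [CharZero O] (ι : R₀ →+* O) {x : R₀} (hx : ι x = 0) : x = 0 := by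
  by_contra hne
  have hi : IsIntegral ℤ x :=
    (isIntegral_algHom_iff R₀.subtype.toIntAlgHom Subtype.val_injective).mp (hint x x.2)
  have hbot : Ideal.comap (algebraMap ℤ R₀) (RingHom.ker ι) ≠ ⊥ :=
    Ideal.comap_ne_bot_of_integral_mem hne hx hi
  obtain ⟨c, hc, hc0⟩ := Submodule.exists_mem_ne_zero_of_ne_bot hbot
  rw [Ideal.mem_comap, RingHom.mem_ker, eq_intCast, map_intCast] at hc
  exact hc0 (Int.cast_eq_zero.mp hc)

/-- Statement S35, given the inputs. -/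
theorem exists_galoisRep_steinberg
    {M : ℕ} [NeZero M] {g : CuspForm (CongruenceSubgroup.Gamma0 M) 2} (hg : g.IsNewform)
    (p : ℕ) [Fact p.Prime] (S : Finset ℕ)
    (O : Type) [CommRing O] [IsDomain O] [IsDiscreteValuationRing O]
    [IsAdicComplete (IsLocalRing.maximalIdeal O) O] [Finite (IsLocalRing.ResidueField O)]
    [CharZero O] (hpO : (p : O) ∈ IsLocalRing.maximalIdeal O)
    (χg : CuspForm.heckeAlgebra M 2 (↑S : Set ℕ) →+* ℂ)
    (hχg : ∀ (ℓ : ℕ) (hℓ : ℓ.Prime) (hℓM : ¬ ℓ ∣ M) (hℓS : ℓ ∉ (↑S : Set ℕ)),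
      χg (CuspForm.heckeAlgebra.T hℓ hℓM hℓS) = ModularFormClass.qCoeff g ℓ)
    (ι : χg.range →+* O) (hpS : p ∈ S) (hMS : ∀ q : ℕ, q.Prime → q ∣ M → q ∈ S)
    (hJ : ∀ (N : ℕ) [NeZero N], ∀ p : ℕ, p.Prime → JacobianInputs N p)
    (hF : FrobeniusDivisions)
    (hkill : ∀ (M₀ : ℕ) [NeZero M₀] (h : M₀ ∣ M), FormsKillTorsion M M₀ p h)
    (hrel : ∀ (q M₀ : ℕ) [NeZero M₀], q.Prime → q ≠ p → M = M₀ * q → ¬ q ∣ M₀ →
      FrobRelNewPart M M₀ p q) :
    ∃ (O'' : Type) (_ : CommRing O'') (_ : IsDomain O'') (_ : IsDiscreteValuationRing O'')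
      (_ : IsAdicComplete (IsLocalRing.maximalIdeal O'') O'')
      (_ : Finite (IsLocalRing.ResidueField O''))
      (_ : CharZero O'') (_ : Algebra O O'') (_ : Module.Finite O O'')
      (_ : IsLocalHom (algebraMap O O'')),
      Function.Injective (algebraMap O O'') ∧
      ∃ ρ : GaloisRepAdic O'',
        (∀ (ℓ : ℕ) (hℓ : ℓ.Prime) (hℓM : ¬ ℓ ∣ M) (hℓS : ℓ ∉ (↑S : Set ℕ)),
          ∀ A : ValuationSubring (AlgebraicClosure ℚ), A.LiesOverPrime ℓ →
            ∀ σ : AlgebraicClosure ℚ ≃ₐ[ℚ] AlgebraicClosure ℚ, A.IsFrobeniusAt σ ℓ →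
              LinearMap.charpoly (ρ.ρ σ) =
                X ^ 2 - C (algebraMap O O'' ((ι.comp χg.rangeRestrict)
                    (CuspForm.heckeAlgebra.T hℓ hℓM hℓS))) * X + C ((ℓ : O''))) ∧
        (∀ q : ℕ, q.Prime → q ≠ p → q ∣ M → ¬ q ^ 2 ∣ M →
          ∀ A : ValuationSubring (AlgebraicClosure ℚ), A.LiesOverPrime q →
            ∀ σ : AlgebraicClosure ℚ ≃ₐ[ℚ] AlgebraicClosure ℚ, A.IsFrobeniusAt σ q →
              LinearMap.charpoly (ρ.ρ σ) = X ^ 2 - C ((q : O'') + 1) * X + C ((q : O'')) ∨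
              LinearMap.charpoly (ρ.ρ σ) = X ^ 2 + C ((q : O'') + 1) * X + C ((q : O''))) := by
  classical
  have hp : p.Prime := Fact.out
  obtain ⟨T, c, L⟩ := exists_attachedTrace_link (hJ M p hp) hF S.finite_toSet
    (IsLocalRing.maximalIdeal O) hpO (ι.comp χg.rangeRestrict)
  obtain ⟨R⟩ := T.exists_integralMatrixRep
  have htr : ∀ σ, (R.M σ).trace = T.f σ := trace_eq_attached hF T R.M R.continuous R.frob
  have hdet : ∀ σ, (R.M σ).det = T.ε σ :=
    det_eq_of_trace_eq (fun a ha => (mul_eq_zero.mp ha).resolve_left two_ne_zero) T R.M htr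
  have hcp : ∀ σ, LinearMap.charpoly (R.toRep.ρ σ) = X ^ 2 - C (T.f σ) * X + C (T.ε σ) := by
    intro σ
    rw [← htr, ← hdet]
    exact charpoly_toLinAlgEquiv' (R.M σ)
  refine ⟨O, inferInstance, inferInstance, inferInstance, inferInstance, inferInstance,
    inferInstance, Algebra.id O, inferInstance, ⟨fun _ ha => ha⟩, fun _ _ h => h, R.toRep,
    fun ℓ hℓ hℓM hℓS A hA σ hσ => ?_, fun q hq hqp hqM hq2 A hA σ hσ => ?_⟩
  · have hℓp : ℓ ≠ p := fun h => hℓS (h ▸ hpS)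
    obtain ⟨h1, h2⟩ := T.frob ℓ hℓ hℓM hℓS hℓp A hA σ hσ
    refine (hcp σ).trans ?_
    rw [h1, h2, Algebra.algebraMap_self, RingHom.id_apply]
  obtain ⟨M₀, hM₀⟩ := hqM
  have hMM : M = M₀ * q := hM₀.trans (Nat.mul_comm q M₀)
  have : NeZero M₀ := ⟨fun h => NeZero.ne M (by rw [hMM, h, Nat.zero_mul])⟩
  have hqM₀ : ¬ q ∣ M₀ := fun hd => hq2 (by
    rw [pow_two, hM₀]
    exact Nat.mul_dvd_mul_left q hd)
  have hdvd : M₀ ∣ M := ⟨q, hMM⟩
  have hne : M₀ ≠ M := by
    intro h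
    rw [← h] at hM₀
    nlinarith [NeZero.pos M₀, hq.one_lt, hM₀]
  obtain ⟨e, he0, heg⟩ := exists_separator hF hJ hg hdvd hne S hMS
  have hχ : χg = Eigenforms.eigenChar hg.1 :=
    eq_eigenChar (fun r hr hd => Finset.mem_coe.mpr (hMS r hr hd)) hg.1 χg hχg
  have hint : ∀ x ∈ χg.range, IsIntegral ℤ x := by
    rintro x ⟨t, rfl⟩
    rw [hχ]
    exact Eigenforms.isIntegral_eigenChar (MFIntegral.hasIntegralStructure M 2) hg.1 t
  have heO : (ι.comp χg.rangeRestrict) (goodTheta M (↑S : Set ℕ) e) ≠ 0 := fun h => by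
    have h0 := congrArg Subtype.val (eq_zero_of_map_eq_zero hint ι h)
    refine heg ?_
    rw [← hχ]
    exact h0
  have hcyc : cyc p σ = q := cyc_frobenius p hq hqp hA hσ
  rw [hcp σ, det_eq_natCast L hcyc]
  rcases trace_eq_of_frobSqRel L (Nat.cast_ne_zero.mpr hp.ne_zero) hcyc heO
      (hrel q M₀ hq hqp hMM hqM₀ _ e (fun k x => hkill M₀ hdvd _ e he0 k x) A hA σ hσ) with h | h
  · left; rw [h]
  · right; rw [h, map_neg, neg_mul, sub_neg_eq_add]

end FLTAgent.SemistableHecke
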