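import Fermat.Agent.SemistableHecke.Pushforward
import Fermat.Agent.GaloisAttach.ModularTrace

/-!
# The two degeneracy pushforwards `J₀(Mq) → J₀(M)` and good Hecke operators

`pushJ_alpha_smul` and `pushJ_beta_smul`: both pushforwards commute with the good Hecke
operators (the second given the Atkin–Lehner inputs `ALInputs`).
-/

set_option autoImplicit false

noncomputable section

open AlgebraicCurve ModularCurve FLTAgent.HeckeJacobian FLTAgent.GaloisAttach

namespace FLTAgent.SemistableHecke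

local notation "Qbar" => AlgebraicClosure ℚ

variable (M q : ℕ) [NeZero M] [NeZero q]

/-- The Atkin–Lehner automorphisms of `X₀(Mq)`, for all levels `M` prime to `q`: they exchange the
two degeneracy maps. -/
def ALInputs : Prop :=
  ∀ (M : ℕ) [NeZero M], ¬ q ∣ M →
    ∃ w : modularFunctionFieldBar (M * q) →ₐ[Qbar] modularFunctionFieldBar (M * q),
      w.comp (heckeAlphaBar Qbar M q) = heckeBetaBar Qbar M q ∧
      w.comp (heckeBetaBar Qbar M q) = heckeAlphaBar Qbar M q

variable {M q}

/-- Morphisms out of `F_{Mq}` are determined on the images of the degeneracy maps. -/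
theorem algHom_ext_degeneracy {P : ℕ} [NeZero P]
    {φ ψ : modularFunctionFieldBar (M * q) →ₐ[Qbar] modularFunctionFieldBar P}
    (hα : ∀ x, φ (heckeAlphaBar Qbar M q x) = ψ (heckeAlphaBar Qbar M q x))
    (hβ : ∀ x, φ (heckeBetaBar Qbar M q x) = ψ (heckeBetaBar Qbar M q x)) : φ = ψ := by
  have h₂ : M * 1 ∣ M * q := by rw [mul_one]; exact dvd_mul_right M q
  have hg := closure_range_scaled (M := M) M h₂ (dvd_refl (M * q)) rfl
  rw [← heckeAlphaBar_eq, ← heckeBetaBar_eq] at hg
  refine AlgHom.ext fun x => ?_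
  have hx : x ∈ (Subfield.closure (Set.range (heckeAlphaBar Qbar M q) ∪
      Set.range (heckeBetaBar Qbar M q))) := hg ▸ Subfield.mem_top x
  have heq := RingHom.eqOn_field_closure (f := φ.toRingHom) (g := ψ.toRingHom)
    (s := Set.range (heckeAlphaBar Qbar M q) ∪ Set.range (heckeBetaBar Qbar M q))
    (by rintro _ (⟨y, rfl⟩ | ⟨y, rfl⟩); exacts [hα y, hβ y])
  exact heq hx

theorem al_involutive {w : modularFunctionFieldBar (M * q) →ₐ[Qbar] modularFunctionFieldBar (M * q)}
    (h₁ : w.comp (heckeAlphaBar Qbar M q) = heckeBetaBar Qbar M q)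
    (h₂ : w.comp (heckeBetaBar Qbar M q) = heckeAlphaBar Qbar M q) : w.comp w = AlgHom.id _ _ := by
  refine algHom_ext_degeneracy (fun x => ?_) fun x => ?_
  · show w (w (heckeAlphaBar Qbar M q x)) = _
    rw [show w (heckeAlphaBar Qbar M q x) = heckeBetaBar Qbar M q x from DFunLike.congr_fun h₁ x,
      show w (heckeBetaBar Qbar M q x) = heckeAlphaBar Qbar M q x from DFunLike.congr_fun h₂ x]
    rfl
  · show w (w (heckeBetaBar Qbar M q x)) = _
    rw [show w (heckeBetaBar Qbar M q x) = heckeAlphaBar Qbar M q x from DFunLike.congr_fun h₂ x,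
      show w (heckeAlphaBar Qbar M q x) = heckeBetaBar Qbar M q x from DFunLike.congr_fun h₁ x]
    rfl

theorem finrankAlong_eq_one_of_surjective {K F F' : Type*} [Field K] [Field F] [Field F']
    [Algebra K F] [Algebra K F'] (φ : F →ₐ[K] F') (h : Function.Surjective φ) :
    finrankAlong K φ = 1 := by
  let := algebraAlong φ
  exact ((LinearEquiv.ofBijective (Algebra.linearMap F F') ⟨φ.injective, h⟩).finrank_eq).symm.trans
    (Module.finrank_self F)

theorem finrankAlong_of_involutive {P : ℕ} [NeZero P]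
    {w : modularFunctionFieldBar P →ₐ[Qbar] modularFunctionFieldBar P}
    (h : w.comp w = AlgHom.id _ _) : finrankAlong Qbar w = 1 := by
  exact finrankAlong_eq_one_of_surjective w fun y => ⟨w y, DFunLike.congr_fun h y⟩

/-- The degeneracy map `α` lifts. -/
theorem heckeLift_alpha (hq : q.Prime) {ℓ : ℕ} [NeZero ℓ] (hℓq : ℓ ≠ q) (hℓ : ℓ.Prime) :
    HeckeLift (heckeAlphaBar Qbar M q) ℓ := by
  have h₂ : M * ℓ * 1 ∣ M * q * ℓ := by
    rw [mul_one, mul_right_comm]; exact dvd_mul_right _ _
  refine ⟨⟨scaled h₂, fun x => Subtype.ext ?_, fun x => Subtype.ext ?_, ?_, ?_⟩⟩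
  · simp [qExpand_one_apply]
  · simp [qExpand_one_apply]
  · have key : ∀ (P : ℕ) [NeZero P] (h : M * ℓ * 1 ∣ P), P = M * ℓ * q →
        finrankAlong Qbar (scaled h) = finrankAlong Qbar (heckeAlphaBar Qbar M q) := by
      intro P _ h hP
      subst hP
      have e : scaled h = heckeAlphaBar Qbar (M * ℓ) q := (heckeAlphaBar_eq (M * ℓ) q).symm
      have hiff : q ∣ M * ℓ ↔ q ∣ M := by
        rw [hq.dvd_mul, or_iff_left]
        exact fun hd => hℓq ((Nat.prime_dvd_prime_iff_eq hq hℓ).mp hd).symm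
      rw [e, finrankAlong_heckeAlphaBar (M * ℓ) q hq, finrankAlong_heckeAlphaBar M q hq]
      simp only [hiff]
    exact key (M * q * ℓ) h₂ (mul_right_comm M q ℓ)
  · have hg := closure_range_scaled (M := M * q) (M * ℓ) h₂ (dvd_refl (M * q * ℓ)) rfl
    rwa [← heckeBetaBar_eq] at hg

/-- The Atkin–Lehner automorphism lifts. -/
theorem heckeLift_al (hAL : ALInputs q) {w : modularFunctionFieldBar (M * q) →ₐ[Qbar]
      modularFunctionFieldBar (M * q)}
    (h₁ : w.comp (heckeAlphaBar Qbar M q) = heckeBetaBar Qbar M q)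
    (h₂ : w.comp (heckeBetaBar Qbar M q) = heckeAlphaBar Qbar M q)
    (hq : q.Prime) (hqM : ¬ q ∣ M) {ℓ : ℕ} [NeZero ℓ] (hℓq : ℓ ≠ q) (hℓ : ℓ.Prime) :
    HeckeLift w ℓ := by
  have hqMℓ : ¬ q ∣ M * ℓ := fun hd => (hq.dvd_mul.mp hd).elim hqM
    fun hd' => hℓq ((Nat.prime_dvd_prime_iff_eq hq hℓ).mp hd').symm
  suffices key : ∀ (P : ℕ) [NeZero P], P = M * ℓ * q → ∀ (a : M * q * 1 ∣ P) (b : M * q * ℓ ∣ P)
      (c : M * ℓ * 1 ∣ P) (d : M * ℓ * q ∣ P),
      ∃ w' : modularFunctionFieldBar P →ₐ[Qbar] modularFunctionFieldBar P,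
        (∀ x, w' (scaled a x) = scaled a (w x)) ∧ (∀ x, w' (scaled b x) = scaled b (w x)) ∧
          w'.comp w' = AlgHom.id _ _ by
    obtain ⟨w', ha, hb, hinv⟩ := key (M * q * ℓ) (mul_right_comm M q ℓ)
      (by rw [mul_one]; exact dvd_mul_right _ _) dvd_rfl
      (by rw [mul_one, mul_right_comm]; exact dvd_mul_right _ _) (by rw [mul_right_comm])
    rw [← heckeAlphaBar_eq] at ha
    rw [← heckeBetaBar_eq] at hb
    refine ⟨⟨w', ha, hb, ?_, ?_⟩⟩
    · rw [finrankAlong_of_involutive hinv, finrankAlong_of_involutive (al_involutive h₁ h₂)]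
    · refine eq_top_iff.mpr fun x _ => Subfield.subset_closure (Or.inl ⟨w' x, ?_⟩)
      exact DFunLike.congr_fun hinv x
  intro P _ hP
  subst hP
  intro a b c d
  obtain ⟨w', k₁, k₂⟩ := hAL (M * ℓ) hqMℓ
  have hM : M * 1 ∣ M * ℓ := by rw [mul_one]; exact dvd_mul_right _ _
  have eα : ∀ z : modularFunctionFieldBar M, scaled a (heckeAlphaBar Qbar M q z) =
      heckeAlphaBar Qbar (M * ℓ) q (scaled hM z) :=
    fun z => Subtype.ext (by simp [qExpand_one_apply])
  have eβ : ∀ z : modularFunctionFieldBar M, scaled a (heckeBetaBar Qbar M q z) =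
      heckeBetaBar Qbar (M * ℓ) q (scaled hM z) :=
    fun z => Subtype.ext (by simp [qExpand_one_apply])
  have fα : ∀ z : modularFunctionFieldBar M, scaled b (heckeAlphaBar Qbar M q z) =
      heckeAlphaBar Qbar (M * ℓ) q (scaled (dvd_refl (M * ℓ)) z) :=
    fun z => Subtype.ext (by simp)
  have fβ : ∀ z : modularFunctionFieldBar M, scaled b (heckeBetaBar Qbar M q z) =
      heckeBetaBar Qbar (M * ℓ) q (scaled (dvd_refl (M * ℓ)) z) := by
    intro z
    refine Subtype.ext ?_
    simp only [coe_scaled, coe_heckeBetaBar]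
    have : NeZero (ℓ * q) := ⟨Nat.mul_ne_zero (NeZero.ne ℓ) (NeZero.ne q)⟩
    have : NeZero (q * ℓ) := ⟨Nat.mul_ne_zero (NeZero.ne q) (NeZero.ne ℓ)⟩
    rw [qExpand_qExpand, qExpand_qExpand, qExpand_congr (mul_comm ℓ q)]
  refine ⟨w', fun x => ?_, fun x => ?_, al_involutive k₁ k₂⟩
  · refine DFunLike.congr_fun (f := w'.comp (scaled a)) (g := (scaled a).comp w)
      (algHom_ext_degeneracy (fun z => ?_) fun z => ?_) x
    · show w' (scaled a (heckeAlphaBar Qbar M q z)) = scaled a (w (heckeAlphaBar Qbar M q z))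
      rw [eα, show w (heckeAlphaBar Qbar M q z) = _ from DFunLike.congr_fun h₁ z, eβ]
      exact DFunLike.congr_fun k₁ _
    · show w' (scaled a (heckeBetaBar Qbar M q z)) = scaled a (w (heckeBetaBar Qbar M q z))
      rw [eβ, show w (heckeBetaBar Qbar M q z) = _ from DFunLike.congr_fun h₂ z, eα]
      exact DFunLike.congr_fun k₂ _
  · refine DFunLike.congr_fun (f := w'.comp (scaled b)) (g := (scaled b).comp w)
      (algHom_ext_degeneracy (fun z => ?_) fun z => ?_) x
    · show w' (scaled b (heckeAlphaBar Qbar M q z)) = scaled b (w (heckeAlphaBar Qbar M q z))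
      rw [fα, show w (heckeAlphaBar Qbar M q z) = _ from DFunLike.congr_fun h₁ z, fβ]
      exact DFunLike.congr_fun k₁ _
    · show w' (scaled b (heckeBetaBar Qbar M q z)) = scaled b (w (heckeBetaBar Qbar M q z))
      rw [fβ, show w (heckeBetaBar Qbar M q z) = _ from DFunLike.congr_fun h₂ z, fα]
      exact DFunLike.congr_fun k₂ _

theorem pushJ_alpha_smul (hq : q.Prime) {S : Set ℕ} (e : GoodRing (M * q) S) (x : JZero (M * q)) :
    pushJ (heckeAlphaBar Qbar M q)
        (letI := heckeModuleBar (M * q); goodIncl (M * q) S e • x) =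
      (letI := heckeModuleBar M;
        goodIncl (M * q) S e • pushJ (heckeAlphaBar Qbar M q) x) := by
  rw [heckeModuleBar_smul_def (heckeOperatorsCommuteBar (M * q)),
    heckeModuleBar_smul_def (heckeOperatorsCommuteBar M)]
  induction e using MvPolynomial.induction_on generalizing x with
  | C a => simp [goodIncl, ← MvPolynomial.algebraMap_eq]
  | add u v hu hv => simp only [map_add, LinearMap.add_apply, hu, hv]
  | mul_X u i hu =>
    have : NeZero ((i.1 : ℕ)) := ⟨i.1.2.ne_zero⟩
    have hX : goodIncl (M * q) S (MvPolynomial.X i) = heckeGen i.1 := by simp [goodIncl]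
    have hne : (i.1 : ℕ) ≠ q := fun h => i.2.1 (by rw [h]; exact dvd_mul_left q M)
    rw [map_mul, map_mul, map_mul, Module.End.mul_apply, Module.End.mul_apply, hu, hX,
      heckeEvalBar_heckeGen, heckeEvalBar_heckeGen,
      pushJ_heckeOperatorBar i.1 (heckeLift_alpha hq hne i.1.2)]

/-- Pushforward along the second degeneracy map commutes with the good Hecke elements. -/
theorem pushJ_beta_smul (hq : q.Prime) (hqM : ¬ q ∣ M) (hAL : ALInputs q) {S : Set ℕ}
    (e : GoodRing (M * q) S) (x : JZero (M * q)) :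
    pushJ (heckeBetaBar Qbar M q)
        (letI := heckeModuleBar (M * q); goodIncl (M * q) S e • x) =
      (letI := heckeModuleBar M;
        goodIncl (M * q) S e • pushJ (heckeBetaBar Qbar M q) x) := by
  obtain ⟨w, h₁, h₂⟩ := hAL M hqM
  have hw : ∀ (e : GoodRing (M * q) S) (x : JZero (M * q)),
      pushJ w (heckeEvalBar (heckeOperatorsCommuteBar (M * q)) (goodIncl (M * q) S e) x) =
        heckeEvalBar (heckeOperatorsCommuteBar (M * q)) (goodIncl (M * q) S e) (pushJ w x) := by
    intro e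
    induction e using MvPolynomial.induction_on with
    | C a => intro x; simp [goodIncl, ← MvPolynomial.algebraMap_eq]
    | add u v hu hv => intro x; simp only [map_add, LinearMap.add_apply, hu, hv]
    | mul_X u i hu =>
      intro x
      have : NeZero ((i.1 : ℕ)) := ⟨i.1.2.ne_zero⟩
      have hX : goodIncl (M * q) S (MvPolynomial.X i) = heckeGen i.1 := by simp [goodIncl]
      have hne : (i.1 : ℕ) ≠ q := fun h => i.2.1 (by rw [h]; exact dvd_mul_left q M)
      rw [map_mul, map_mul, Module.End.mul_apply, Module.End.mul_apply, hu, hX,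
        heckeEvalBar_heckeGen,
        pushJ_heckeOperatorBar i.1 (heckeLift_al hAL h₁ h₂ hq hqM hne i.1.2)]
  have hβ : ∀ y, pushJ (heckeBetaBar Qbar M q) y = pushJ (heckeAlphaBar Qbar M q) (pushJ w y) :=
    fun y => by rw [pushJ_comp, h₁]
  have hα := pushJ_alpha_smul (M := M) hq e (pushJ w x)
  rw [heckeModuleBar_smul_def (heckeOperatorsCommuteBar (M * q)),
    heckeModuleBar_smul_def (heckeOperatorsCommuteBar M)] at hα ⊢
  rw [hβ, hβ, hw, hα]

end FLTAgent.SemistableHecke
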