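import Fermat.Agent.HeckeJacobian.HeckeCommute

/-!
# Pushforwards between modular Jacobians commute with Hecke operators

`pushJ` is the pushforward along an embedding of function fields; see
`pushJ_heckeOperatorBar` and `pushJ_galois`.
-/

set_option autoImplicit false

noncomputable section

open AlgebraicCurve ModularCurve FLTAgent.HeckeJacobian

namespace FLTAgent.SemistableHecke

local notation "Qbar" => AlgebraicClosure ℚ

variable {N M : ℕ} [NeZero N] [NeZero M]

theorem integralAlong (φ : modularFunctionFieldBar N →ₐ[Qbar] modularFunctionFieldBar M) :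
    φ.toRingHom.IsIntegral :=
  FFBasic.isIntegral_of_isFunctionField φ

/-- Pushforward of divisors along a morphism of modular function fields. -/
def pushDiv (φ : modularFunctionFieldBar N →ₐ[Qbar] modularFunctionFieldBar M) :
    Divisor Qbar (modularFunctionFieldBar M) →+ Divisor Qbar (modularFunctionFieldBar N) :=
  Divisor.pushforwardAlong φ (integralAlong φ)

/-- Pushforward on divisors of degree zero. -/
def pushDegZero (φ : modularFunctionFieldBar N →ₐ[Qbar] modularFunctionFieldBar M) :
    Divisor.degZero (K := Qbar) (F := modularFunctionFieldBar M) →+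
      Divisor.degZero (K := Qbar) (F := modularFunctionFieldBar N) :=
  ((pushDiv φ).domRestrict
    (Divisor.degZero (K := Qbar) (F := modularFunctionFieldBar M))).codRestrict
    _ fun D => Divisor.pushforwardAlong_mem_degZero φ (integralAlong φ) D.2

@[simp] theorem coe_pushDegZero (φ : modularFunctionFieldBar N →ₐ[Qbar] modularFunctionFieldBar M)
    (D : Divisor.degZero (K := Qbar) (F := modularFunctionFieldBar M)) :
    (pushDegZero φ D : Divisor Qbar (modularFunctionFieldBar N)) = pushDiv φ D := rfl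

/-- Pushforward on Jacobians. -/
def pushJ (φ : modularFunctionFieldBar N →ₐ[Qbar] modularFunctionFieldBar M) :
    JZero M →+ JZero N :=
  QuotientAddGroup.map _ _ (pushDegZero φ) (by
    rintro ⟨D, hD0⟩ hD
    simp only [AddSubgroup.mem_addSubgroupOf] at hD ⊢
    exact Divisor.isPrincipal_pushforwardAlong φ (integralAlong φ) (FFBasic.finiteAlong φ)
      (FFBasic.normFormulaAlong φ _) hD)

theorem pushJ_mk (φ : modularFunctionFieldBar N →ₐ[Qbar] modularFunctionFieldBar M)
    (D : Divisor.degZero (K := Qbar) (F := modularFunctionFieldBar M)) :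
    pushJ φ (Pic0.mk D) = Pic0.mk (pushDegZero φ D) := rfl

theorem pushDiv_comp {P : ℕ} [NeZero P]
    (φ : modularFunctionFieldBar N →ₐ[Qbar] modularFunctionFieldBar M)
    (ψ : modularFunctionFieldBar M →ₐ[Qbar] modularFunctionFieldBar P)
    (D : Divisor Qbar (modularFunctionFieldBar P)) :
    pushDiv φ (pushDiv ψ D) = pushDiv (ψ.comp φ) D :=
  DFunLike.congr_fun (pushforwardAlong_comp separatesPlaces_of_isFunctionField φ ψ (ψ.comp φ)
    (fun _ => rfl) (integralAlong φ) (integralAlong ψ) (integralAlong (ψ.comp φ))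
    (FFBasic.finiteAlong φ) (FFBasic.finiteAlong ψ)
    (FFBasic.finiteAlong (ψ.comp φ)) (FFBasic.normFormulaAlong φ _) (FFBasic.normFormulaAlong ψ _)
    (FFBasic.normFormulaAlong (ψ.comp φ) _)) D

theorem pushJ_comp {P : ℕ} [NeZero P]
    (φ : modularFunctionFieldBar N →ₐ[Qbar] modularFunctionFieldBar M)
    (ψ : modularFunctionFieldBar M →ₐ[Qbar] modularFunctionFieldBar P) (x : JZero P) :
    pushJ φ (pushJ ψ x) = pushJ (ψ.comp φ) x := by
  obtain ⟨D, rfl⟩ := Pic0.mk_surjective x
  rw [pushJ_mk, pushJ_mk, pushJ_mk]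
  exact congrArg Pic0.mk (Subtype.ext (pushDiv_comp φ ψ _))

/-- `φ : F_N → F_M` lifts to level `ℓ`, compatibly with both degeneracy maps, by a map of the same
degree whose image together with `F_M(ℓτ)` generates. -/
structure HeckeLift (φ : modularFunctionFieldBar N →ₐ[Qbar] modularFunctionFieldBar M) (ℓ : ℕ)
    [NeZero ℓ] : Prop where
  exists_lift : ∃ φ' : modularFunctionFieldBar (N * ℓ) →ₐ[Qbar] modularFunctionFieldBar (M * ℓ),
    (∀ x, φ' (heckeAlphaBar Qbar N ℓ x) = heckeAlphaBar Qbar M ℓ (φ x)) ∧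
    (∀ x, φ' (heckeBetaBar Qbar N ℓ x) = heckeBetaBar Qbar M ℓ (φ x)) ∧
    finrankAlong Qbar φ' = finrankAlong Qbar φ ∧
    Subfield.closure (Set.range φ' ∪ Set.range (heckeBetaBar Qbar M ℓ)) = ⊤

theorem pushJ_heckeOperatorBar {φ : modularFunctionFieldBar N →ₐ[Qbar] modularFunctionFieldBar M}
    (ℓ : Nat.Primes) [NeZero (ℓ : ℕ)] (hφ : HeckeLift φ (ℓ : ℕ)) (x : JZero M) :
    pushJ φ (heckeOperatorBar M ℓ x) = heckeOperatorBar N ℓ (pushJ φ x) := by
  obtain ⟨φ', hα, hβ, hrank, hgen⟩ := hφ.exists_lift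
  obtain ⟨D, rfl⟩ := Pic0.mk_surjective x
  obtain ⟨E, hE, eE⟩ := heckeOperatorBar_mk (N := M) ℓ D
  obtain ⟨E', hE', eE'⟩ := heckeOperatorBar_mk (N := N) ℓ (pushDegZero φ D)
  rw [hE, pushJ_mk, pushJ_mk, hE']
  refine congrArg Pic0.mk (Subtype.ext ?_)
  rw [coe_pushDegZero, eE, eE', coe_pushDegZero]
  simp only [scaledPush, scaledPull, ← heckeAlphaBar_eq,
    ← heckeBetaBar_eq]
  have h1 : pushDiv φ (pushDiv (heckeAlphaBar Qbar M ℓ)
      (Divisor.pullbackAlong (heckeBetaBar Qbar M ℓ)
        (integralAlong _) (D : Divisor Qbar _))) =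
      pushDiv (heckeAlphaBar Qbar N ℓ) (pushDiv φ'
        (Divisor.pullbackAlong (heckeBetaBar Qbar M ℓ)
          (integralAlong _) (D : Divisor Qbar _))) := by
    rw [pushDiv_comp, pushDiv_comp,
      show (heckeAlphaBar Qbar M ℓ).comp φ = φ'.comp (heckeAlphaBar Qbar N ℓ) from
        AlgHom.ext fun y => (hα y).symm]
  have h2 : pushDiv φ' (Divisor.pullbackAlong (heckeBetaBar Qbar M ℓ)
        (integralAlong _) (D : Divisor Qbar _)) =
      Divisor.pullbackAlong (heckeBetaBar Qbar N ℓ) (integralAlong _)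
        (pushDiv φ (D : Divisor Qbar _)) :=
    (DFunLike.congr_fun (pullbackAlong_comp_pushforwardAlong separatesPlaces_of_isFunctionField φ
      (heckeBetaBar Qbar N ℓ) (heckeBetaBar Qbar M ℓ) φ' (fun y => (hβ y).symm)
      (integralAlong φ) (integralAlong _) (integralAlong _) (integralAlong φ')
      (FFBasic.finiteAlong φ) (FFBasic.finiteAlong φ') (FFBasic.normFormulaAlong φ _)
      (FFBasic.normFormulaAlong φ' _) hrank hgen) _).symm
  exact h1.trans (congrArg _ h2)

theorem pushJ_galois (φ : modularFunctionFieldBar N →ₐ[Qbar] modularFunctionFieldBar M)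
    (σ : Qbar ≃ₐ[ℚ] Qbar)
    (hφ : SemilinearAut.IntertwinesAlong φ.toRingHom
      (arithmeticGalois (modularFunctionFieldFull N) σ)
      (arithmeticGalois (modularFunctionFieldFull M) σ)) (x : JZero M) :
    pushJ φ (σ • x) = σ • pushJ φ x := by
  obtain ⟨D, rfl⟩ := Pic0.mk_surjective x
  rw [galois_smul_pic0_def, galois_smul_pic0_def, SemilinearAut.pic0_smul_mk, pushJ_mk, pushJ_mk,
    SemilinearAut.pic0_smul_mk]
  refine congrArg Pic0.mk (Subtype.ext ?_)
  set g := arithmeticGalois (modularFunctionFieldFull N) σ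
  set g' := arithmeticGalois (modularFunctionFieldFull M) σ
  have key : (pushDiv φ).comp (DistribSMul.toAddMonoidHom _ g') =
      (DistribSMul.toAddMonoidHom _ g).comp (pushDiv φ) := by
    have hloc := isLocal_pushforwardAlong φ (integralAlong φ)
    refine eq_of_eq_on_principal separatesPlaces_of_isFunctionField
      (hloc.comp (isLocal_smul g')) ((isLocal_smul g).comp hloc)
      fun P f hf hP => Finsupp.ext fun w => ?_
    show pushDiv φ (g' • P) w = (g • pushDiv φ P) w
    rw [pushDiv, pushforwardAlong_apply_principal φ _ (FFBasic.finiteAlong φ)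
        (FFBasic.normFormulaAlong φ _) (by simpa using hf) (smul_apply_principal g' hP),
      smul_apply_principal g (pushforwardAlong_apply_principal φ _ (FFBasic.finiteAlong φ)
        (FFBasic.normFormulaAlong φ _) hf hP), normAlong_smul φ g g' hφ]
  simp only [coe_pushDegZero, SemilinearAut.coe_degZeroSMulHom]
  exact DFunLike.congr_fun key _

theorem intertwines_scaled {d : ℕ} [NeZero d] (h : N * d ∣ M) (σ : Qbar ≃ₐ[ℚ] Qbar) :
    SemilinearAut.IntertwinesAlong (scaled h).toRingHom
      (arithmeticGalois (modularFunctionFieldFull N) σ)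
      (arithmeticGalois (modularFunctionFieldFull M) σ) :=
  fun _ => Subtype.ext (ModularCurve.coeffMap_qExpand _ _ _)

/-- The first degeneracy map commutes with the Galois action. -/
theorem intertwines_alpha {ℓ : ℕ} [NeZero ℓ] (σ : Qbar ≃ₐ[ℚ] Qbar) :
    SemilinearAut.IntertwinesAlong (heckeAlphaBar Qbar N ℓ).toRingHom
      (arithmeticGalois (modularFunctionFieldFull N) σ)
      (arithmeticGalois (modularFunctionFieldFull (N * ℓ)) σ) := by
  rw [heckeAlphaBar_eq]; exact intertwines_scaled _ σ

/-- The second degeneracy map commutes with the Galois action. -/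
theorem intertwines_beta {ℓ : ℕ} [NeZero ℓ] (σ : Qbar ≃ₐ[ℚ] Qbar) :
    SemilinearAut.IntertwinesAlong (heckeBetaBar Qbar N ℓ).toRingHom
      (arithmeticGalois (modularFunctionFieldFull N) σ)
      (arithmeticGalois (modularFunctionFieldFull (N * ℓ)) σ) := by
  rw [heckeBetaBar_eq]; exact intertwines_scaled _ σ

end FLTAgent.SemistableHecke
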