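import Fermat.Agent.SemistableHecke.Triv

/-!
# The norm relation: classes killed by a pushforward to level `M`

If `α_* x = 0` then `x + φ (w x)` has trivial residual series at infinity, `φ` a Frobenius at `q`
and `w` the Atkin–Lehner involution.  Inertia elements fix residual series.
-/

set_option autoImplicit false

noncomputable section

open AlgebraicCurve ModularCurve FLTAgent.HeckeJacobian FLTAgent.CongruenceRel

namespace FLTAgent.SemistableHecke

local notation "Qbar" => AlgebraicClosure ℚ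

variable {M q : ℕ} [NeZero M] [NeZero q]
variable {w : modularFunctionFieldBar (M * q) →ₐ[Qbar] modularFunctionFieldBar (M * q)}

/-- The involution commutes with the Galois action. -/
theorem al_intertwines (hwα : w.comp (heckeAlphaBar Qbar M q) = heckeBetaBar Qbar M q)
    (hwβ : w.comp (heckeBetaBar Qbar M q) = heckeAlphaBar Qbar M q) (σ : Qbar ≃ₐ[ℚ] Qbar) :
    SemilinearAut.IntertwinesAlong w.toRingHom
      (arithmeticGalois (modularFunctionFieldFull (M * q)) σ)
      (arithmeticGalois (modularFunctionFieldFull (M * q)) σ) := by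
  set g := arithmeticGalois (modularFunctionFieldFull (M * q)) σ
  set g₀ := arithmeticGalois (modularFunctionFieldFull M) σ
  have hα : ∀ z, g • heckeAlphaBar Qbar M q z = heckeAlphaBar Qbar M q (g₀ • z) :=
    intertwines_alpha σ
  have hβ : ∀ z, g • heckeBetaBar Qbar M q z = heckeBetaBar Qbar M q (g₀ • z) :=
    intertwines_beta σ
  have h₂ : M * 1 ∣ M * q := by rw [mul_one]; exact dvd_mul_right M q
  have hg := closure_range_scaled (M := M) M h₂ (dvd_refl (M * q)) rfl
  rw [← heckeAlphaBar_eq, ← heckeBetaBar_eq] at hg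
  let G : modularFunctionFieldBar (M * q) →+* modularFunctionFieldBar (M * q) :=
    MulSemiringAction.toRingHom (SemilinearAut Qbar (modularFunctionFieldBar (M * q)))
      (modularFunctionFieldBar (M * q)) g
  intro x
  have hx : x ∈ Subfield.closure (Set.range (heckeAlphaBar Qbar M q) ∪
      Set.range (heckeBetaBar Qbar M q)) := hg ▸ Subfield.mem_top x
  have heq := RingHom.eqOn_field_closure (f := G.comp w.toRingHom) (g := w.toRingHom.comp G)
    (s := Set.range (heckeAlphaBar Qbar M q) ∪ Set.range (heckeBetaBar Qbar M q))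
    (by
      rintro _ (⟨z, rfl⟩ | ⟨z, rfl⟩)
      · show g • w (heckeAlphaBar Qbar M q z) = w (g • heckeAlphaBar Qbar M q z)
        rw [hα, show w (heckeAlphaBar Qbar M q z) = _ from DFunLike.congr_fun hwα z,
          show w (heckeAlphaBar Qbar M q (g₀ • z)) = _ from DFunLike.congr_fun hwα (g₀ • z)]
        exact hβ z
      · show g • w (heckeBetaBar Qbar M q z) = w (g • heckeBetaBar Qbar M q z)
        rw [hβ, show w (heckeBetaBar Qbar M q z) = _ from DFunLike.congr_fun hwβ z,
          show w (heckeBetaBar Qbar M q (g₀ • z)) = _ from DFunLike.congr_fun hwβ (g₀ • z)]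
        exact hα z)
  exact heq hx

theorem pushJ_al_galois (hwα : w.comp (heckeAlphaBar Qbar M q) = heckeBetaBar Qbar M q)
    (hwβ : w.comp (heckeBetaBar Qbar M q) = heckeAlphaBar Qbar M q) (σ : Qbar ≃ₐ[ℚ] Qbar)
    (x : JZero (M * q)) : pushJ w (σ • x) = σ • pushJ w x :=
  pushJ_galois w σ (al_intertwines hwα hwβ σ) x

theorem normAlong_al (hwα : w.comp (heckeAlphaBar Qbar M q) = heckeBetaBar Qbar M q)
    (hwβ : w.comp (heckeBetaBar Qbar M q) = heckeAlphaBar Qbar M q)
    (f : modularFunctionFieldBar (M * q)) : normAlong w f = w f := by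
  have hinv := al_involutive hwα hwβ
  let := algebraAlong w
  have hf' : f = algebraMap (modularFunctionFieldBar (M * q)) _ (w f) :=
    (DFunLike.congr_fun hinv f).symm
  show Algebra.norm (modularFunctionFieldBar (M * q)) f = w f
  conv_lhs => rw [hf']
  rw [Algebra.norm_algebraMap]
  have := finrankAlong_of_involutive hinv
  unfold finrankAlong at this
  rw [this, pow_one]

/-- The divisor of a pushforward of a principal multiple. -/
theorem pushDiv_mul_eq_ord {N N' : ℕ} [NeZero N] [NeZero N']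
    (φ : modularFunctionFieldBar N →ₐ[Qbar] modularFunctionFieldBar N') {m : ℕ}
    {D : Divisor Qbar (modularFunctionFieldBar N')} {f : modularFunctionFieldBar N'} (hf : f ≠ 0)
    (hD : ∀ v, (m : ℤ) * D v = v.ord f) (v : Place Qbar (modularFunctionFieldBar N)) :
    (m : ℤ) * pushDiv φ D v = v.ord (normAlong φ f) := by
  rw [← pushforwardAlong_apply_principal φ (integralAlong φ) (FFBasic.finiteAlong φ)
    (FFBasic.normFormulaAlong φ _) (D := m • D) hf
    (fun u => by rw [Finsupp.smul_apply, nsmul_eq_mul, hD u]) v]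
  rw [show Divisor.pushforwardAlong φ (integralAlong φ) (m • D) = m • pushDiv φ D
    from map_nsmul _ _ _,
    Finsupp.smul_apply, nsmul_eq_mul]

section Residual

variable {A : ValuationSubring Qbar}

local notation "kA" => IsLocalRing.ResidueField A

/-- The action of a decomposition element on series residues. -/
theorem hasBar_galois {σ : Qbar ≃ₐ[ℚ] Qbar} (hσ : σ ∈ A.decompositionSubgroup ℚ)
    {ρ : IsLocalRing.ResidueField A →+* IsLocalRing.ResidueField A}
    (hρ : ∀ x, (⟨σ, hσ⟩ : A.decompositionSubgroup ℚ) • x = ρ x) {N : ℕ}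
    {f : modularFunctionFieldBar N} {r : LaurentSeries kA}
    (h : HasBar A (f : LaurentSeries Qbar) r) :
    HasBar A ((arithmeticGalois (modularFunctionFieldFull N) σ • f : modularFunctionFieldBar N) :
      LaurentSeries Qbar) (coeffMap ρ r) := by
  rw [coe_arithmeticGalois_smul]
  refine h.coeffMap_aut (σA := MulSemiringAction.toRingHom (A.decompositionSubgroup ℚ) A ⟨σ, hσ⟩)
    (fun a => rfl) fun a => ?_
  rw [← hρ]
  rfl

omit [NeZero M] [NeZero q] in
theorem IsData.smul {σ : Qbar ≃ₐ[ℚ] Qbar} (hσ : σ ∈ A.decompositionSubgroup ℚ)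
    {ρ : IsLocalRing.ResidueField A →+* IsLocalRing.ResidueField A}
    (hρ : ∀ x, (⟨σ, hσ⟩ : A.decompositionSubgroup ℚ) • x = ρ x) {m : ℕ} {x : JZero (M * q)}
    {f : modularFunctionFieldBar (M * q)} {r : LaurentSeries kA} (h : IsData A m x f r) :
    IsData A m (σ • x) (arithmeticGalois (modularFunctionFieldFull (M * q)) σ • f)
      (coeffMap ρ r) := by
  obtain ⟨D, hD, hf, hdiv, hr, hb⟩ := h
  set g := arithmeticGalois (modularFunctionFieldFull (M * q)) σ
  refine ⟨SemilinearAut.degZeroSMulHom g D, ?_, (smul_ne_zero_iff_ne g).mpr hf, fun v => ?_,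
    fun h0 => hr (coeffMap_injective ρ.injective (h0.trans (map_zero _).symm)),
    hasBar_galois hσ hρ hb⟩
  · rw [← hD, galois_smul_pic0_def, SemilinearAut.pic0_smul_mk]
  · rw [SemilinearAut.coe_degZeroSMulHom, SemilinearAut.divisor_smul_apply, hdiv,
      ← SemilinearAut.ord_smul g, smul_inv_smul]

/-- Inertia moves classes by trivial ones. -/
theorem triv_inertia_sub [IsAlgClosed (IsLocalRing.ResidueField A)] {ℓ : ℕ} (hℓ : ℓ.Prime)
    (hA : A.LiesOverPrime ℓ) {σ : Qbar ≃ₐ[ℚ] Qbar} (hσ : σ ∈ A.decompositionSubgroup ℚ)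
    (hI : ∀ x : IsLocalRing.ResidueField A, (⟨σ, hσ⟩ : A.decompositionSubgroup ℚ) • x = x)
    {m : ℕ} {x : JZero (M * q)} (hx : m • x = 0) : Triv A m (σ • x - x) := by
  obtain ⟨f, r, hf⟩ := exists_isData hℓ hA hx
  have h1 := hf.smul hσ (ρ := RingHom.id _) hI
  rw [coeffMap_id] at h1
  rw [sub_eq_add_neg]
  refine ⟨_, _, h1.mul hf.neg, ?_⟩
  rw [mul_inv_cancel₀ (show r ≠ 0 from hf.choose_spec.2.2.2.1), ← HahnSeries.single_zero_one]
  exact isTrivRes_const one_ne_zero

variable [Fact q.Prime] [IsAlgClosed (IsLocalRing.ResidueField A)]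
  [CharP (IsLocalRing.ResidueField A) q]
  (S : Semistable.Level.Setting M q A (IsLocalRing.residue A))

omit [IsAlgClosed (IsLocalRing.ResidueField A)] in
/-- Residual series of the norm to level `M`. -/
theorem hasBar_norm_alpha (hqM : ¬ q ∣ M)
    (hwα : w.comp (heckeAlphaBar Qbar M q) = heckeBetaBar Qbar M q)
    (hwβ : w.comp (heckeBetaBar Qbar M q) = heckeAlphaBar Qbar M q)
    {f : modularFunctionFieldBar (M * q)} {c : Qbar} {r₁ r₂ : LaurentSeries kA}
    (h₁ : HasBar A (f : LaurentSeries Qbar) r₁)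
    (h₂ : HasBar A ((c • w f : modularFunctionFieldBar (M * q)) : LaurentSeries Qbar) r₂) :
    HasBar A (HahnSeries.single (0 : ℤ) (c ^ q) *
        qExpand Qbar q (normAlong (heckeAlphaBar Qbar M q) f : LaurentSeries Qbar))
      (qExpand kA q r₁ * r₂ ^ q) := by
  obtain ⟨u, hu⟩ := exists_primitiveRoot q
  have hc : ∀ v : Qbarˣ, twist v (HahnSeries.single (0 : ℤ) c) = HahnSeries.single 0 c :=
    fun v => by
    ext n
    rw [twist_coeff]
    rcases eq_or_ne n 0 with rfl | hn
    · rw [zpow_zero, Units.val_one, one_mul]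
    · rw [HahnSeries.coeff_single_of_ne hn, mul_zero]
  rw [series_norm_alpha Fact.out hqM hwα hwβ hu, mul_left_comm,
    show HahnSeries.single (0 : ℤ) (c ^ q) *
        ∏ j : Fin q, twist (u ^ (j : ℕ)) (w f : LaurentSeries Qbar) =
      ∏ j : Fin q, twist (u ^ (j : ℕ)) (HahnSeries.single 0 c * (w f : LaurentSeries Qbar)) by
    simp only [map_mul, hc, Finset.prod_mul_distrib, Finset.prod_const, Finset.card_univ,
      Fintype.card_fin]
    congr 1
    rw [HahnSeries.single_pow, nsmul_zero]]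
  rw [← single_mul_eq_smul] at h₂
  refine (h₁.qExpand q).mul ?_
  have hq0 : 0 < q := NeZero.pos q
  have huA : ∀ j : ℕ, ((u ^ j : Qbarˣ) : Qbar) ∈ A := fun j => by
    refine (A.valuation_le_one_iff _).mp ?_
    have h1 : A.valuation ((u ^ j : Qbarˣ) : Qbar) ^ q = 1 := by
      rw [← map_pow, ← Units.val_pow_eq_pow_val, ← pow_mul, mul_comm, pow_mul, hu.pow_eq_one,
        one_pow, Units.val_one, map_one]
    exact le_of_eq ((pow_eq_one_iff_of_nonneg zero_le hq0.ne').mp h1)
  have huA' : ∀ j : ℕ, (((u ^ j)⁻¹ : Qbarˣ) : Qbar) ∈ A := fun j => by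
    have h1 : (u ^ j)⁻¹ = u ^ (j * (q - 1)) := by
      have h2 : j + j * (q - 1) = q * j := by
        obtain ⟨k, rfl⟩ : ∃ k, q = k + 1 := ⟨q - 1, by omega⟩
        rw [Nat.add_sub_cancel]; ring
      rw [inv_eq_iff_mul_eq_one, ← pow_add, h2, pow_mul, hu.pow_eq_one, one_pow]
    rw [h1]; exact huA _
  have hb : ∀ j : Fin q, HasBar A
      (twist (u ^ (j : ℕ)) (HahnSeries.single 0 c * (w f : LaurentSeries Qbar))) r₂ := fun j => by
    let v : Aˣ := ⟨⟨_, huA j⟩, ⟨_, huA' j⟩, Subtype.ext (by simp),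
      Subtype.ext (by simp)⟩
    refine h₂.twist (v := v) rfl ?_
    have h1 : IsLocalRing.residue A (v : A) ^ q = 1 := by
      rw [← map_pow, show (v : A) ^ q = 1 from Subtype.ext (by
        show ((u ^ (j : ℕ) : Qbarˣ) : Qbar) ^ q = 1
        rw [← Units.val_pow_eq_pow_val, ← pow_mul, mul_comm, pow_mul, hu.pow_eq_one, one_pow,
          Units.val_one]), map_one]
    refine sub_eq_zero.mp (pow_eq_zero_iff (n := q) hq0.ne' |>.mp ?_)
    rw [sub_pow_char, h1, one_pow, sub_self]
  have := HasBar.prod Finset.univ (fun j _ => hb j)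
  simpa only [Finset.prod_const, Finset.card_univ, Fintype.card_fin] using this

include S in
/-- The relation coming from `α_* x = 0`. -/
theorem triv_add_frob_al (hA : A.LiesOverPrime q)
    (hwα : w.comp (heckeAlphaBar Qbar M q) = heckeBetaBar Qbar M q)
    (hwβ : w.comp (heckeBetaBar Qbar M q) = heckeAlphaBar Qbar M q)
    {σ : Qbar ≃ₐ[ℚ] Qbar} (hσ : A.IsFrobeniusAt σ q) {m : ℕ} {x : JZero (M * q)}
    (hx : m • x = 0) (hpush : pushJ (heckeAlphaBar Qbar M q) x = 0) :
    Triv A m (x + σ • pushJ w x) := by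
  have hqM : ¬ q ∣ M := S.not_dvd
  have hq : q.Prime := Fact.out
  obtain ⟨f, r₁, hf⟩ := exists_isData hq hA hx
  obtain ⟨D, hD, hf0, hdiv, hr₁, hb₁⟩ := id hf
  have hwf0 : w f ≠ 0 := (map_ne_zero w).mpr hf0
  obtain ⟨c, r₂, hc, hr₂, hb₂⟩ := exists_hasBar hq hA (w f) hwf0
  -- data for the image under the involution
  have hw : IsData A m (pushJ w x) (c • w f) r₂ := by
    refine ⟨pushDegZero w D, by rw [← hD, pushJ_mk], smul_ne_zero hc hwf0, fun v => ?_, hr₂, hb₂⟩
    rw [FFBasic.ord_smul_const v hc, ← normAlong_al hwα hwβ f, coe_pushDegZero]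
    exact pushDiv_mul_eq_ord w hf0 hdiv v
  obtain ⟨hσ', hfr⟩ := hσ
  have hρ : ∀ z, (⟨σ, hσ'⟩ : A.decompositionSubgroup ℚ) • z =
      ((Semistable.constFrob (k := kA) q : kA ≃+* kA) : kA →+* kA) z := fun z => hfr z
  refine ⟨_, _, hf.mul (hw.smul hσ' hρ), ?_⟩
  -- the norm is a constant times an `m`-th power
  have hD0 := hpush
  rw [← hD, pushJ_mk, Pic0.mk, QuotientAddGroup.eq_zero_iff, AddSubgroup.mem_addSubgroupOf] at hD0
  obtain ⟨h0, hh0, hh⟩ := hD0
  set Nf := normAlong (heckeAlphaBar Qbar M q) f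
  have hNf0 : Nf ≠ 0 := normAlong_ne_zero _ (FFBasic.finiteAlong _) hf0
  have hNord : ∀ v : Place Qbar (modularFunctionFieldBar M), v.ord Nf = (m : ℤ) * v.ord h0 :=
    fun v => by rw [← hh v, coe_pushDegZero, pushDiv_mul_eq_ord _ hf0 hdiv v]
  obtain ⟨lam, hlam⟩ : ∃ lam : Qbar,
      algebraMap Qbar (modularFunctionFieldBar M) lam = Nf / h0 ^ m := by
    refine Semistable.exists_eq_algebraMap_of_isIntegral (IsAlgebraic.isIntegral
      (FFBasic.isAlgebraic_iff_forall_ord_eq_zero.mpr fun v => ?_))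
    rw [div_eq_mul_inv, v.ord_mul hNf0 (inv_ne_zero (pow_ne_zero m hh0)), v.ord_inv,
      ← zpow_natCast, v.ord_zpow, hNord v]
    ring
  have hNeq : Nf = lam • h0 ^ m := by
    rw [Algebra.smul_def, hlam, div_mul_cancel₀ _ (pow_ne_zero m hh0)]
  obtain ⟨e, t, he, ht, hbt⟩ := exists_hasBar hq hA h0 hh0
  have htM : t ∈ modularFunctionFieldFullC kA M := by
    refine bar_mem S (f := heckeAlphaBar Qbar M q (e • h0)) ?_
    rw [coe_heckeAlphaBar]; exact hbt
  -- the norm of `f`, on residual series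
  have hbN := hasBar_norm_alpha hqM hwα hwβ hb₁ hb₂
  have hpow := (hbt.pow m).qExpand q
  have key : HahnSeries.single (0 : ℤ) (c ^ q) * qExpand Qbar q (Nf : LaurentSeries Qbar) =
      HahnSeries.single 0 (c ^ q * lam * (e ^ m)⁻¹) *
        qExpand Qbar q (((e • h0 : modularFunctionFieldBar M) : LaurentSeries Qbar) ^ m) := by
    rw [hNeq, ← single_mul_eq_smul, ← single_mul_eq_smul, SubmonoidClass.coe_pow, mul_pow,
      HahnSeries.single_pow, nsmul_zero, (qExpand Qbar q).map_mul, (qExpand Qbar q).map_mul,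
      qExpand_single, qExpand_single, mul_zero,
      ← mul_assoc, ← mul_assoc, HahnSeries.single_mul_single, HahnSeries.single_mul_single,
      add_zero, mul_assoc (c ^ q * lam), inv_mul_cancel₀ (pow_ne_zero m he), mul_one]
  rw [key] at hbN
  have hs : qExpand kA q r₁ * r₂ ^ q ≠ 0 := mul_ne_zero
    (fun h => hr₁ (qExpand_injective (R := kA) q (h.trans (map_zero _).symm))) (pow_ne_zero q hr₂)
  obtain ⟨d, hd, heq⟩ := hpow.eq_const_mul
    (fun h => pow_ne_zero m ht (qExpand_injective (R := kA) q (h.trans (map_zero _).symm))) hbN hs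
  have hr₂M : r₂ ∈ modularFunctionFieldFullC kA M := bar_mem S hb₂
  set fr : kA →+* kA := ((Semistable.constFrob (k := kA) q : kA ≃+* kA) : kA →+* kA)
  have hq2 : qExpand kA q (coeffMap fr r₂) = r₂ ^ q := by
    rw [Semistable.qExpand_mem_special q M (coeffMap_mem_fullC M _ hr₂M), coeffMap_coeffMap]
    congr 1
    exact (coeffMap_congr
      (RingHom.ext fun a => (Semistable.constFrob q).symm_apply_apply a) _).trans (coeffMap_id _)
  refine ⟨d, t, hd, ht, htM, qExpand_injective (R := kA) q ?_⟩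
  rw [(qExpand kA q).map_mul, hq2, heq, (qExpand kA q).map_mul, map_pow, qExpand_single,
    mul_zero]

end Residual

end FLTAgent.SemistableHecke
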