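import Fermat.Agent.SemistableHecke.TraceFacts
import Fermat.Prelude.Def_GaloisRep_LocalConditions

/-!
# Unipotence on inertia at a prime exactly dividing the level

S34 from `UnipotentSqOn` (inertia acts unipotently of echelon two on the torsion of the Jacobian),
which is proved in `SemistableHecke.Assembly`.
-/

set_option autoImplicit false

noncomputable section

open Polynomial

namespace FLTAgent.SemistableHecke

open FLTAgent.GaloisAttach
open FLTAgent.Density (GalQ Qbar)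

/-- Statement S34, given the inputs. -/
theorem isUnipotentOnInertiaAt_of_inputs
    {𝒪 : Type} [CommRing 𝒪] [IsDomain 𝒪] [IsDiscreteValuationRing 𝒪]
    [IsAdicComplete (IsLocalRing.maximalIdeal 𝒪) 𝒪] [CharZero 𝒪]
    {p : ℕ} [Fact p.Prime] (hp𝒪 : (p : 𝒪) ∈ IsLocalRing.maximalIdeal 𝒪)
    {N : ℕ} [NeZero N] {S : Finset ℕ}
    {θ : CuspForm.heckeAlgebra N 2 (↑S : Set ℕ) →+* IsLocalRing.ResidueField 𝒪}
    {T : Type} [CommRing T] [IsLocalRing T] [IsNoetherianRing T]
    [IsAdicComplete (IsLocalRing.maximalIdeal T) T] [Algebra 𝒪 T]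
    [IsLocalHom (algebraMap 𝒪 T)] [Module.Finite 𝒪 T] [Module.Free 𝒪 T]
    (hJ : JacobianInputs N p) (hF : FrobeniusDivisions)
    (H : CuspForm.HeckeGaloisRepDatum N (↑S : Set ℕ) 𝒪 θ T)
    {q : ℕ} (hq : q.Prime) (hqp : q ≠ p)
    (hI : ∀ P : ValuationSubring Qbar, P.LiesOverPrime q →
      ∀ σ ∈ P.inertiaSubgroupIn ℚ, UnipotentSqOn N p σ) :
    H.ρ.IsUnipotentOnInertiaAt q := by
  classical
  have hpT : (p : T) ∈ IsLocalRing.maximalIdeal T := by
    rw [← map_natCast (algebraMap 𝒪 T)]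
    exact map_nonunit (algebraMap 𝒪 T) _ hp𝒪
  obtain ⟨A, c, L⟩ :=
    exists_attachedTrace_link hJ hF S.finite_toSet (IsLocalRing.maximalIdeal T) hpT H.π
  have h2 : ∀ a : T, 2 * a = 0 → a = 0 := fun a ha => by
    refine smul_right_injective T (two_ne_zero : (2 : 𝒪) ≠ 0) ?_
    simpa [Algebra.smul_def, map_ofNat] using ha
  let b : Module.Basis (Fin 2) T H.ρ.V := Module.finBasisOfFinrankEq T H.ρ.V H.ρ.finrank_eq
  let M : GalQ →* Matrix (Fin 2) (Fin 2) T :=
    (LinearMap.toMatrixAlgEquiv b).toMonoidHom.comp H.ρ.ρ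
  have hMdef : ∀ σ, M σ = LinearMap.toMatrix b b (H.ρ.ρ σ) := fun _ => rfl
  have htr : ∀ g, (M g).trace = A.f g := trace_toMatrix_eq_attached hF A H.ρ H.charpoly_frob b
  intro P hP σ hσ
  have hcyc := cyc_inertia p hq hqp hP hσ
  rw [← LinearMap.charpoly_toMatrix (H.ρ.ρ σ) b, ← hMdef, Matrix.charpoly_fin_two, htr,
    det_eq_of_trace_eq h2 A M htr, trace_eq_two L hcyc (hI P hP σ hσ),
    det_eq_natCast L (n := 1) (by rw [hcyc, Nat.cast_one]), Nat.cast_one, map_one, map_ofNat]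
  ring

end FLTAgent.SemistableHecke
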