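import Fermat.Agent.SemistableHecke.NewPart
import Fermat.Agent.SemistableHecke.Unipotent
import Fermat.Agent.SemistableHecke.FormsKill
import Fermat.Agent.Semistable.Galois
import Fermat.Agent.GaloisAttach.Supplied

/-!
# The semistable inputs of S34 and S35

Proves `UnipotentSqOn` and `FrobRelNewPart` from the semistable reduction of `J₀(N)` at a prime
exactly dividing the level.
-/

set_option autoImplicit false

noncomputable section

open AlgebraicCurve ModularCurve FLTAgent.GaloisAttach

namespace FLTAgent.SemistableHecke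

local notation "Qbar" => AlgebraicClosure ℚ

/-- Inertia at `q ∥ N` is unipotent of echelon two on the `p`-power torsion. -/
theorem unipotentSqOn {N p q : ℕ} [NeZero N] (hp : p.Prime) (hq : q.Prime) (hqp : q ≠ p)
    (hqN : q ∣ N) (hq2 : ¬ q ^ 2 ∣ N) {P : ValuationSubring Qbar} (hP : P.LiesOverPrime q)
    {σ : Qbar ≃ₐ[ℚ] Qbar} (hσ : σ ∈ P.inertiaSubgroupIn ℚ) : UnipotentSqOn N p σ := by
  have : Fact q.Prime := ⟨hq⟩
  obtain ⟨M, rfl⟩ := hqN
  have : NeZero M := ⟨fun h => NeZero.ne (q * M) (by rw [h, mul_zero])⟩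
  intro k x hx
  refine Semistable.inertia_unipotent_of_eq (M := M) (mul_comm q M)
    (fun hd => hq2 (by rw [pow_two]; exact mul_dvd_mul_left q hd)) hP hσ
    (fun hd => hqp ((Nat.prime_dvd_prime_iff_eq hq hp).mp (hq.dvd_of_dvd_pow hd))) hx

/-- The Frobenius input of S35. -/
theorem frobRelNewPart {M M₀ p q : ℕ} [NeZero M] [NeZero M₀] (hp : p.Prime) (hq : q.Prime)
    (hqp : q ≠ p) (hM : M = M₀ * q) (hqM₀ : ¬ q ∣ M₀) : FrobRelNewPart M M₀ p q := by
  subst hM
  have : Fact q.Prime := ⟨hq⟩
  have : NeZero q := ⟨hq.ne_zero⟩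
  intro T e he A hA σ hσ
  have := Semistable.charP_residueField hA
  have := Deuring.isAlgClosed_residueField A
  have := Deuring.Modular.isFunctionFieldk (Semistable.Level.setting M₀ q hqM₀ hA).good
  set S := Semistable.Level.setting M₀ q hqM₀ hA
  have hk := Semistable.Level.hbar_mem_kj S
    (Semistable.Level.setting 1 q hq.not_dvd_one hA)
  refine frobSqRelOn_of_new (C := Semistable.Level.pairReduction S hk) S rfl rfl hA hp hσ
    (jacobianInputs (M₀ * q) hp).smulComm (fun k t ht => ?_) e he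
    (ModularFF.alInputs q hq)
  obtain ⟨hσ', hfr⟩ := hσ
  have hw : pushJ S.al.w t =
      SemilinearAut.ofAlgAut (Semistable.Level.alEquiv S) • t :=
    pushJ_eq_smul (al_involutive S.al.w_alpha S.al.w_beta) _
      (fun f => by rw [SemilinearAut.ofAlgAut_smul, Semistable.Level.alEquiv_apply]) t
  rw [hw]
  exact Semistable.Level.frob_add_nsmul_al (σ := σ)
    (hσ := fun a ha => ((⟨σ, hσ'⟩ : A.decompositionSubgroup ℚ) • (⟨a, ha⟩ : A)).2) S hk
    (Semistable.admissible_residue hA fun hd => hqp ((Nat.prime_dvd_prime_iff_eq hq hp).mp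
      (hq.dvd_of_dvd_pow hd)))
    (fun a => hfr (IsLocalRing.residue A a)) ht

end FLTAgent.SemistableHecke
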