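import Fermat.Agent.SemistableHecke.LocalStrict
import Fermat.Agent.LocalThree.DetLine

/-!
# The local input at three of the endgame

`newformStrictInput`: newforms with `3 ∥ M` are strictly ordinary at `3`.
-/

set_option autoImplicit false

noncomputable section

namespace FLTAgent.SemistableHecke

/-- The strict ordinarity input of the endgame. -/
theorem newformStrictInput : LocalThree.NewformStrictInput := by
  intro O _ _ _ _ _ _ hpO M _ g hg h3 h9 S _ θ hker T ρ _ htr hirr
  have : Fact (Nat.Prime 3) := ⟨Nat.prime_three⟩
  obtain ⟨ε, -, -, h⟩ := exists_strictAt_of_newform (by decide) hpO hg h3 h9 S θ hker T ρ htr hirr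
  exact ⟨ε, h⟩

end FLTAgent.SemistableHecke
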