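import Fermat.Agent.SemistableHecke.Separation
import Fermat.Prelude.Def_CuspForm_Newforms

/-!
# A Hecke element killing the forms of a lower level but not a given newform

Main results: `exists_separator` and `eq_eigenChar`.
-/

set_option autoImplicit false

noncomputable section

namespace FLTAgent.SemistableHecke

open FLTAgent.GaloisAttach

variable {M : ℕ} [NeZero M]

/-- The good Hecke ring of level `M` acting on forms of a level dividing `M`. -/
def lowerTheta (M M₀ : ℕ) [NeZero M] [NeZero M₀] (h : M₀ ∣ M) (S : Set ℕ) :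
    GoodRing M S →+* CuspForm.heckeAlgebra M₀ 2 S :=
  MvPolynomial.eval₂Hom (Int.castRingHom _)
    fun i => CuspForm.heckeAlgebra.T i.1.2 (fun hd => i.2.1 (hd.trans h)) i.2.2

theorem lowerTheta_X {M₀ : ℕ} [NeZero M₀] (h : M₀ ∣ M) {S : Set ℕ} (i : GoodPrime M S) :
    lowerTheta M M₀ h S (MvPolynomial.X i) =
      CuspForm.heckeAlgebra.T i.1.2 (fun hd => i.2.1 (hd.trans h)) i.2.2 := by
  simp [lowerTheta]

theorem lowerTheta_surjective {M₀ : ℕ} [NeZero M₀] (h : M₀ ∣ M) {S : Set ℕ}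
    (hMS : ∀ q : ℕ, q.Prime → q ∣ M → q ∈ S) : Function.Surjective (lowerTheta M M₀ h S) := by
  rintro ⟨x, hx⟩
  induction hx using Algebra.adjoin_induction with
  | mem y hy =>
    rcases hy with ⟨ℓ, hℓ, hℓM, hℓS, rfl⟩ | ⟨q, hqM, hq, hqS, rfl⟩
    · exact ⟨MvPolynomial.X ⟨⟨ℓ, hℓ⟩, fun hd => hℓS (hMS ℓ hℓ hd), hℓS⟩, lowerTheta_X h _⟩
    · exact absurd (hMS q hq (hqM.trans h)) hqS
  | algebraMap r => exact ⟨(r : GoodRing M S), (map_intCast _ r).trans (Subtype.ext (by simp))⟩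
  | add a b _ _ ha hb =>
    obtain ⟨u, hu⟩ := ha
    obtain ⟨v, hv⟩ := hb
    exact ⟨u + v, by rw [map_add, hu, hv]; rfl⟩
  | mul a b _ _ ha hb =>
    obtain ⟨u, hu⟩ := ha
    obtain ⟨v, hv⟩ := hb
    exact ⟨u * v, by rw [map_mul, hu, hv]; rfl⟩

/-- A newform of level `M` is not killed by all good Hecke elements killing a lower level. -/
theorem exists_separator (hF : FrobeniusDivisions)
    (hJ : ∀ (N : ℕ) [NeZero N], ∀ p : ℕ, p.Prime → JacobianInputs N p)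
    {g : CuspForm (CongruenceSubgroup.Gamma0 M) 2} (hg : g.IsNewform)
    {M₀ : ℕ} [NeZero M₀] (h : M₀ ∣ M) (hne : M₀ ≠ M) (S : Finset ℕ)
    (hMS : ∀ q : ℕ, q.Prime → q ∣ M → q ∈ S) :
    ∃ e : GoodRing M (↑S : Set ℕ), lowerTheta M M₀ h _ e = 0 ∧
      Eigenforms.eigenChar hg.1 (goodTheta M (↑S : Set ℕ) e) ≠ 0 := by
  by_contra hcon
  push Not at hcon
  have hsurj := lowerTheta_surjective h (S := (↑S : Set ℕ))
    fun q hq hd => Finset.mem_coe.mpr (hMS q hq hd)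
  let φ : GoodRing M (↑S : Set ℕ) →+* ℂ :=
    (Eigenforms.eigenChar hg.1).comp (goodTheta M (↑S : Set ℕ))
  let ψ : CuspForm.heckeAlgebra M₀ 2 (↑S : Set ℕ) →+* ℂ :=
    (lowerTheta M M₀ h _).liftOfSurjective hsurj ⟨φ, fun x hx => hcon x hx⟩
  have hψ : ∀ x, ψ (lowerTheta M M₀ h _ x) = φ x := fun x =>
    RingHom.liftOfRightInverse_comp_apply _ _ _ _ x
  obtain ⟨f, hf, hfψ⟩ :=
    Eigenforms.exists_eigenform_of_char (MFIntegral.hasIntegralStructure M₀ 2) ψ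
  refine hg.2 M₀ h hne ⟨f, hf, fun ℓ hℓ hℓM => ?_⟩
  refine qCoeff_eq_of_agree hF (fun p hp => hJ M₀ p hp) (fun p hp => hJ M p hp) hf hg.1 S
    (fun r hr hr₀ hrM hrS => ?_) hℓ (fun hd => hℓM (hd.trans h)) hℓM
  have hrS' : r ∉ (↑S : Set ℕ) := fun hh => hrS (Finset.mem_coe.mp hh)
  have h1 := hψ (MvPolynomial.X ⟨⟨r, hr⟩, hrM, hrS'⟩)
  rw [lowerTheta_X, ← hfψ] at h1
  rw [← Eigenforms.eigenChar_T hf hr hr₀ hrS', ← Eigenforms.eigenChar_T hg.1 hr hrM hrS']
  simpa [φ, goodTheta] using h1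

/-- A character agreeing with the eigencharacter at good primes is the eigencharacter. -/
theorem eq_eigenChar {S : Set ℕ} (hMS : ∀ q : ℕ, q.Prime → q ∣ M → q ∈ S)
    {g : CuspForm (CongruenceSubgroup.Gamma0 M) 2} (hg : g.IsNormalizedEigenform)
    (χ : CuspForm.heckeAlgebra M 2 S →+* ℂ)
    (hχ : ∀ (ℓ : ℕ) (hℓ : ℓ.Prime) (hℓM : ¬ ℓ ∣ M) (hℓS : ℓ ∉ S),
      χ (CuspForm.heckeAlgebra.T hℓ hℓM hℓS) = ModularFormClass.qCoeff g ℓ) :
    χ = Eigenforms.eigenChar hg := by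
  refine RingHom.ext fun t => ?_
  obtain ⟨r, rfl⟩ := lowerTheta_surjective (dvd_refl M) hMS t
  have : χ.comp (lowerTheta M M (dvd_refl M) S) =
      (Eigenforms.eigenChar hg).comp (lowerTheta M M (dvd_refl M) S) := by
    refine MvPolynomial.ringHom_ext (fun a => by simp [← MvPolynomial.algebraMap_eq]) fun i => ?_
    rw [RingHom.comp_apply, RingHom.comp_apply, lowerTheta_X, hχ, Eigenforms.eigenChar_T]
  exact RingHom.congr_fun this r

end FLTAgent.SemistableHecke
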