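import Fermat.Agent.SemistableHecke.Triv
import Fermat.Agent.SemistableHecke.Separator
import Fermat.Agent.SemistableHecke.Pushforward
import Fermat.Agent.SemistableHecke.FormsKill

/-!
# Interfaces for Mazur's principle at `q = p`

A `p`-torsion class killed by both pushforwards falls in one of three cases: its residual datum
has a divisor not divisible by `p` (then its Hecke eigenvalues are Eisenstein), or it is divisible
by `p` without the datum being trivial (then the eigenvalues occur at level `M`), or it is trivial.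
-/

set_option autoImplicit false

noncomputable section

open AlgebraicCurve ModularCurve FLTAgent.HeckeJacobian FLTAgent.GaloisAttach

namespace FLTAgent.SemistableHecke

open FLTAgent.Density (GalQ Qbar)

/-- The residual data of `x` at exponent `p` have divisors divisible by `p`. -/
def SlopeZero (A : ValuationSubring Qbar) {M q : ℕ} [NeZero M] [NeZero q] (p : ℕ)
    (x : JZero (M * q)) : Prop :=
  ∀ (f : modularFunctionFieldBar (M * q))
    (r : modularFunctionFieldFullC (IsLocalRing.ResidueField A) M),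
    IsData A p x f (r : LaurentSeries (IsLocalRing.ResidueField A)) →
      ∀ v : Place (IsLocalRing.ResidueField A)
        (modularFunctionFieldFullC (IsLocalRing.ResidueField A) M), (p : ℤ) ∣ v.ord r

/-- A class fixed by the inertia elements fixing `ζ_p` and the `p`-th roots of some unit `u`
fixed by inertia. -/
def IsPeuFixed (A : ValuationSubring Qbar) {N : ℕ} [NeZero N] (p : ℕ) (x : JZero N) : Prop :=
  ∃ ζ u : Qbar, IsPrimitiveRoot ζ p ∧ A.valuation u = 1 ∧
    (∀ σ ∈ A.inertiaSubgroupIn ℚ, σ u = u) ∧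
    ∀ σ ∈ A.inertiaSubgroupIn ℚ, σ ζ = ζ → (∀ w : Qbar, w ^ p = u → σ w = w) → σ • x = x

/-- The value of an element of the good Hecke ring on a system of eigenvalues modulo `p`. -/
def evalMod (p : ℕ) (a : ℕ → ℕ) {N : ℕ} {S : Set ℕ} : GoodRing N S →+* ZMod p :=
  MvPolynomial.eval₂Hom (Int.castRingHom (ZMod p)) fun i => (a (i.1 : ℕ) : ZMod p)

/-- Classes with nonzero slope have Eisenstein eigenvalues, at level `M p`. -/
def SlopeEisensteinAt (M p : ℕ) [NeZero M] [NeZero p] : Prop :=
  ∀ A : ValuationSubring Qbar, A.LiesOverPrime p →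
    ∀ x : JZero (M * p), p • x = 0 → pushJ (heckeAlphaBar Qbar M p) x = 0 →
      pushJ (heckeBetaBar Qbar M p) x = 0 → IsPeuFixed A p x → ¬ SlopeZero A p x →
      ∀ (ℓ a : ℕ) (hℓ : ℓ.Prime), ¬ ℓ ∣ M * p → heckeOperatorBar (M * p) ⟨ℓ, hℓ⟩ x = a • x →
        (a : ZMod p) = ℓ + 1

/-- Classes with zero slope and nontrivial residual datum have eigenvalues of level `M`. -/
def AbelianLevelAt (M p : ℕ) [NeZero M] [NeZero p] : Prop :=
  ∀ A : ValuationSubring Qbar, A.LiesOverPrime p →
    ∀ x : JZero (M * p), p • x = 0 → SlopeZero A p x → ¬ Triv A p x →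
      ∀ (S : Finset ℕ), (∀ r : ℕ, r.Prime → r ∣ M * p → r ∈ S) → ∀ a : ℕ → ℕ,
        (∀ (ℓ : ℕ) (hℓ : ℓ.Prime), ℓ ∉ S →
          heckeOperatorBar (M * p) ⟨ℓ, hℓ⟩ x = a ℓ • x) →
        ∀ r : GoodRing (M * p) (↑S : Set ℕ),
          lowerTheta (M * p) M (dvd_mul_right M p) _ r = 0 → evalMod p a r = 0

end FLTAgent.SemistableHecke
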