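import Mathlib.LinearAlgebra.Matrix.Determinant.Basic
import Mathlib.Tactic.LinearCombination
import Mathlib.Tactic.FinCases

/-!
# Singular `2 × 2` matrices in a representation without a stable line

Main results: `exists_det_add_conj_ne_zero` and `exists_common_row`.
-/

set_option autoImplicit false

namespace FLTAgent.SemistableHecke.LinearTwo

open Matrix

variable {G K : Type*} [Group G] [Field K]

/-- The determinant of two vectors. -/
def cross {R : Type*} [CommRing R] (v w : Fin 2 → R) : R := v 0 * w 1 - v 1 * w 0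

/-- A representation without a stable line. -/
def NoLine {R : Type*} [CommRing R] (ρ : G →* Matrix (Fin 2) (Fin 2) R) : Prop :=
  ∀ v : Fin 2 → R, v ≠ 0 → ∃ g, cross v (ρ g *ᵥ v) ≠ 0

theorem eq_smul_of_cross_eq_zero {v w : Fin 2 → K} (hv : v ≠ 0) (h : cross v w = 0) :
    ∃ a : K, w = a • v := by
  obtain ⟨i, hi⟩ := Function.ne_iff.mp hv
  rw [Pi.zero_apply] at hi
  refine ⟨w i / v i, funext fun j => ?_⟩
  rw [Pi.smul_apply, smul_eq_mul, div_mul_eq_mul_div, eq_div_iff hi]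
  unfold cross at h
  fin_cases i <;> fin_cases j <;> simp <;>
    first
    | ring1
    | linear_combination h
    | linear_combination -h

theorem det_vecMulVec_add {R : Type*} [CommRing R] (v w v' w' : Fin 2 → R) :
    (vecMulVec v w + vecMulVec v' w').det = cross v v' * cross w w' := by
  rw [det_fin_two, cross, cross]
  simp [vecMulVec]
  ring

theorem exists_eq_vecMulVec {P : Matrix (Fin 2) (Fin 2) K} (h : P.det = 0) (hP : P ≠ 0) :
    ∃ v w : Fin 2 → K, v ≠ 0 ∧ w ≠ 0 ∧ P = vecMulVec v w := by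
  obtain ⟨i, j, hij⟩ : ∃ i j, P i j ≠ 0 := by
    by_contra! hc
    exact hP (Matrix.ext hc)
  refine ⟨fun a => P a j, fun b => P i b / P i j, fun h0 => hij (congrFun h0 i), fun h0 => ?_, ?_⟩
  · have := congrFun h0 j
    rw [Pi.zero_apply, div_self hij] at this
    exact one_ne_zero this
  · ext a b
    rw [vecMulVec_apply, mul_div_assoc', eq_div_iff hij]
    rw [det_fin_two] at h
    fin_cases a <;> fin_cases b <;> fin_cases i <;> fin_cases j <;> simp <;>
      first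
      | ring1
      | linear_combination h
      | linear_combination -h

theorem exists_cross_vecMul_ne_zero {ρ : G →* Matrix (Fin 2) (Fin 2) K} (hρ : NoLine ρ)
    {w : Fin 2 → K} (hw : w ≠ 0) : ∃ g, cross w (w ᵥ* ρ g) ≠ 0 := by
  have hv : ![w 1, -w 0] ≠ 0 := fun h => hw (funext fun i => by
    have h0 := congrFun h 0
    have h1 := congrFun h 1
    simp at h0 h1
    fin_cases i <;> assumption)
  obtain ⟨g, hg⟩ := hρ _ hv
  refine ⟨g, fun h => hg ?_⟩
  obtain ⟨a, ha⟩ := eq_smul_of_cross_eq_zero hw h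
  have h0 := congrFun ha 0
  have h1 := congrFun ha 1
  simp [vecMul, dotProduct, Fin.sum_univ_two] at h0 h1
  simp [cross, mulVec, dotProduct, Fin.sum_univ_two]
  linear_combination w 1 * h0 - w 0 * h1

/-- A singular nonzero matrix plus a conjugate is invertible. -/
theorem exists_det_add_conj_ne_zero {ρ : G →* Matrix (Fin 2) (Fin 2) K} (hρ : NoLine ρ)
    {Y : Matrix (Fin 2) (Fin 2) K} (hY : Y.det = 0) (hY0 : Y ≠ 0) :
    ∃ g, (Y + ρ g * Y * ρ g⁻¹).det ≠ 0 := by
  obtain ⟨v, w, hv, hw, rfl⟩ := exists_eq_vecMulVec hY hY0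
  have hid : ∀ g, (vecMulVec v w + ρ g * vecMulVec v w * ρ g⁻¹).det =
      cross v (ρ g *ᵥ v) * cross w (w ᵥ* ρ g⁻¹) := fun g => by
    rw [mul_vecMulVec, vecMulVec_mul, det_vecMulVec_add]
  obtain ⟨a, ha⟩ := hρ v hv
  obtain ⟨b', hb'⟩ := exists_cross_vecMul_ne_zero hρ hw
  by_cases h1 : cross w (w ᵥ* ρ a⁻¹) ≠ 0
  · exact ⟨a, by rw [hid]; exact mul_ne_zero ha h1⟩
  set b := b'⁻¹ with hb
  have hb2 : cross w (w ᵥ* ρ b⁻¹) ≠ 0 := by rwa [hb, inv_inv]
  by_cases h2 : cross v (ρ b *ᵥ v) ≠ 0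
  · exact ⟨b, by rw [hid]; exact mul_ne_zero h2 hb2⟩
  rw [not_not] at h1 h2
  obtain ⟨β, hβ⟩ := eq_smul_of_cross_eq_zero hv h2
  obtain ⟨α, hα⟩ := eq_smul_of_cross_eq_zero hw h1
  have hinv : ∀ (g : G) (u : Fin 2 → K), ρ g⁻¹ *ᵥ (ρ g *ᵥ u) = u := fun g u => by
    rw [mulVec_mulVec, ← map_mul, inv_mul_cancel, map_one, one_mulVec]
  have hβ0 : β ≠ 0 := fun h0 => hv (by
    have := hinv b v
    rwa [hβ, h0, zero_smul, mulVec_zero, eq_comm] at this)
  refine ⟨a * b, ?_⟩
  rw [hid]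
  refine mul_ne_zero ?_ fun h => ?_
  · rw [map_mul, ← mulVec_mulVec, hβ, mulVec_smul]
    intro h
    apply ha
    simp [cross] at h ⊢
    exact mul_left_cancel₀ hβ0 (by linear_combination h)
  · obtain ⟨γ, hγ⟩ := eq_smul_of_cross_eq_zero hw h
    rw [mul_inv_rev, map_mul, ← vecMul_vecMul] at hγ
    have h3 : w ᵥ* ρ b⁻¹ = γ • (w ᵥ* ρ a) := by
      rw [← smul_vecMul, ← hγ, vecMul_vecMul _ (ρ a⁻¹), ← map_mul, inv_mul_cancel, map_one,
        vecMul_one]
    have h4 : w = α • (w ᵥ* ρ a) := by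
      rw [← smul_vecMul, ← hα, vecMul_vecMul, ← map_mul, inv_mul_cancel, map_one, vecMul_one]
    have hα0 : α ≠ 0 := fun h0 => hw (by rw [h4, h0, zero_smul])
    apply hb2
    rw [h3]
    have e : w ᵥ* ρ a = α⁻¹ • w := by
      conv_rhs => rw [h4]
      rw [inv_smul_smul₀ hα0]
    rw [e]
    simp [cross]
    ring

/-- An additive family of singular matrices stable under right translation kills a fixed row. -/
theorem exists_common_row {ρ : G →* Matrix (Fin 2) (Fin 2) K} (hρ : NoLine ρ)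
    (S : Set (Matrix (Fin 2) (Fin 2) K)) (hadd : ∀ P ∈ S, ∀ Q ∈ S, P + Q ∈ S)
    (hmul : ∀ P ∈ S, ∀ g, P * ρ g ∈ S) (hdet : ∀ P ∈ S, P.det = 0) :
    ∃ u : Fin 2 → K, u ≠ 0 ∧ ∀ P ∈ S, u ᵥ* P = 0 := by
  by_cases h0 : ∀ P ∈ S, P = 0
  · exact ⟨![1, 0], fun h => by simpa using congrFun h 0, fun P hP => by rw [h0 P hP, vecMul_zero]⟩
  push Not at h0
  obtain ⟨P, hP, hP0⟩ := h0
  obtain ⟨v, w, hv, hw, rfl⟩ := exists_eq_vecMulVec (hdet P hP) hP0
  refine ⟨![v 1, -v 0], fun h => hv (funext fun i => by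
    have e0 := congrFun h 0
    have e1 := congrFun h 1
    simp at e0 e1
    fin_cases i <;> assumption), fun Q hQ => ?_⟩
  rcases eq_or_ne Q 0 with rfl | hQ0
  · exact vecMul_zero _
  obtain ⟨v', w', hv', hw', rfl⟩ := exists_eq_vecMulVec (hdet Q hQ) hQ0
  by_cases hc : cross v v' = 0
  · obtain ⟨a, rfl⟩ := eq_smul_of_cross_eq_zero hv hc
    ext i
    simp [vecMul, dotProduct, Fin.sum_univ_two, vecMulVec]
    ring
  exfalso
  have key : ∀ g, cross (w ᵥ* ρ g) w' = 0 := fun g => by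
    have := hdet _ (hadd _ (hmul _ hP g) _ hQ)
    rw [vecMulVec_mul, det_vecMulVec_add] at this
    exact (mul_eq_zero.mp this).resolve_left hc
  obtain ⟨g, hg⟩ := exists_cross_vecMul_ne_zero hρ hw
  have h1 := key 1
  rw [map_one, vecMul_one] at h1
  obtain ⟨a, rfl⟩ := eq_smul_of_cross_eq_zero hw h1
  have ha : a ≠ 0 := fun h => hw' (by rw [h, zero_smul])
  apply hg
  have h2 := key g
  simp [cross] at h2 ⊢
  exact mul_left_cancel₀ ha (by linear_combination -h2)

end FLTAgent.SemistableHecke.LinearTwo
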