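import Fermat.Agent.SemistableHecke.TrivFrob

/-!
# Triviality of classes at varying exponents, and its Galois invariance

Main results: `Triv.raise`, `Triv.smul` and `Triv.lower`.
-/

set_option autoImplicit false

noncomputable section

open AlgebraicCurve ModularCurve FLTAgent.HeckeJacobian FLTAgent.CongruenceRel

namespace FLTAgent.SemistableHecke

local notation "Qbar" => AlgebraicClosure ℚ

variable {A : ValuationSubring Qbar}

local notation "kA" => IsLocalRing.ResidueField A

variable {M q : ℕ} [NeZero M] [NeZero q]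

omit [NeZero M] [NeZero q] in
theorem IsData.pow {m : ℕ} {x : JZero (M * q)} {f : modularFunctionFieldBar (M * q)}
    {r : LaurentSeries kA} (h : IsData A m x f r) (n : ℕ) :
    IsData A (m * n) x (f ^ n) (r ^ n) := by
  obtain ⟨D, hD, hf, hdiv, hr, hb⟩ := h
  refine ⟨D, hD, pow_ne_zero n hf, fun v => ?_, pow_ne_zero n hr, ?_⟩
  · rw [← zpow_natCast f n, v.ord_zpow, ← hdiv]
    push_cast
    ring
  · rw [SubmonoidClass.coe_pow]; exact hb.pow n

omit [NeZero M] [NeZero q] in
/-- Triviality at exponent `m` gives triviality at exponent `m n`. -/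
theorem Triv.raise {m : ℕ} {x : JZero (M * q)} (h : Triv A m x) (n : ℕ) : Triv A (m * n) x := by
  obtain ⟨f, r, hf, c, z, hc, hz, hzm, rfl⟩ := h
  refine ⟨_, _, hf.pow n, c ^ n, z, pow_ne_zero n hc, hz, hzm, ?_⟩
  rw [mul_pow, HahnSeries.single_pow, nsmul_zero, pow_mul]

omit [NeZero M] [NeZero q] in
/-- Elements of the decomposition group preserve triviality. -/
theorem Triv.smul {σ : Qbar ≃ₐ[ℚ] Qbar} (hσ : σ ∈ A.decompositionSubgroup ℚ) {m : ℕ}
    {x : JZero (M * q)} (h : Triv A m x) : Triv A m (σ • x) := by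
  obtain ⟨f, r, hf, c, z, hc, hz, hzm, rfl⟩ := h
  set ρ : kA →+* kA := MulSemiringAction.toRingHom (A.decompositionSubgroup ℚ) kA ⟨σ, hσ⟩
  refine ⟨_, _, hf.smul hσ (ρ := ρ) fun _ => rfl, ρ c, coeffMap ρ z,
    fun h0 => hc ((map_eq_zero ρ).mp h0),
    fun h0 => hz (coeffMap_injective ρ.injective (h0.trans (map_zero _).symm)),
    coeffMap_mem_fullC M ρ hzm, ?_⟩
  rw [map_mul, map_pow, coeffMap_single]

omit [NeZero M] [NeZero q] in
theorem triv_zero (m : ℕ) : Triv A m (0 : JZero (M * q)) := by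
  refine ⟨1, 1, ⟨0, rfl, one_ne_zero, fun v => by
    rw [v.ord_one, AddSubgroup.coe_zero, Finsupp.zero_apply, mul_zero], one_ne_zero, ?_⟩,
    by rw [← HahnSeries.single_zero_one]; exact isTrivRes_const one_ne_zero⟩
  have h := hasBar_const (A := A) 1
  rw [map_one, HahnSeries.single_zero_one, OneMemClass.coe_one, HahnSeries.single_zero_one] at h
  rw [OneMemClass.coe_one]
  exact h

/-- In residue characteristic `p`, triviality at a larger exponent gives triviality at a smaller
one. -/
theorem Triv.lower [Fact q.Prime] [IsAlgClosed kA] [CharP kA q]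
    (S : Semistable.Level.Setting M q A (IsLocalRing.residue A)) (hA : A.LiesOverPrime q)
    {a b : ℕ} {x : JZero (M * q)} (h : Triv A (q ^ (a + b)) x) (hx : q ^ a • x = 0) :
    Triv A (q ^ a) x := by
  obtain ⟨f, r, hf⟩ := exists_isData Fact.out hA hx
  have h' := hf.pow (q ^ b)
  rw [← pow_add] at h'
  obtain ⟨c, z, hc, hz, hzm, hr⟩ := h.of_data S hA h'
  obtain ⟨c', hc'⟩ := IsAlgClosed.exists_pow_nat_eq c (pow_pos (NeZero.pos q) b)
  have : CharP (LaurentSeries kA) q :=
    charP_of_injective_algebraMap (algebraMap kA (LaurentSeries kA)).injective q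
  refine ⟨f, r, hf, c', z, fun h0 => hc (by
    rw [← hc', h0, zero_pow (pow_ne_zero b (NeZero.ne q))]), hz, hzm, ?_⟩
  refine iterateFrobenius_inj (LaurentSeries kA) q b ?_
  rw [iterateFrobenius_def, iterateFrobenius_def, hr, mul_pow, HahnSeries.single_pow, nsmul_zero,
    hc', ← pow_mul, ← pow_add]

end FLTAgent.SemistableHecke
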