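import Fermat.Agent.Deuring.RRTools
import Fermat.Agent.Deuring.Specialize
import Fermat.Prelude.Def_AlgebraicCurve_BaseChangeGalois

/-!
# Divisor classes fixed by a semilinear automorphism

If a semilinear automorphism of a function field over an algebraically closed field fixes a
place and each of its positive powers fixes only finitely many places, then it fixes only
finitely many divisor classes of degree zero.
-/

set_option autoImplicit false

noncomputable section

open AlgebraicCurve FLTAgent.FFBasic

namespace FLTAgent.SemistableHecke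

variable {K F : Type*} [Field K] [Field F] [Algebra K F] [IsAlgClosed K] [IsFunctionField K F]

omit [IsAlgClosed K] in
theorem riemannRochSpace_eq_bot_of_degree_neg {D : Divisor K F} (hD : Divisor.degree D < 0) :
    riemannRochSpace D = ⊥ := by
  rw [Submodule.eq_bot_iff]
  intro f hf
  by_contra hf0
  have hle : (0 : Divisor K F) ≤ D + divFun f := fun v => by
    have := (mem_riemannRochSpace_iff.mp hf v).resolve_left hf0
    rw [Finsupp.add_apply, divFun_apply, Finsupp.zero_apply]
    omega
  have := FFRiemannRoch.degree_le_degree hle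
  rw [map_zero, map_add, degree_divFun] at this
  omega

theorem exists_unique_effective (P₀ : Place K F) {D : Divisor K F} (hD : Divisor.degree D = 0) :
    ∃ (n : ℕ) (u : F), (n : ℤ) ≤ Deuring.rrBound K F + genusFF K F + 1 ∧ u ≠ 0 ∧
      u ∈ riemannRochSpace (D + Finsupp.single P₀ (n : ℤ)) ∧
      ∀ w ∈ riemannRochSpace (D + Finsupp.single P₀ (n : ℤ)), ∃ c : K, w = c • u := by
  classical
  set B := (Deuring.rrBound K F + genusFF K F + 1).toNat with hB
  have hB' : (B : ℤ) = Deuring.rrBound K F + genusFF K F + 1 := by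
    rw [hB, Int.toNat_of_nonneg]
    have := Deuring.rrBound_nonneg (K := K) (F := F)
    omega
  have hex : riemannRochSpace (D + Finsupp.single P₀ (B : ℤ)) ≠ ⊥ := by
    intro h
    have := Deuring.finrank_rr (D := D + Finsupp.single P₀ (B : ℤ)) (by
      rw [map_add, hD, Deuring.degree_single_one, zero_add, hB']; omega)
    rw [h, finrank_bot, map_add, hD, Deuring.degree_single_one, hB'] at this
    have := Deuring.rrBound_nonneg (K := K) (F := F)
    omega
  have hP : ∃ n : ℕ, riemannRochSpace (D + Finsupp.single P₀ (n : ℤ)) ≠ ⊥ := ⟨B, hex⟩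
  set n := Nat.find hP with hn
  have hprev : riemannRochSpace (D + Finsupp.single P₀ ((n : ℤ) - 1)) = ⊥ := by
    rcases Nat.eq_zero_or_pos n with h0 | hpos
    · refine riemannRochSpace_eq_bot_of_degree_neg ?_
      rw [map_add, hD, Deuring.degree_single_one, h0]
      norm_num
    · have := Nat.find_min hP (show n - 1 < Nat.find hP by omega)
      rw [not_not, Nat.cast_sub hpos, Nat.cast_one] at this
      exact this
  obtain ⟨u, hu, hu0⟩ := Submodule.exists_mem_ne_zero_of_ne_bot (Nat.find_spec hP)
  refine ⟨n, u, ?_, hu0, hu, ?_⟩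
  · have := Nat.find_le (h := hP) hex
    rw [← hB']
    exact_mod_cast this
  have hfd : FiniteDimensional K (riemannRochSpace (D + Finsupp.single P₀ ((n : ℤ) - 1))) := by
    rw [hprev]; infer_instance
  have hsum : D + Finsupp.single P₀ ((n : ℤ) - 1) + Finsupp.single P₀ 1 =
      D + Finsupp.single P₀ (n : ℤ) := by
    rw [add_assoc, ← Finsupp.single_add, sub_add_cancel]
  obtain ⟨hfin, hle⟩ :=
    finrank_riemannRochSpace_add_single (D + Finsupp.single P₀ ((n : ℤ) - 1)) P₀
  rw [hsum] at hfin hle
  rw [place_deg_eq_one, hprev, finrank_bot, zero_add] at hle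
  intro w hw
  obtain ⟨v, hv⟩ := finrank_le_one_iff.mp hle
  obtain ⟨a, ha⟩ := hv ⟨u, hu⟩
  obtain ⟨b, hb⟩ := hv ⟨w, hw⟩
  have ha' : a • (v : F) = u := congrArg Subtype.val ha
  have hb' : b • (v : F) = w := congrArg Subtype.val hb
  have ha0 : a ≠ 0 := by
    rintro rfl
    rw [zero_smul] at ha'
    exact hu0 ha'.symm
  exact ⟨b / a, by rw [← ha', smul_smul, div_mul_cancel₀ _ ha0, hb']⟩

variable (g : SemilinearAut K F)

omit [IsAlgClosed K] [IsFunctionField K F] in
/-- A semilinear automorphism carries Riemann–Roch spaces to those of the moved divisor. -/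
theorem smul_mem_riemannRochSpace {D : Divisor K F} {f : F} (hf : f ∈ riemannRochSpace D) :
    g • f ∈ riemannRochSpace (g • D) := by
  rw [mem_riemannRochSpace_iff] at hf ⊢
  intro w
  rcases hf (g⁻¹ • w) with h | h
  · exact Or.inl (by rw [h, smul_zero])
  · refine Or.inr ?_
    have h1 := SemilinearAut.ord_smul g (g⁻¹ • w) f
    rw [smul_inv_smul] at h1
    rw [SemilinearAut.divisor_smul_apply, h1]
    exact h

omit [IsAlgClosed K] in
theorem smul_divFun (f : F) : g • divFun (K := K) f = divFun (g • f) := by
  refine Finsupp.ext fun w => ?_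
  rw [SemilinearAut.divisor_smul_apply, divFun_apply, divFun_apply]
  have h1 := SemilinearAut.ord_smul g (g⁻¹ • w) f
  rw [smul_inv_smul] at h1
  exact h1.symm

/-- A fixed class contains `E - n P₀` with `E ≥ 0` fixed. -/
theorem exists_fixed_effective {P₀ : Place K F} (hP₀ : g • P₀ = P₀)
    (D : Divisor.degZero (K := K) (F := F)) (hx : g • Pic0.mk D = Pic0.mk D) :
    ∃ (n : ℕ) (E : Divisor K F), (n : ℤ) ≤ Deuring.rrBound K F + genusFF K F + 1 ∧
      0 ≤ E ∧ Divisor.degree E = n ∧ g • E = E ∧
      E - Finsupp.single P₀ (n : ℤ) - D ∈ Divisor.principal (K := K) (F := F) := by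
  obtain ⟨n, u, hn, hu0, hu, huniq⟩ :=
    exists_unique_effective P₀ (Divisor.mem_degZero.mp D.2)
  set D' := (D : Divisor K F) + Finsupp.single P₀ (n : ℤ) with hD'
  refine ⟨n, D' + divFun u, hn, ?_, ?_, ?_, ?_⟩
  · intro v
    have := (mem_riemannRochSpace_iff.mp hu v).resolve_left hu0
    rw [Finsupp.add_apply, divFun_apply, Finsupp.zero_apply]
    omega
  · rw [map_add, degree_divFun, hD', map_add, Divisor.mem_degZero.mp D.2,
      Deuring.degree_single_one]
    ring
  · rw [SemilinearAut.pic0_smul_mk] at hx
    have hz' := QuotientAddGroup.eq.mp hx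
    obtain ⟨h, hh0, hh⟩ := hz'
    set z := -SemilinearAut.degZeroSMulHom g D + D with hzdef
    have hzd : (z : Divisor K F) = divFun h := eq_divFun_of_forall hh
    have hgD : g • (D : Divisor K F) + divFun h = (D : Divisor K F) := by
      rw [← hzd, hzdef, AddSubgroup.coe_add, AddSubgroup.coe_neg, SemilinearAut.coe_degZeroSMulHom,
        add_neg_cancel_left]
    have hgD' : g • D' + divFun h = D' := by
      rw [hD', smul_add, SemilinearAut.smul_single, hP₀, add_right_comm, hgD]
    have hgu : g • u ≠ 0 := by simpa using hu0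
    have hw : h⁻¹ * (g • u) ∈ riemannRochSpace D' := by
      rw [mem_riemannRochSpace_iff]
      intro v
      refine Or.inr ?_
      have h1 := (mem_riemannRochSpace_iff.mp (smul_mem_riemannRochSpace g hu) v).resolve_left hgu
      have h2 := DFunLike.congr_fun hgD' v
      rw [Finsupp.add_apply, divFun_apply] at h2
      rw [v.ord_mul (inv_ne_zero hh0) hgu, v.ord_inv]
      omega
    obtain ⟨c, hc⟩ := huniq _ hw
    have hc0 : c ≠ 0 := by
      rintro rfl
      rw [zero_smul] at hc
      exact mul_ne_zero (inv_ne_zero hh0) hgu hc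
    have hcu : divFun (K := K) (c • u) = divFun u := by
      refine Finsupp.ext fun v => ?_
      rw [divFun_apply, divFun_apply, Algebra.smul_def, v.ord_mul (by simpa using hc0) hu0,
        ord_eq_zero_of_isAlgebraic v (isAlgebraic_algebraMap c), zero_add]
    rw [← hc, divFun_mul (inv_ne_zero hh0) hgu, divFun_inv] at hcu
    rw [smul_add, smul_divFun, ← hcu]
    nth_rewrite 2 [← hgD']
    abel
  · refine ⟨u, hu0, fun v => ?_⟩
    rw [hD']
    simp only [Finsupp.sub_apply, Finsupp.add_apply, divFun_apply]
    ring

/-- Only finitely many classes are fixed. -/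
theorem finite_fixed_classes {P₀ : Place K F} (hP₀ : g • P₀ = P₀)
    (hfix : ∀ j : ℕ, 0 < j → {v : Place K F | g ^ j • v = v}.Finite) :
    {x : Pic0 K F | g • x = x}.Finite := by
  classical
  set B := (Deuring.rrBound K F + genusFF K F + 1).toNat with hB
  let S : Set (Place K F) := ⋃ j ∈ Finset.Icc 1 (B + 1), {v | g ^ j • v = v}
  have hS : S.Finite :=
    (Finset.Icc 1 (B + 1)).finite_toSet.biUnion fun j hj =>
      hfix j (Finset.mem_Icc.mp (Finset.mem_coe.mp hj)).1
  let T : Set (Divisor K F) := {E | ↑E.support ⊆ S ∧ ∀ v, 0 ≤ E v ∧ E v ≤ B}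
  have hT : T.Finite := by
    have := hS.fintype
    let Φ : T → (S → Fin (B + 1)) := fun E v =>
      ⟨((E : Divisor K F) v).toNat, by have := (E.2.2 (v : Place K F)); omega⟩
    have hΦ : Function.Injective Φ := fun E E' h => by
      refine Subtype.ext (Finsupp.ext fun v => ?_)
      by_cases hv : v ∈ S
      · have h1 := congrArg Fin.val (congrFun h ⟨v, hv⟩)
        simp only [Φ] at h1
        have := (E.2.2 v).1
        have := (E'.2.2 v).1
        omega
      · rw [Finsupp.notMem_support_iff.mp fun h' => hv (E.2.1 h'),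
          Finsupp.notMem_support_iff.mp fun h' => hv (E'.2.1 h')]
    exact Set.finite_coe_iff.mp (Finite.of_injective Φ hΦ)
  let mkE : ℕ × Divisor K F → Pic0 K F := fun nE =>
    if h : nE.2 - Finsupp.single P₀ (nE.1 : ℤ) ∈ Divisor.degZero (K := K) (F := F) then
      Pic0.mk ⟨_, h⟩ else 0
  refine ((((Finset.Iic B).finite_toSet).prod hT).image mkE).subset fun x hx => ?_
  obtain ⟨D, rfl⟩ := Pic0.mk_surjective x
  obtain ⟨n, E, hn, hE0, hEdeg, hEfix, hprin⟩ := exists_fixed_effective g hP₀ D hx
  have hnB : n ≤ B := by rw [hB]; omega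
  have hsum : (n : ℤ) = ∑ v ∈ E.support, E v := by
    rw [← hEdeg, degree_eq_sum_support]
    exact Finset.sum_congr rfl fun v _ => by rw [place_deg_eq_one, Nat.cast_one, mul_one]
  have hle : ∀ v, E v ≤ n := fun v => by
    by_cases hv : v ∈ E.support
    · rw [hsum]; exact Finset.single_le_sum (fun w _ => hE0 w) hv
    · rw [Finsupp.notMem_support_iff.mp hv]; exact Int.natCast_nonneg n
  have hmem : ∀ v ∈ E.support, v ∈ S := by
    intro v hv
    have horb : ∀ i : ℕ, g ^ i • v ∈ E.support := by
      intro i
      induction i with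
      | zero => simpa using hv
      | succ i ih =>
        rw [pow_succ', mul_smul, Finsupp.mem_support_iff]
        have h1 := SemilinearAut.divisor_smul_apply_smul g E (g ^ i • v)
        rw [hEfix] at h1
        rw [h1]
        exact Finsupp.mem_support_iff.mp ih
    have hcard : E.support.card ≤ n := by
      have : (E.support.card : ℤ) ≤ n := by
        rw [hsum, ← nsmul_one, ← Finset.sum_const]
        refine Finset.sum_le_sum fun w hw => ?_
        have := hE0 w
        have hne := Finsupp.mem_support_iff.mp hw
        rw [Finsupp.zero_apply] at this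
        omega
      exact_mod_cast this
    obtain ⟨i, hi, j, hj, hne, hij⟩ := Finset.exists_ne_map_eq_of_card_lt_of_maps_to
      (s := Finset.range (E.support.card + 1)) (t := E.support)
      (by rw [Finset.card_range]; omega) (f := fun i => g ^ i • v) (fun i _ => horb i)
    rw [Finset.mem_range] at hi hj
    have key : ∀ a b, a < b → b < E.support.card + 1 → g ^ a • v = g ^ b • v → v ∈ S := by
      intro a b hab hb heq
      refine Set.mem_biUnion (x := b - a)
        (Finset.mem_coe.mpr (Finset.mem_Icc.mpr ⟨by omega, by omega⟩)) ?_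
      show g ^ (b - a) • v = v
      apply MulAction.injective (g ^ a)
      show g ^ a • g ^ (b - a) • v = g ^ a • v
      rw [← mul_smul, ← pow_add, Nat.add_sub_cancel' hab.le]
      exact heq.symm
    rcases lt_or_gt_of_ne hne with h | h
    · exact key i j h hj hij
    · exact key j i h hi hij.symm
  refine ⟨(n, E), ⟨Finset.mem_coe.mpr (Finset.mem_Iic.mpr hnB), fun v hv => hmem v hv,
    fun v => ⟨hE0 v, le_trans (hle v) (by exact_mod_cast hnB)⟩⟩, ?_⟩
  have h0 : E - Finsupp.single P₀ (n : ℤ) ∈ Divisor.degZero (K := K) (F := F) := by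
    rw [Divisor.mem_degZero, map_sub, hEdeg, Deuring.degree_single_one, sub_self]
  simp only [mkE, dif_pos h0]
  refine QuotientAddGroup.eq.mpr ?_
  show -(E - Finsupp.single P₀ (n : ℤ)) + (D : Divisor K F) ∈
    Divisor.principal (K := K) (F := F)
  have := neg_mem hprin
  rw [neg_sub, sub_eq_add_neg, add_comm] at this
  exact this

/-- A positive integer kills all fixed classes. -/
theorem exists_nsmul_eq_zero_of_fixed {P₀ : Place K F} (hP₀ : g • P₀ = P₀)
    (hfix : ∀ j : ℕ, 0 < j → {v : Place K F | g ^ j • v = v}.Finite) :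
    ∃ h : ℕ, 0 < h ∧ ∀ x : Pic0 K F, g • x = x → h • x = 0 := by
  let G : AddSubgroup (Pic0 K F) :=
    { carrier := {x | g • x = x}
      add_mem' := fun {a b} ha hb => by
        show g • (a + b) = a + b
        rw [smul_add, ha, hb]
      zero_mem' := smul_zero g
      neg_mem' := fun {a} ha => by
        show g • (-a) = -a
        rw [smul_neg, ha] }
  have : Finite G := (finite_fixed_classes g hP₀ hfix).to_subtype
  refine ⟨Nat.card G, Nat.card_pos, fun x hx => ?_⟩
  exact congrArg Subtype.val (card_nsmul_eq_zero' (x := (⟨x, hx⟩ : G)))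

/-- A semilinear automorphism fixing a non-constant function and only finitely many constants
fixes only finitely many places. -/
theorem finite_fixed_places {x : F} (hx : Transcendental K x) (hgx : g • x = x)
    (hb : {c : K | SemilinearAut.baseAut g c = c}.Finite) :
    {v : Place K F | g • v = v}.Finite := by
  refine ((hb.biUnion fun c _ => finite_setOf_ord_pos (K := K) (x - algebraMap K F c)).union
    (finite_setOf_ord_ne_zero (K := K) x)).subset fun v hv => ?_
  by_cases h0 : v.ord x = 0
  · left
    have hmem : x ∈ v.toValuationSubring := (FFRiemannRoch.ord_nonneg_iff v (fun h => hx (by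
      rw [h]; exact isAlgebraic_zero))).mp h0.ge
    obtain ⟨c, hc⟩ : ∃ c : K, 0 < v.ord (x - algebraMap K F c) := by
      obtain ⟨c, hc⟩ := Deuring.exists_value v hx h0.ge
      exact ⟨c, hc⟩
    refine Set.mem_biUnion (x := c) ?_ hc
    have h1 : 0 < v.ord (x - algebraMap K F (SemilinearAut.baseAut g c)) := by
      have h2 := SemilinearAut.ord_smul g v (x - algebraMap K F c)
      rw [smul_sub, hgx, SemilinearAut.smul_algebraMap, show g • v = v from hv] at h2
      rw [h2]; exact hc
    show SemilinearAut.baseAut g c = c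
    by_contra hne
    have hne' : algebraMap K F (SemilinearAut.baseAut g c - c) ≠ 0 := by
      simpa [sub_eq_zero] using hne
    have h3 := le_ord_add v
      (f := x - algebraMap K F c) (g := -(x - algebraMap K F (SemilinearAut.baseAut g c)))
      (by rw [← sub_eq_add_neg, sub_sub_sub_cancel_left, ← map_sub]; exact hne')
    rw [← sub_eq_add_neg, sub_sub_sub_cancel_left, ← map_sub,
      ord_eq_zero_of_isAlgebraic v (isAlgebraic_algebraMap _), ord_neg] at h3
    omega
  · exact Or.inr h0

end FLTAgent.SemistableHecke
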