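import Fermat.Agent.SemistableHecke.MazurInterface
import Fermat.Agent.SemistableSplit.Modular
import Fermat.Agent.SemistableSplit.Rigidity
import Fermat.Agent.Semistable.Galois

/-!
# Inertia acts through the cyclotomic character on trivial new classes

`smul_eq_of_triv`: a trivial class killed by both pushforwards is split, and split classes are moved
by inertia through the cyclotomic character.
-/

set_option autoImplicit false

noncomputable section

open AlgebraicCurve ModularCurve FLTAgent.HeckeJacobian

namespace FLTAgent.SemistableHecke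

open FLTAgent.Density (GalQ Qbar)

/-- Inertia acts through the cyclotomic character on trivial classes killed by both
pushforwards. -/
theorem smul_eq_of_triv :
    ∀ (M p : ℕ) [NeZero M] [NeZero p], p.Prime → ¬ p ∣ M →
      ∀ A : ValuationSubring Qbar, A.LiesOverPrime p →
      ∀ w : modularFunctionFieldBar (M * p) →ₐ[Qbar] modularFunctionFieldBar (M * p),
        w.comp (heckeAlphaBar Qbar M p) = heckeBetaBar Qbar M p →
        w.comp (heckeBetaBar Qbar M p) = heckeAlphaBar Qbar M p →
      ∀ x : JZero (M * p), p • x = 0 → pushJ (heckeAlphaBar Qbar M p) x = 0 →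
        pushJ (heckeBetaBar Qbar M p) x = 0 → Triv A p x → Triv A p (pushJ w x) →
        ∀ σ ∈ A.inertiaSubgroupIn ℚ, ∀ n : ℕ, (∀ μ : Qbar, μ ^ p = 1 → σ μ = μ ^ n) →
          σ • x = n • x := by
  intro M p _ _ hp hpM A hA w hwα hwβ x hx hα hβ h₁ h₂ σ hσ n hn
  have : Fact p.Prime := ⟨hp⟩
  have := Semistable.charP_residueField hA
  have := Deuring.isAlgClosed_residueField A
  have := Deuring.Modular.isFunctionFieldk (Semistable.Level.setting M p hpM hA).good
  set S := Semistable.Level.setting M p hpM hA with hS
  have hk := Semistable.Level.hbar_mem_kj S (Semistable.Level.setting 1 p hp.not_dvd_one hA)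
  have hw : w = S.al.w := algHom_ext_degeneracy
    (fun z => (DFunLike.congr_fun hwα z).trans (DFunLike.congr_fun S.al.w_alpha z).symm)
    fun z => (DFunLike.congr_fun hwβ z).trans (DFunLike.congr_fun S.al.w_beta z).symm
  rw [hw] at h₂
  have hsplit := SemistableSplit.isSplit_of_pushJ_eq_zero S hk hA hx hα hβ h₁ h₂
  have hτ : ∀ a : A, IsLocalRing.residue A ⟨σ a, MazurStep.inertia_mem hσ a.2⟩ =
      RingEquiv.refl (IsLocalRing.ResidueField A) (IsLocalRing.residue A a) :=
    MazurStep.residue_inertia hσ
  have h1 : ∀ y : modularFunctionFieldFullC (IsLocalRing.ResidueField A) M,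
      FLTAgent.CongruenceRel.specialAut M (RingEquiv.refl (IsLocalRing.ResidueField A)) • y = y :=
    fun y => by rw [FLTAgent.CongruenceRel.specialAut_refl, one_smul]
  obtain ⟨ζ, hζ⟩ := HasEnoughRootsOfUnity.exists_primitiveRoot Qbar p
  exact Semistable.PairReduction.IsSplit.smul_eq hp (fun a b ha hb => S.arch a b ha hb)
    (Deuring.exists_residue_eq_zero hA)
    (Semistable.Level.galoisMorph (hσ := fun _ => MazurStep.inertia_mem hσ) S hk hτ) h1 h1
    (Semistable.Level.galoisMorph_map_E S hk hτ) hζ (hn ζ hζ.pow_eq_one) hsplit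

end FLTAgent.SemistableHecke
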