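import Fermat.Agent.SemistableHecke.Transfer
import Fermat.Agent.SemistableHecke.LinearTwo
import Mathlib.RingTheory.LocalRing.ResidueField.Basic
import Mathlib.RingTheory.Localization.FractionRing

/-!
# The unramified quotient row

If the images of certain group ring elements on `e J[p^∞]` lie in a subgroup on whose exponent `p`
part one `σ` acts by a residually nontrivial value of `χ`, then their matrices kill a common row.
-/

set_option autoImplicit false

noncomputable section

namespace FLTAgent.SemistableHecke.Transfer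

open FLTAgent.GaloisAttach MonoidAlgebra LinearTwo Matrix

variable {G R J A : Type*} [Group G] [CommRing R] [AddCommGroup J] [Module R J]
  [DistribMulAction G J] [SMulCommClass G R J] [CommRing A] [IsDomain A] [IsLocalRing A]
variable {p : ℕ} [Fact p.Prime] [IsAdicComplete (IsLocalRing.maximalIdeal A) A]
  {hpI : (p : A) ∈ IsLocalRing.maximalIdeal A}
variable {χ : G →* ℤ_[p]} {lam : R →+* A} {c : ℕ} {ρ : G →* Matrix (Fin 2) (Fin 2) A}
  (L : Linked (J := J) χ lam hpI c ρ)

/-- The reduction of a representation. -/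
theorem det_map_residue {A : Type*} [CommRing A] [IsLocalRing A]
    (P : Matrix (Fin 2) (Fin 2) A) :
    (P.map (IsLocalRing.residue A)).det = IsLocalRing.residue A P.det :=
  ((IsLocalRing.residue A).map_det P).symm

include L in
theorem det_eq_zero_of_level_one (h2 : (2 : A) ≠ 0)
    (hres : NoLine ((IsLocalRing.residue A).mapMatrix.toMonoidHom.comp ρ))
    (S : AddSubgroup J) {σ : G} {n : ℕ} (hn : IsUnit (n : A)) (hn1 : IsUnit ((n : A) - 1))
    (hχ : padicTo hpI (χ σ) - n ∈ IsLocalRing.maximalIdeal A)
    (hS : ∀ y ∈ S, p • y = 0 → σ • y = n • y)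
    {X : MonoidAlgebra ℤ G} {e : R} (he : lam e ≠ 0)
    (hX : ∀ (k : ℕ) (x : J), (p ^ k) • x = 0 → e • act G J X x ∈ S) :
    (mat G A ρ X).det = 0 := by
  classical
  let Y : MonoidAlgebra ℤ G := single σ 1 - single 1 (n : ℤ)
  have hmatY : mat G A ρ Y = ρ σ - (n : A) • 1 := by
    simp only [Y, map_sub, mat_single, one_smul, map_one, Nat.cast_smul_eq_nsmul]
  have hactY : ∀ y, act G J Y y = σ • y - n • y := fun y => by
    rw [map_sub]
    show act G J (single σ 1) y - act G J (single 1 (n : ℤ)) y = _
    rw [act_single, act_single, one_smul, one_smul, natCast_zsmul]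
  have hYk : ∀ y : J, p • y = 0 → (∀ g : G, g • y ∈ S) → act G J Y y = 0 := fun y hy hall => by
    rw [hactY, hS y (by simpa using hall 1) hy, sub_self]
  set ρ' := (IsLocalRing.residue A).mapMatrix.toMonoidHom.comp ρ with hρ'
  have hunit : ∀ P : Matrix (Fin 2) (Fin 2) A,
      (P.map (IsLocalRing.residue A)).det ≠ 0 → IsUnit P.det := fun P hP => by
    rw [det_map_residue, Ne, IsLocalRing.residue_eq_zero_iff] at hP
    exact IsLocalRing.notMem_maximalIdeal.mp hP
  by_cases hd : ((mat G A ρ Y).map (IsLocalRing.residue A)).det = 0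
  · have hne : (mat G A ρ Y).map (IsLocalRing.residue A) ≠ 0 := fun h0 => by
      have hs : ρ' σ = (n : IsLocalRing.ResidueField A) • 1 := by
        have := sub_eq_zero.mp (show ρ' σ - (n : IsLocalRing.ResidueField A) • 1 = 0 by
          rw [← h0, hmatY]
          show (ρ σ).map (IsLocalRing.residue A) - _ = _
          ext i j
          simp [Matrix.one_apply, apply_ite (IsLocalRing.residue A)])
        exact this
      have h1 : (ρ' σ).det = IsLocalRing.residue A (n : A) := by
        show ((ρ σ).map (IsLocalRing.residue A)).det = _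
        rw [det_map_residue, L.det_eq, eq_comm]
        exact (Ideal.Quotient.eq.mpr hχ).symm
      rw [hs, Matrix.det_smul, Matrix.det_one, mul_one, Fintype.card_fin, map_natCast] at h1
      have h3 : IsLocalRing.residue A ((n : A) * ((n : A) - 1)) = 0 := by
        rw [map_mul, map_sub, map_one, map_natCast]
        linear_combination h1
      rw [IsLocalRing.residue_eq_zero_iff] at h3
      exact (IsLocalRing.mem_maximalIdeal _).mp h3 (hn.mul hn1)
    obtain ⟨g, hg⟩ := exists_det_add_conj_ne_zero hres hd hne
    refine det_eq_zero_of_range_subset L h2 (Y := Y + single g 1 * Y * single g⁻¹ 1) he S hX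
      (fun y hy hall => ?_) (hunit _ ?_)
    · rw [map_add, end_add, hYk y hy hall, zero_add, map_mul, map_mul, end_mul, end_mul,
        hYk _ (by rw [← map_nsmul, hy, map_zero]) (fun g' => by
          rw [act_single, one_smul, ← mul_smul]; exact hall _), map_zero]
    · rw [map_add, map_mul, map_mul, mat_single, mat_single, one_smul, one_smul, Matrix.map_add _
        (map_add _), Matrix.map_mul, Matrix.map_mul]
      exact hg
  · exact det_eq_zero_of_range_subset L h2 he S hX hYk (hunit _ hd)

include L in
/-- The elements moving `e J[p^∞]` into `S` have a common annihilating row. -/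
theorem exists_row_of_level_one {K : Type*} [Field K] [Algebra A K] [IsFractionRing A K]
    (h2 : (2 : A) ≠ 0) (hres : NoLine ((IsLocalRing.residue A).mapMatrix.toMonoidHom.comp ρ))
    (hK : NoLine ((algebraMap A K).mapMatrix.toMonoidHom.comp ρ))
    (S : AddSubgroup J) {σ : G} {n : ℕ} (hn : IsUnit (n : A)) (hn1 : IsUnit ((n : A) - 1))
    (hχ : padicTo hpI (χ σ) - n ∈ IsLocalRing.maximalIdeal A)
    (hS : ∀ y ∈ S, p • y = 0 → σ • y = n • y) {e : R} (he : lam e ≠ 0) :
    ∃ u : Fin 2 → K, u ≠ 0 ∧ ∀ X : MonoidAlgebra ℤ G,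
      (∀ (k : ℕ) (x : J), (p ^ k) • x = 0 → e • act G J X x ∈ S) →
        u ᵥ* (mat G A ρ X).map (algebraMap A K) = 0 := by
  let P : Set (MonoidAlgebra ℤ G) :=
    {X | ∀ (k : ℕ) (x : J), (p ^ k) • x = 0 → e • act G J X x ∈ S}
  obtain ⟨u, hu, h⟩ := exists_common_row hK
    ((fun X => (mat G A ρ X).map (algebraMap A K)) '' P) (by
      rintro _ ⟨X, hX, rfl⟩ _ ⟨Y, hY, rfl⟩
      refine ⟨X + Y, fun k x hx => ?_, by simp [Matrix.map_add]⟩
      rw [map_add, end_add, smul_add]
      exact add_mem (hX k x hx) (hY k x hx)) (by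
      rintro _ ⟨X, hX, rfl⟩ g
      refine ⟨X * single g 1, fun k x hx => ?_, ?_⟩
      · rw [map_mul, end_mul, act_single, one_smul]
        exact hX k _ (by rw [smul_comm, hx, smul_zero])
      · show (mat G A ρ (X * single g 1)).map _ = _
        rw [map_mul, mat_single, one_smul, Matrix.map_mul]
        rfl) (by
      rintro _ ⟨X, hX, rfl⟩
      show ((algebraMap A K).mapMatrix (mat G A ρ X)).det = 0
      rw [← RingHom.map_det, det_eq_zero_of_level_one L h2 hres S hn hn1 hχ hS he hX, map_zero])
  exact ⟨u, hu, fun X hX => h _ ⟨X, hX, rfl⟩⟩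

end FLTAgent.SemistableHecke.Transfer
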