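import Fermat.Agent.SemistableHecke.NewformData
import Fermat.Agent.SemistableHecke.TrivScalar
import Fermat.Agent.SemistableHecke.TrivLevels
import Fermat.Agent.SemistableHecke.CommonRow
import Fermat.Agent.TateLocal.AtP

/-!
# The representation of a newform at `p ∥ N` is strictly ordinary

Inertia minus one and Frobenius minus `a_p` move the torsion attached to the newform into the
classes with trivial residual data, on whose exponent `p` part inertia acts by the cyclotomic
character; hence their matrices have a common annihilating row.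
-/

set_option autoImplicit false

noncomputable section

open CongruenceSubgroup ModularCurve AlgebraicCurve FLTAgent.GaloisAttach FLTAgent.HeckeJacobian
open IsLocalRing MonoidAlgebra Matrix FLTAgent.ModularityLifting FLTAgent.DefRing

namespace FLTAgent.SemistableHecke

open FLTAgent.Density (GalQ Qbar)

variable {O' : Type} [CommRing O'] [IsDomain O'] [IsDiscreteValuationRing O']

/-- Absolute irreducibility excludes a stable line. -/
theorem noLine_residual {ρ : MatRep O'} (h : AbsIrreducibleOn (mapRep (residue O') ρ) ⊤) :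
    LinearTwo.NoLine ((residue O').mapMatrix.toMonoidHom.comp ρ) := by
  intro v hv
  by_contra! hc
  refine hv (h (ResidueField O') (RingHom.id _) v fun σ _ => ?_)
  obtain ⟨a, ha⟩ := LinearTwo.eq_smul_of_cross_eq_zero hv (hc σ)
  refine ⟨a, ?_⟩
  rw [← ha]
  congr 1

theorem exists_primitive {v : Fin 2 → FractionRing O'} (hv : v ≠ 0) :
    ∃ (c : FractionRing O') (a : Fin 2 → O'), c ≠ 0 ∧ (∀ i, c * v i = algebraMap O' _ (a i)) ∧
      ∃ i, a i = 1 := by
  rcases eq_or_ne (v 0) 0 with h0 | h0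
  · have h1 : v 1 ≠ 0 := fun h => hv (funext fun i => by fin_cases i <;> assumption)
    exact ⟨(v 1)⁻¹, ![0, 1], inv_ne_zero h1, fun i => by fin_cases i <;> simp [h0, h1], 1, rfl⟩
  rcases ValuationRing.isInteger_or_isInteger O' (v 1 / v 0) with ⟨b, hb⟩ | ⟨b, hb⟩
  · refine ⟨(v 0)⁻¹, ![1, b], inv_ne_zero h0, fun i => ?_, 0, rfl⟩
    fin_cases i
    · simp [h0]
    · simp [hb, div_eq_inv_mul]
  · rcases eq_or_ne (v 1) 0 with h1 | h1
    · refine ⟨(v 0)⁻¹, ![1, 0], inv_ne_zero h0, fun i => ?_, 0, rfl⟩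
      fin_cases i <;> simp [h0, h1]
    refine ⟨(v 1)⁻¹, ![b, 1], inv_ne_zero h1, fun i => ?_, 1, rfl⟩
    fin_cases i
    · simp [hb, div_eq_inv_mul]
    · simp [h1]

/-- Residual irreducibility gives irreducibility over the fraction field. -/
theorem noLine_fraction {ρ : MatRep O'}
    (h : LinearTwo.NoLine ((residue O').mapMatrix.toMonoidHom.comp ρ)) :
    LinearTwo.NoLine ((algebraMap O' (FractionRing O')).mapMatrix.toMonoidHom.comp ρ) := by
  intro v hv
  obtain ⟨c, a, hc, ha, i, hi⟩ := exists_primitive hv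
  obtain ⟨g, hg⟩ := h (fun j => residue O' (a j)) fun h0 =>
    one_ne_zero (α := ResidueField O') (by rw [← map_one (residue O'), ← hi]; exact congrFun h0 i)
  refine ⟨g, fun h0 => hg ?_⟩
  have h1 : LinearTwo.cross a (ρ g *ᵥ a) = 0 := by
    refine IsFractionRing.injective O' (FractionRing O') ?_
    rw [map_zero]
    simp only [LinearTwo.cross, Matrix.mulVec, dotProduct, Fin.sum_univ_two, map_sub, map_mul,
      map_add, ← ha, RingHom.toMonoidHom_eq_coe, MonoidHom.coe_comp, MonoidHom.coe_coe,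
      Function.comp_apply, RingHom.mapMatrix_apply, Matrix.map_apply] at h0 ⊢
    linear_combination c ^ 2 * h0
  have h2 := congrArg (residue O') h1
  simp only [LinearTwo.cross, Matrix.mulVec, dotProduct, Fin.sum_univ_two, map_sub, map_mul,
    map_add, map_zero, RingHom.toMonoidHom_eq_coe, MonoidHom.coe_comp, MonoidHom.coe_coe,
    Function.comp_apply, RingHom.mapMatrix_apply, Matrix.map_apply] at h2 ⊢
  exact h2

omit [IsDomain O'] [IsDiscreteValuationRing O'] in
/-- A common left eigenvector gives a triangular form. -/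
theorem exists_triangular (ρ : MatRep O') (a : Fin 2 → O') {i : Fin 2} (hi : a i = 1) :
    ∃ g : GL (Fin 2) O', ∀ (σ : GalQ) (c : O'), a ᵥ* ρ σ = c • a →
      ((g : Matrix (Fin 2) (Fin 2) O') * ρ σ * (g⁻¹ : GL (Fin 2) O')) 1 0 = 0 ∧
      ((g : Matrix (Fin 2) (Fin 2) O') * ρ σ * (g⁻¹ : GL (Fin 2) O')) 1 1 = c := by
  obtain ⟨b, hu⟩ : ∃ b : Fin 2 → O', IsUnit (Matrix.of ![b, a]).det := by
    fin_cases i
    · refine ⟨![0, 1], ?_⟩
      simp [Matrix.det_fin_two, show a 0 = 1 from hi]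
    · refine ⟨![1, 0], ?_⟩
      simp [Matrix.det_fin_two, show a 1 = 1 from hi]
  refine ⟨Matrix.nonsingInvUnit _ hu, fun σ c hc => ?_⟩
  have key : ∀ j, (Matrix.of ![b, a] * ρ σ * (Matrix.of ![b, a])⁻¹) 1 j =
      c * (1 : Matrix (Fin 2) (Fin 2) O') 1 j := by
    intro j
    have h1 : ∀ l, (Matrix.of ![b, a] * ρ σ) 1 l = c * Matrix.of ![b, a] 1 l := fun l =>
      congrFun hc l
    rw [← Matrix.mul_nonsing_inv _ hu, Matrix.mul_apply, Matrix.mul_apply, Finset.mul_sum]
    refine Finset.sum_congr rfl fun l _ => ?_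
    rw [h1 l, mul_assoc]
  exact ⟨(key 0).trans (by simp), (key 1).trans (by simp)⟩

variable {p : ℕ} [Fact p.Prime] [IsAdicComplete (maximalIdeal O') O'] [CharZero O']

/-- The common kernel of the two push-forwards, with trivial data at both branches. -/
private def trivClasses (A : ValuationSubring Qbar) (M p : ℕ) [NeZero M] [NeZero p]
    (w : modularFunctionFieldBar (M * p) →ₐ[Qbar] modularFunctionFieldBar (M * p)) :
    AddSubgroup (JZero (M * p)) :=
  { carrier := {y | pushJ (heckeAlphaBar Qbar M p) y = 0 ∧ pushJ (heckeBetaBar Qbar M p) y = 0 ∧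
      ∃ k, p ^ k • y = 0 ∧ Triv A (p ^ k) y ∧ Triv A (p ^ k) (pushJ w y)}
    zero_mem' := ⟨map_zero _, map_zero _, 0, smul_zero _, triv_zero _,
      by rw [map_zero]; exact triv_zero _⟩
    add_mem' := by
      rintro y z ⟨hy₁, hy₂, k, hy, ty, ty'⟩ ⟨hz₁, hz₂, l, hz, tz, tz'⟩
      refine ⟨by rw [map_add, hy₁, hz₁, add_zero], by rw [map_add, hy₂, hz₂, add_zero], k + l,
        ?_, ?_, ?_⟩
      · rw [nsmul_add, pow_add, mul_nsmul, hy, smul_zero, zero_add, mul_nsmul', hz, smul_zero]
      · rw [pow_add]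
        exact (ty.raise _).add (mul_comm (p ^ l) (p ^ k) ▸ tz.raise _)
      · rw [pow_add, map_add]
        exact (ty'.raise _).add (mul_comm (p ^ l) (p ^ k) ▸ tz'.raise _)
    neg_mem' := by
      rintro y ⟨hy₁, hy₂, k, hy, ty, ty'⟩
      exact ⟨by rw [map_neg, hy₁, neg_zero], by rw [map_neg, hy₂, neg_zero], k,
        by simpa using hy, ty.neg, by rw [map_neg]; exact ty'.neg⟩ }

section Classes

variable {A : ValuationSubring Qbar} {M : ℕ} [NeZero M] [NeZero p]
  {w : modularFunctionFieldBar (M * p) →ₐ[Qbar] modularFunctionFieldBar (M * p)}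

omit [Fact p.Prime] in
/-- A class in the `-ε` part with trivial data lies in `trivClasses`. -/
private theorem mem_trivClasses {ε : ℤ} (hε : ε = 1 ∨ ε = -1) {k : ℕ} {y : JZero (M * p)}
    (hy : p ^ k • y = 0) (h₁ : pushJ (heckeAlphaBar Qbar M p) y = 0)
    (h₂ : pushJ (heckeBetaBar Qbar M p) y = 0) (h₃ : pushJ w y = -(ε • y))
    (ht : Triv A (p ^ k) y) : y ∈ trivClasses A M p w := by
  refine ⟨h₁, h₂, k, hy, ht, ?_⟩
  rw [h₃]
  rcases hε with rfl | rfl
  · rw [one_smul]; exact ht.neg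
  · rw [neg_smul, one_smul, neg_neg]; exact ht

/-- On the exponent `p` part of `trivClasses` inertia acts by the cyclotomic character. -/
private theorem smul_eq_of_mem_trivClasses [IsAlgClosed (IsLocalRing.ResidueField A)]
    [CharP (IsLocalRing.ResidueField A) p]
    (SS : Semistable.Level.Setting M p A (IsLocalRing.residue A)) (hA : A.LiesOverPrime p)
    (hwα : w.comp (heckeAlphaBar Qbar M p) = heckeBetaBar Qbar M p)
    (hwβ : w.comp (heckeBetaBar Qbar M p) = heckeAlphaBar Qbar M p)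
    {σ₀ : GalQ} (hσ₀ : σ₀ ∈ A.inertiaSubgroupIn ℚ) {n : ℕ}
    (hroot : ∀ μ : Qbar, μ ^ p = 1 → σ₀ μ = μ ^ n) :
    ∀ y ∈ trivClasses A M p w, p • y = 0 → σ₀ • y = n • y := by
  rintro y ⟨h₁, h₂, k, hk, ty, ty'⟩ hy
  have hlow : ∀ z : JZero (M * p), p • z = 0 → Triv A (p ^ k) z → Triv A p z := fun z hz tz => by
    have h := (tz.raise p)
    rw [← pow_succ, Nat.add_comm k 1] at h
    have := h.lower SS hA (by rw [pow_one]; exact hz)
    rwa [pow_one] at this
  exact smul_eq_of_triv M p Fact.out SS.not_dvd A hA w hwα hwβ y hy h₁ h₂ (hlow y hy ty)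
    (hlow _ (by rw [← map_nsmul, hy, map_zero]) ty') σ₀ hσ₀ n hroot

/-- Frobenius minus `ε` moves the `-ε` part into classes with trivial data. -/
private theorem triv_frobenius_sub [IsAlgClosed (IsLocalRing.ResidueField A)]
    [CharP (IsLocalRing.ResidueField A) p]
    (SS : Semistable.Level.Setting M p A (IsLocalRing.residue A)) (hA : A.LiesOverPrime p)
    (hwα : w.comp (heckeAlphaBar Qbar M p) = heckeBetaBar Qbar M p)
    (hwβ : w.comp (heckeBetaBar Qbar M p) = heckeAlphaBar Qbar M p)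
    {φ : GalQ} (hφ : A.IsFrobeniusAt φ p) {ε : ℤ} (hε : ε = 1 ∨ ε = -1) {m : ℕ}
    {y : JZero (M * p)} (hy : m • y = 0) (h₁ : pushJ (heckeAlphaBar Qbar M p) y = 0)
    (h₃ : pushJ w y = -(ε • y)) : Triv A m (φ • y - ε • y) := by
  have h := triv_add_frob_al SS hA hwα hwβ hφ hy h₁
  rw [h₃] at h
  rcases hε with rfl | rfl
  · rw [one_smul, smul_neg, ← sub_eq_add_neg] at h
    have h' := h.neg
    rw [neg_sub] at h'
    rw [one_smul]
    exact h'
  · rw [neg_smul, one_smul, neg_neg, add_comm] at h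
    rwa [neg_smul, one_smul, sub_neg_eq_add]

end Classes

omit [IsAdicComplete (maximalIdeal O') O'] [CharZero O'] in
/-- An integer prime to `p` is a unit of a coefficient ring of residue characteristic `p`. -/
private theorem isUnit_intCast (hpO : (p : O') ∈ maximalIdeal O') {z : ℤ} (hz : (z : ZMod p) ≠ 0) :
    IsUnit (z : O') := by
  by_contra hnu
  have hzm : (z : O') ∈ maximalIdeal O' := (mem_maximalIdeal _).mpr hnu
  obtain ⟨a, b, hab⟩ : IsCoprime z (p : ℤ) := by
    rw [Int.isCoprime_iff_gcd_eq_one, Int.gcd_comm]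
    exact ((Nat.Prime.coprime_iff_not_dvd (Fact.out : p.Prime)).mpr fun hd => hz
      ((ZMod.intCast_zmod_eq_zero_iff_dvd z p).mpr (Int.natCast_dvd.mpr hd)))
  refine (maximalIdeal.isMaximal O').ne_top ((Ideal.eq_top_iff_one _).mpr ?_)
  have : ((a * z + b * p : ℤ) : O') = 1 := by rw [hab, Int.cast_one]
  rw [← this, Int.cast_add, Int.cast_mul, Int.cast_mul, Int.cast_natCast]
  exact add_mem (Ideal.mul_mem_left _ _ hzm) (Ideal.mul_mem_left _ _ hpO)

omit [IsDomain O'] [IsDiscreteValuationRing O'] [IsAdicComplete (maximalIdeal O') O'] [CharZero O']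
  [Fact p.Prime] in
/-- Rows killed by one nonzero matrix over a domain are proportional. -/
private theorem eq_smul_of_vecMul_eq_zero [IsDomain O'] {Q : Matrix (Fin 2) (Fin 2) O'}
    (hQ : Q ≠ 0) {a b : Fin 2 → O'} (ha' : a ᵥ* Q = 0) (hb : b ᵥ* Q = 0) {i : Fin 2}
    (hi : a i = 1) : b = b i • a := by
  have hcross : LinearTwo.cross a b = 0 := by
    obtain ⟨r, s, hrs⟩ : ∃ r s, Q r s ≠ 0 := by
      by_contra! hc; exact hQ (Matrix.ext hc)
    have e1 := congrFun ha' s
    have e2 := congrFun hb s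
    simp only [Matrix.vecMul, dotProduct, Fin.sum_univ_two, Pi.zero_apply] at e1 e2
    suffices h : LinearTwo.cross a b * Q r s = 0 from (mul_eq_zero.mp h).resolve_right hrs
    fin_cases r
    · show (a 0 * b 1 - a 1 * b 0) * Q 0 s = 0
      linear_combination b 1 * e1 - a 1 * e2
    · show (a 0 * b 1 - a 1 * b 0) * Q 1 s = 0
      linear_combination a 0 * e2 - b 0 * e1
  funext j
  unfold LinearTwo.cross at hcross
  rw [Pi.smul_apply, smul_eq_mul]
  match i, j, hi with
  | 0, 0, hi => linear_combination -b 0 * hi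
  | 0, 1, hi => linear_combination hcross - b 1 * hi
  | 1, 0, hi => linear_combination -hcross - b 0 * hi
  | 1, 1, hi => linear_combination -b 1 * hi

omit [IsAdicComplete (maximalIdeal O') O'] [CharZero O'] in
/-- The cyclotomic exponent of `σ₀` and its difference with `1` are units when it is not `1`
modulo `p`. -/
private theorem isUnit_chiNat (hpO : (p : O') ∈ maximalIdeal O') {σ₀ : GalQ}
    (hσ₀1 : PadicInt.toZMod (cyc p σ₀) ≠ 1) :
    IsUnit (chiNat (cyc p) 1 σ₀ : O') ∧ IsUnit ((chiNat (cyc p) 1 σ₀ : O') - 1) := by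
  set n := chiNat (cyc p) 1 σ₀
  have hn' : (n : ZMod p) = PadicInt.toZMod (cyc p σ₀) := by
    have h1 : PadicInt.toZMod (cyc p σ₀ - (n : ℤ_[p])) = 0 := by
      rw [← RingHom.mem_ker, PadicInt.ker_toZMod, PadicInt.maximalIdeal_eq_span_p,
        ← pow_one (p : ℤ_[p]), ← PadicInt.ker_toZModPow, RingHom.mem_ker, map_sub, map_natCast,
        natCast_chiNat, sub_self]
    rw [map_sub, map_natCast, sub_eq_zero] at h1
    exact h1.symm
  have hnz : (n : ZMod p) ≠ 0 := by
    rw [hn']
    exact ((cyc p).toHomUnits σ₀).isUnit.map PadicInt.toZMod |>.ne_zero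
  have hun : IsUnit (n : O') := by
    have := isUnit_intCast hpO (z := n) (by rw [Int.cast_natCast]; exact hnz)
    rwa [Int.cast_natCast] at this
  have hun1 : IsUnit ((n : O') - 1) := by
    have := isUnit_intCast hpO (z := (n : ℤ) - 1) (by
      rw [Int.cast_sub, Int.cast_one, Int.cast_natCast, sub_ne_zero, hn']; exact hσ₀1)
    rwa [Int.cast_sub, Int.cast_one, Int.cast_natCast] at this
  exact ⟨hun, hun1⟩

omit [IsDomain O'] [IsDiscreteValuationRing O'] [IsAdicComplete (maximalIdeal O') O']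
  [CharZero O'] in
/-- A row killing a matrix over the fraction field still does so after clearing denominators. -/
private theorem vecMul_eq_zero_of_map {Q : Matrix (Fin 2) (Fin 2) O'}
    {u : Fin 2 → FractionRing O'} {cu : FractionRing O'} {a : Fin 2 → O'}
    (ha : ∀ i, cu * u i = algebraMap O' _ (a i))
    (hu : u ᵥ* Q.map (algebraMap O' (FractionRing O')) = 0) : a ᵥ* Q = 0 := by
  refine funext fun j => IsFractionRing.injective O' (FractionRing O') ?_
  have h := congrArg (cu * ·) (congrFun hu j)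
  simp only [Matrix.vecMul, dotProduct, Fin.sum_univ_two, Pi.zero_apply, mul_zero,
    Matrix.map_apply, mul_add, ← mul_assoc, ha, ← map_mul, ← map_add] at h
  simpa [Matrix.vecMul, dotProduct, Fin.sum_univ_two] using h

/-- Inertia minus one moves torsion classes into classes with trivial data. -/
private theorem triv_inertia_act {A : ValuationSubring Qbar} {M : ℕ} [NeZero M] [NeZero p]
    [IsAlgClosed (IsLocalRing.ResidueField A)] (hA : A.LiesOverPrime p) {τ : GalQ}
    (hτ : τ ∈ A.inertiaSubgroupIn ℚ) {m : ℕ} {y : JZero (M * p)} (hy : m • y = 0) :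
    Triv A m (Transfer.act GalQ (JZero (M * p)) (MonoidAlgebra.single τ 1 - 1) y) := by
  obtain ⟨hτD, hτ'⟩ : ∃ hτD : τ ∈ A.decompositionSubgroup ℚ,
      ∀ z : A, residue A ⟨τ z, MazurStep.inertia_mem hτ z.2⟩ = residue A z := by
    obtain ⟨⟨τ', hτD⟩, h, rfl⟩ := id hτ
    exact ⟨hτD, MazurStep.residue_inertia hτ⟩
  have he : Transfer.act GalQ (JZero (M * p)) (MonoidAlgebra.single τ 1 - 1) y =
      Transfer.act GalQ (JZero (M * p)) (MonoidAlgebra.single τ 1) y - y := by
    rw [map_sub, map_one]; rfl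
  rw [he, Transfer.act_single, one_smul]
  refine triv_inertia_sub Fact.out hA hτD (fun z => ?_) hy
  obtain ⟨z, rfl⟩ := IsLocalRing.residue_surjective z
  exact hτ' z

omit [CharZero O'] in
/-- An element with determinant congruent to `n` is not the identity when `n - 1` is a unit. -/
private theorem mat_single_sub_one_ne_zero {hpO : (p : O') ∈ maximalIdeal O'} {ρ : MatRep O'}
    {σ₀ : GalQ} {n : ℕ} (h1 : (ρ σ₀).det = padicTo hpO (cyc p σ₀))
    (hχ : padicTo hpO (cyc p σ₀) - (n : O') ∈ maximalIdeal O') (hun1 : IsUnit ((n : O') - 1)) :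
    Transfer.mat GalQ O' ρ (MonoidAlgebra.single σ₀ 1 - 1) ≠ 0 := fun h0 => by
  rw [map_sub, map_one, Transfer.mat_single, one_smul, sub_eq_zero] at h0
  rw [h0, Matrix.det_one] at h1
  rw [← h1] at hχ
  exact (mem_maximalIdeal _).mp (neg_sub (n : O') 1 ▸ hχ : -((n : O') - 1) ∈ _) hun1.neg

/-- Strict ordinarity at `p` of the representation attached to a newform with `p ∥ N`. -/
theorem strictAt_of_linked (hp2 : p ≠ 2)
    (hpO : (p : O') ∈ maximalIdeal O') {M : ℕ} [NeZero M] [NeZero p] (hpM : ¬ p ∣ M)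
    (ρ : MatRep O') (hirr : AbsIrreducibleOn (mapRep (residue O') ρ) ⊤) {ε : ℤ}
    (hε : ε = 1 ∨ ε = -1) {S' : Set ℕ} {lam : OutRing S' →+* O'} {c : ℕ} {e : OutRing S'}
    (hL : letI := outModule (M * p) S';
      Transfer.Linked (J := JZero (M * p)) (cyc p) lam hpO c ρ)
    (he : lam e ≠ 0)
    (hw : letI := outModule (M * p) S';
      ∀ w : modularFunctionFieldBar (M * p) →ₐ[Qbar] modularFunctionFieldBar (M * p),
        w.comp (heckeAlphaBar Qbar M p) = heckeBetaBar Qbar M p →
        w.comp (heckeBetaBar Qbar M p) = heckeAlphaBar Qbar M p →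
        ∀ (k : ℕ) (x : JZero (M * p)), (p ^ k) • x = 0 →
          pushJ (heckeAlphaBar Qbar M p) (e • x) = 0 ∧
          pushJ (heckeBetaBar Qbar M p) (e • x) = 0 ∧ pushJ w (e • x) = -(ε • (e • x))) :
    StrictAt ρ p (ε : O') := by
  have hp : p.Prime := Fact.out
  let := outModule (M * p) S'
  have := smulComm_outModule (M * p) p hp S'
  intro A hA
  have := Semistable.charP_residueField hA
  have := Deuring.isAlgClosed_residueField A
  set SS := Semistable.Level.setting M p hpM hA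
  set w := SS.al.w
  have hwα := SS.al.w_alpha
  have hwβ := SS.al.w_beta
  -- the classes with trivial data
  let U := trivClasses A M p w
  let P : MonoidAlgebra ℤ GalQ → Prop := fun X => ∀ (k : ℕ) (x : JZero (M * p)), (p ^ k) • x = 0 →
    Triv A (p ^ k) (Transfer.act GalQ (JZero (M * p)) X (e • x))
  have hPU : ∀ X, P X → ∀ (k : ℕ) (x : JZero (M * p)), (p ^ k) • x = 0 →
      e • Transfer.act GalQ (JZero (M * p)) X x ∈ U := by
    intro X hX k x hx
    have hx' : (p ^ k) • Transfer.act GalQ (JZero (M * p)) X x = 0 := by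
      rw [← map_nsmul, hx, map_zero]
    obtain ⟨h₁, h₂, h₃⟩ := hw w hwα hwβ k _ hx'
    have ht := hX k x hx
    rw [Transfer.act_smul] at ht
    exact mem_trivClasses hε (by rw [smul_comm, hx', smul_zero]) h₁ h₂ h₃ ht
  -- an inertia element moving roots of unity
  obtain ⟨σ₀, hσ₀, hσ₀1⟩ := TateLocal.exists_inertia_cyc (p := p) hp2 hA
  set n := chiNat (cyc p) 1 σ₀ with hn
  obtain ⟨hun, hun1⟩ := isUnit_chiNat hpO hσ₀1
  have hroot : ∀ μ : Qbar, μ ^ p = 1 → σ₀ μ = μ ^ n := fun μ hμ =>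
    apply_rootOfUnity p σ₀ (n := 1) (by rw [pow_one]; exact hμ)
  have hS := smul_eq_of_mem_trivClasses SS hA hwα hwβ hσ₀ hroot
  -- the common row
  have hχ : padicTo hpO (cyc p σ₀) - (n : O') ∈ maximalIdeal O' := by
    have := padicTo_sub_mem hpO 1 (cyc p σ₀)
    rwa [pow_one] at this
  have hres := noLine_residual hirr
  obtain ⟨u, hu, hrow⟩ := Transfer.exists_row_of_level_one hL (K := FractionRing O') two_ne_zero
    hres (noLine_fraction hres) U hun hun1 hχ hS he
  obtain ⟨cu, a, hcu, ha, i, hi⟩ := exists_primitive hu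
  have hrowA : ∀ X, P X → a ᵥ* Transfer.mat GalQ O' ρ X = 0 := fun X hX =>
    vecMul_eq_zero_of_map ha (hrow X (hPU X hX))
  have hin : ∀ τ ∈ A.inertiaSubgroupIn ℚ, P (MonoidAlgebra.single τ 1 - 1) := fun τ hτ k x hx =>
    triv_inertia_act hA hτ (by rw [smul_comm, hx, smul_zero])
  have hfr : ∀ φ, A.IsFrobeniusAt φ p → P (MonoidAlgebra.single φ 1 - MonoidAlgebra.single 1 ε) :=
    fun φ hφ k x hx => by
    obtain ⟨h₁, h₂, h₃⟩ := hw w hwα hwβ k x hx
    have hy : (p ^ k) • (e • x) = 0 := by rw [smul_comm, hx, smul_zero]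
    rw [map_sub]
    show Triv A (p ^ k) (Transfer.act GalQ (JZero (M * p)) (MonoidAlgebra.single φ 1) (e • x) -
      Transfer.act GalQ (JZero (M * p)) (MonoidAlgebra.single 1 ε) (e • x))
    rw [Transfer.act_single, Transfer.act_single, one_smul, one_smul]
    exact triv_frobenius_sub SS hA hwα hwβ hφ hε hy h₁ h₃
  have hD : ∀ σ ∈ A.decompositionSubgroup ℚ, ∀ X, P X → P (MonoidAlgebra.single σ 1 * X) :=
    fun σ hσ X hX k x hx => by
    rw [map_mul, Transfer.end_mul, Transfer.act_single, one_smul]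
    exact (hX k x hx).smul hσ
  have hσ₀ne := mat_single_sub_one_ne_zero (hL.det_eq σ₀) hχ hun1
  obtain ⟨g, hg⟩ := exists_triangular ρ a hi
  refine ⟨g, fun σ hσ => ?_⟩
  have hb : (a ᵥ* ρ σ) ᵥ* Transfer.mat GalQ O' ρ (MonoidAlgebra.single σ₀ 1 - 1) = 0 := by
    have h := hrowA _ (hD σ hσ _ (hin σ₀ hσ₀))
    rwa [map_mul, Transfer.mat_single, one_smul, ← Matrix.vecMul_vecMul] at h
  have hc := eq_smul_of_vecMul_eq_zero hσ₀ne (hrowA _ (hin σ₀ hσ₀)) hb hi
  obtain ⟨h10, h11⟩ := hg σ _ hc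
  refine ⟨h10, fun hI => ?_, fun hF => ?_⟩
  · rw [h11]
    have h := congrFun (hrowA _ (hin σ hI)) i
    rw [map_sub, map_one, Transfer.mat_single, one_smul, Matrix.vecMul_sub, Matrix.vecMul_one,
      Pi.sub_apply, Pi.zero_apply, sub_eq_zero, hi] at h
    exact h
  · rw [h11]
    have h := congrFun (hrowA _ (hfr σ hF)) i
    rw [map_sub, Transfer.mat_single, Transfer.mat_single, one_smul, map_one, Matrix.vecMul_sub,
      Matrix.vecMul_smul, Matrix.vecMul_one, Pi.sub_apply, Pi.zero_apply, sub_eq_zero,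
      Pi.smul_apply, hi, zsmul_one] at h
    exact h

/-- The local behaviour at `p` of the representation of a newform with `p ∥ N`. -/
theorem exists_strictAt_of_newform (hp2 : p ≠ 2)
    (hpO : (p : O') ∈ maximalIdeal O') {M : ℕ} [NeZero M] {g : CuspForm (Gamma0 M) 2}
    (hg : g.IsNewform) (hpM : p ∣ M) (hp2M : ¬ p ^ 2 ∣ M) (S : Finset ℕ)
    (θ : CuspForm.heckeAlgebra M 2 (S : Set ℕ) →+* O')
    (hker : RingHom.ker θ = RingHom.ker (Eigenforms.eigenChar (S := (S : Set ℕ)) hg.1))
    (T : AttachedTrace M p (S : Set ℕ) (maximalIdeal O') θ) (ρ : MatRep O')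
    (htr : ∀ σ, (ρ σ).trace = T.f σ) (hirr : AbsIrreducibleOn (mapRep (residue O') ρ) ⊤) :
    ∃ ε : ℤ, (ε = 1 ∨ ε = -1) ∧ ModularFormClass.qCoeff g p = ε ∧ StrictAt ρ p (ε : O') := by
  obtain ⟨M₀, hM₀⟩ := hpM
  obtain rfl : M = M₀ * p := hM₀.trans (mul_comm p M₀)
  have hp : p.Prime := Fact.out
  have : NeZero p := ⟨hp.ne_zero⟩
  have : NeZero M₀ := ⟨fun h => NeZero.ne (M₀ * p) (by rw [h, zero_mul])⟩
  have hndvd : ¬ p ∣ M₀ := fun hd => hp2M (by rw [pow_two]; exact Nat.mul_dvd_mul_right hd p)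
  obtain ⟨ε, hε, hc, S', lam, c, e, hL, he, hw⟩ :=
    exists_newPart_data hpO hp hndvd hg S θ hker T ρ htr
  exact ⟨ε, hε, hc, strictAt_of_linked hp2 hpO hndvd ρ hirr hε hL he hw⟩

end FLTAgent.SemistableHecke
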