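import Fermat.Agent.SemistableHecke.LocalSteinberg
import Fermat.Agent.SemistableHecke.LocalStrict

/-!
# Local behaviour of newforms at primes exactly dividing the level

`local_of_newform`: Steinberg away from `p`, strictly ordinary at `p`, with sign `a_q`.
-/

set_option autoImplicit false

noncomputable section

open CongruenceSubgroup FLTAgent.GaloisAttach IsLocalRing FLTAgent.ModularityLifting
  FLTAgent.DefRing

namespace FLTAgent.SemistableHecke

variable {p : ℕ} [Fact p.Prime] {O' : Type} [CommRing O'] [IsDomain O']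
  [IsDiscreteValuationRing O'] [IsAdicComplete (maximalIdeal O') O'] [CharZero O']

/-- A newform with `q ∥ M` gives a representation of Steinberg type at `q ≠ p`, strictly ordinary
at `q = p`, with sign `a_q`. -/
theorem local_of_newform (hp2 : p ≠ 2)
    (hpO : (p : O') ∈ maximalIdeal O') {M q : ℕ} [NeZero M] {g : CuspForm (Gamma0 M) 2}
    (hg : g.IsNewform) (hq : q.Prime) (hqM : q ∣ M) (hq2 : ¬ q ^ 2 ∣ M) (S : Finset ℕ)
    (θ : CuspForm.heckeAlgebra M 2 (S : Set ℕ) →+* O')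
    (hker : RingHom.ker θ = RingHom.ker (Eigenforms.eigenChar (S := (S : Set ℕ)) hg.1))
    (T : AttachedTrace M p (S : Set ℕ) (maximalIdeal O') θ) (ρ : MatRep O')
    (htr : ∀ σ, (ρ σ).trace = T.f σ) (hirr : AbsIrreducibleOn (mapRep (residue O') ρ) ⊤) :
    ∃ ε : ℤ, (ε = 1 ∨ ε = -1) ∧ ModularFormClass.qCoeff g q = ε ∧
      (q ≠ p → SteinbergAt ρ q (ε : O')) ∧ (q = p → StrictAt ρ p (ε : O')) := by
  by_cases hqp : q = p
  · subst hqp
    obtain ⟨ε, h1, h2, h3⟩ :=
      exists_strictAt_of_newform hp2 hpO hg hqM hq2 S θ hker T ρ htr hirr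
    exact ⟨ε, h1, h2, fun h => absurd rfl h, fun _ => h3⟩
  obtain ⟨M₀, hM₀⟩ := hqM
  obtain rfl : M = M₀ * q := hM₀.trans (mul_comm q M₀)
  have : NeZero q := ⟨hq.ne_zero⟩
  have : NeZero M₀ := ⟨fun h => NeZero.ne (M₀ * q) (by rw [h, zero_mul])⟩
  have hndvd : ¬ q ∣ M₀ := fun hd => hq2 (by rw [pow_two]; exact Nat.mul_dvd_mul_right hd q)
  obtain ⟨ε, hε, hc, S', lam, c, e, hL, he, hw⟩ :=
    exists_newPart_data hpO hq hndvd hg S θ hker T ρ htr
  exact ⟨ε, hε, hc, fun _ => steinbergAt_of_linked hpO hq hqp hndvd ρ hε hL he hw,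
    fun h => absurd h hqp⟩

end FLTAgent.SemistableHecke
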