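import Fermat.Agent.SemistableHecke.SeriesNorm
import Fermat.Agent.SemistableHecke.Degeneracy
import Fermat.Prelude.Thm_ModularCurve_coeff_jqModC_neg_one

/-!
# Norms from `X₀(Mq)` to `X₀(M)` on `q`-expansions, and the operator at `q`

The norm along the forgetful map is a product over explicit embeddings into Laurent series in
`t = q^{1/q}`.  As a consequence the Hecke operator at `q` of level `Mq` plus the Atkin–Lehner
involution is the composite of the two degeneracy maps.
-/

set_option autoImplicit false

noncomputable section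

open AlgebraicCurve ModularCurve FLTAgent.HeckeJacobian

namespace FLTAgent.SemistableHecke

local notation "Qbar" => AlgebraicClosure ℚ

variable {M q : ℕ} [NeZero M] [NeZero q]

/-- The series of an element of a modular function field. -/
abbrev serHom (N : ℕ) : modularFunctionFieldBar N →+* LaurentSeries Qbar :=
  (modularFunctionFieldBar N).val.toRingHom

/-- `ℚ̄` has primitive roots of unity of every order. -/
theorem exists_primitiveRoot (q : ℕ) [NeZero q] : ∃ u : Qbarˣ, IsPrimitiveRoot u q := by
  have : NeZero (q : Qbar) := NeZero.charZero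
  obtain ⟨ζ, hζ⟩ := HasEnoughRootsOfUnity.exists_primitiveRoot Qbar q
  exact ⟨(hζ.isUnit (NeZero.ne q)).unit, IsPrimitiveRoot.coe_units_iff.mp hζ⟩

theorem twist_qExpand {u : Qbarˣ} (hu : u ^ q = 1) (x : LaurentSeries Qbar) :
    twist u (qExpand Qbar q x) = qExpand Qbar q x := by
  ext n
  rw [twist_coeff]
  by_cases hn : (q : ℤ) ∣ n
  · obtain ⟨m, rfl⟩ := hn
    rw [zpow_mul, zpow_natCast, hu, one_zpow, Units.val_one, one_mul]
  · rw [qExpand_coeff_of_not_dvd q x hn, mul_zero]

/-- The embeddings of `F_{Mq}` over `F_M` into Laurent series in `q^{1/q}`. -/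
def embList (w : modularFunctionFieldBar (M * q) →ₐ[Qbar] modularFunctionFieldBar (M * q))
    (u : Qbarˣ) : Option (Fin q) → modularFunctionFieldBar (M * q) →+* LaurentSeries Qbar
  | none => (qExpand Qbar q).comp (serHom (M * q))
  | some j => ((twist (u ^ (j : ℕ))).comp (serHom (M * q))).comp w.toRingHom

variable {w : modularFunctionFieldBar (M * q) →ₐ[Qbar] modularFunctionFieldBar (M * q)}

theorem embList_alpha (hwα : w.comp (heckeAlphaBar Qbar M q) = heckeBetaBar Qbar M q)
    {u : Qbarˣ} (hu : IsPrimitiveRoot u q) (s : Option (Fin q)) (x : modularFunctionFieldBar M) :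
    embList w u s (heckeAlphaBar Qbar M q x) = qExpand Qbar q (x : LaurentSeries Qbar) := by
  cases s with
  | none => simp [embList, serHom]
  | some j =>
    show twist (u ^ (j : ℕ)) (w (heckeAlphaBar Qbar M q x) : LaurentSeries Qbar) = _
    rw [show w (heckeAlphaBar Qbar M q x) = heckeBetaBar Qbar M q x from DFunLike.congr_fun hwα x,
      coe_heckeBetaBar, twist_qExpand]
    rw [← pow_mul, mul_comm, pow_mul, hu.pow_eq_one, one_pow]

theorem embList_injective (hwβ : w.comp (heckeBetaBar Qbar M q) = heckeAlphaBar Qbar M q)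
    {u : Qbarˣ} (hu : IsPrimitiveRoot u q) (hq : q ≠ 1) :
    Function.Injective (embList (M := M) w u) := by
  let J := FLTAgent.ModularFF.jElt Qbar M
  have hnone : (embList w u none (heckeBetaBar Qbar M q J)).coeff (-1) = 0 := by
    show (qExpand Qbar q ((heckeBetaBar Qbar M q J : modularFunctionFieldBar (M * q)) :
      LaurentSeries Qbar)).coeff (-1) = 0
    refine qExpand_coeff_of_not_dvd q _ fun h => hq ?_
    have := Int.natAbs_dvd_natAbs.mpr h
    simpa using this
  have hsome : ∀ j : Fin q, (embList w u (some j) (heckeBetaBar Qbar M q J)).coeff (-1) =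
      (((u ^ (j : ℕ))⁻¹ : Qbarˣ) : Qbar) := by
    intro j
    show (twist (u ^ (j : ℕ)) (w (heckeBetaBar Qbar M q J) : LaurentSeries Qbar)).coeff (-1) = _
    rw [show w (heckeBetaBar Qbar M q J) = heckeAlphaBar Qbar M q J from DFunLike.congr_fun hwβ J,
      coe_heckeAlphaBar, twist_coeff, FLTAgent.ModularFF.coe_jElt, coeff_jqModC_neg_one, mul_one,
      zpow_neg_one]
  intro s t h
  have h' := congrArg (fun g => (g (heckeBetaBar Qbar M q J)).coeff (-1)) h
  cases s with
  | none =>
    cases t with
    | none => rfl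
    | some j => exact absurd (hnone.symm.trans (h'.trans (hsome j))) (Units.ne_zero _).symm
  | some i =>
    cases t with
    | none => exact absurd ((hsome i).symm.trans (h'.trans hnone)) (Units.ne_zero _)
    | some j =>
      simp only [hsome, Units.val_inj, inv_inj] at h'
      exact congrArg some (Fin.ext (hu.pow_inj i.isLt j.isLt h'))

theorem card_embList (hq : q.Prime) (hqM : ¬ q ∣ M) :
    Fintype.card (Option (Fin q)) = finrankAlong Qbar (heckeAlphaBar Qbar M q) := by
  rw [finrankAlong_heckeAlphaBar M q hq, if_neg hqM, Fintype.card_option, Fintype.card_fin]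

/-- The norm from level `Mq` to level `M` on series. -/
theorem series_norm_alpha (hq : q.Prime) (hqM : ¬ q ∣ M)
    (hwα : w.comp (heckeAlphaBar Qbar M q) = heckeBetaBar Qbar M q)
    (hwβ : w.comp (heckeBetaBar Qbar M q) = heckeAlphaBar Qbar M q)
    {u : Qbarˣ} (hu : IsPrimitiveRoot u q) (f : modularFunctionFieldBar (M * q)) :
    qExpand Qbar q (normAlong (heckeAlphaBar Qbar M q) f : LaurentSeries Qbar) =
      qExpand Qbar q (f : LaurentSeries Qbar) *
        ∏ j : Fin q, twist (u ^ (j : ℕ)) (w f : LaurentSeries Qbar) :=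
  (normAlong_eq_prod (heckeAlphaBar Qbar M q) (FFBasic.finiteAlong _)
    ((qExpand Qbar q).comp (serHom M)) (embList w u) (embList_injective hwβ hu hq.ne_one)
    (fun s x => embList_alpha hwα hu s x) (card_embList hq hqM) f).trans
    (Fintype.prod_option _)

/-- `N_α(β f) · w f = β(N_α f)`. -/
theorem norm_alpha_beta_mul (hq : q.Prime) (hqM : ¬ q ∣ M)
    (hwα : w.comp (heckeAlphaBar Qbar M q) = heckeBetaBar Qbar M q)
    (hwβ : w.comp (heckeBetaBar Qbar M q) = heckeAlphaBar Qbar M q)
    (f : modularFunctionFieldBar (M * q)) :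
    normAlong (heckeAlphaBar Qbar (M * q) q) (heckeBetaBar Qbar (M * q) q f) * w f =
      heckeBetaBar Qbar M q (normAlong (heckeAlphaBar Qbar M q) f) := by
  classical
  obtain ⟨u, hu⟩ := exists_primitiveRoot q
  set α₂ := heckeAlphaBar Qbar (M * q) q with hα₂
  set β₂ := heckeBetaBar Qbar (M * q) q with hβ₂
  let c := algebraMap (LaurentSeries Qbar) (AlgebraicClosure (LaurentSeries Qbar))
  let := algebraAlong α₂
  have : Module.Finite (modularFunctionFieldBar (M * q))
      (modularFunctionFieldBar (M * q * q)) := FFBasic.finiteAlong α₂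
  let : Algebra (modularFunctionFieldBar (M * q)) (AlgebraicClosure (LaurentSeries Qbar)) :=
    (c.comp (serHom (M * q))).toAlgebra
  have : Algebra.IsSeparable (modularFunctionFieldBar (M * q))
      (modularFunctionFieldBar (M * q * q)) := inferInstance
  set E := modularFunctionFieldBar (M * q * q) →ₐ[modularFunctionFieldBar (M * q)]
    AlgebraicClosure (LaurentSeries Qbar)
  have hres : ∀ s : E, ∃ i, s.toRingHom.comp β₂.toRingHom = c.comp (embList w u i) := by
    intro s
    refine exists_eq_of_comp (heckeAlphaBar Qbar M q) (FFBasic.finiteAlong _)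
      ((qExpand Qbar q).comp (serHom M)) (embList w u) (embList_injective hwβ hu hq.ne_one)
      (fun s x => embList_alpha hwα hu s x) (card_embList hq hqM) c
      (s.toRingHom.comp β₂.toRingHom) fun x => ?_
    have hsw : β₂ (heckeAlphaBar Qbar M q x) = α₂ (heckeBetaBar Qbar M q x) :=
      Subtype.ext (by simp [hα₂, hβ₂])
    show s (β₂ (heckeAlphaBar Qbar M q x)) = _
    rw [hsw]
    exact (s.commutes (heckeBetaBar Qbar M q x)).trans rfl
  choose i hi using hres
  have hgen := closure_range_scaled (M := M * q) (M * q) (e := q) (P := M * q * q)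
    (by rw [mul_one]; exact dvd_mul_right _ _) (dvd_refl (M * q * q)) rfl
  rw [← heckeBetaBar_eq, ← heckeAlphaBar_eq] at hgen
  have hi_inj : Function.Injective i := by
    intro s t hst
    have h : s.toRingHom.comp β₂.toRingHom = t.toRingHom.comp β₂.toRingHom := by
      rw [hi s, hi t, hst]
    refine AlgHom.ext fun y => ?_
    exact RingHom.eqOn_field_closure (f := s.toRingHom) (g := t.toRingHom)
      (s := Set.range α₂ ∪ Set.range β₂) (by
        rintro _ (⟨y, rfl⟩ | ⟨y, rfl⟩)
        · exact (s.commutes y).trans (t.commutes y).symm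
        · exact RingHom.congr_fun h y) (hgen ▸ Subfield.mem_top y)
  have hcardE : Fintype.card E = q := by
    rw [AlgHom.card]
    exact (finrankAlong_heckeAlphaBar (M * q) q hq).trans (if_pos (dvd_mul_left q M))
  have hu0 : u ^ ((0 : Fin q) : ℕ) = 1 := by simp
  have hne : ∀ s, i s ≠ some 0 := by
    intro s hs
    have hrange : ∀ y, ∃ z : modularFunctionFieldBar (M * q), s y = s (α₂ z) := by
      intro y
      have hy : y ∈ Subfield.closure (Set.range α₂ ∪ Set.range β₂) := hgen ▸ Subfield.mem_top y
      have hmem : ∀ y, y ∈ Set.range α₂ ∪ Set.range β₂ → s y ∈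
          ((s.toRingHom.comp α₂.toRingHom).fieldRange) := by
        rintro _ (⟨z, rfl⟩ | ⟨z, rfl⟩)
        · exact ⟨z, rfl⟩
        · refine ⟨w z, ?_⟩
          have h := RingHom.congr_fun (hi s) z
          rw [hs] at h
          refine ((s.commutes (w z)).trans ?_).trans h.symm
          show c (serHom (M * q) (w z)) = c (embList w u (some 0) z)
          rw [show embList w u (some (0 : Fin q)) z =
            twist (u ^ ((0 : Fin q) : ℕ)) (w z : LaurentSeries Qbar) from rfl, hu0]
          congr 1
          ext n
          simp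
      obtain ⟨z, hz⟩ := (Subfield.closure_le (t := Subfield.comap s.toRingHom
        (s.toRingHom.comp α₂.toRingHom).fieldRange)).mpr hmem hy
      exact ⟨z, hz.symm⟩
    have hsurj : Function.Surjective α₂ := fun y => by
      obtain ⟨z, hz⟩ := hrange y
      exact ⟨z, s.toRingHom.injective hz.symm⟩
    have h1 := finrankAlong_eq_one_of_surjective α₂ hsurj
    rw [finrankAlong_heckeAlphaBar (M * q) q hq, if_pos (dvd_mul_left q M)] at h1
    exact hq.ne_one h1
  have himg : Finset.univ.image i = Finset.univ.erase (some (0 : Fin q)) := by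
    refine Finset.eq_of_subset_of_card_le (fun o ho => ?_) ?_
    · obtain ⟨s, -, rfl⟩ := Finset.mem_image.mp ho
      exact Finset.mem_erase.mpr ⟨hne s, Finset.mem_univ _⟩
    · rw [Finset.card_erase_of_mem (Finset.mem_univ _), Finset.card_univ, Fintype.card_option,
        Fintype.card_fin, Finset.card_image_of_injective _ hi_inj, Finset.card_univ, hcardE]
      omega
  have h1 : c (normAlong α₂ (β₂ f) : LaurentSeries Qbar) = ∏ s : E, c (embList w u (i s) f) :=
    (Algebra.norm_eq_prod_embeddings (modularFunctionFieldBar (M * q))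
      (AlgebraicClosure (LaurentSeries Qbar)) (β₂ f)).trans
        (Finset.prod_congr rfl fun s _ => RingHom.congr_fun (hi s) f)
  have h2 : ∏ s : E, c (embList w u (i s) f) =
      ∏ o ∈ Finset.univ.erase (some (0 : Fin q)), c (embList w u o f) := by
    rw [← himg, Finset.prod_image fun _ _ _ _ h => hi_inj h]
  have h3 : (w f : LaurentSeries Qbar) = embList w u (some (0 : Fin q)) f := by
    rw [show embList w u (some (0 : Fin q)) f =
      twist (u ^ ((0 : Fin q) : ℕ)) (w f : LaurentSeries Qbar) from rfl, hu0]
    ext n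
    simp
  refine Subtype.ext (c.injective ?_)
  rw [MulMemClass.coe_mul, map_mul, h1, h2, h3, Finset.prod_erase_mul _ _ (Finset.mem_univ _),
    ← map_prod, coe_heckeBetaBar, series_norm_alpha hq hqM hwα hwβ hu, Fintype.prod_option]
  rfl

/-- `U_q x + w x = β^*(α_* x)`; in particular `U_q x = -w x` when `α_* x = 0`. -/
theorem heckeOperatorBar_add_al (hq : q.Prime) (hqM : ¬ q ∣ M)
    (hwα : w.comp (heckeAlphaBar Qbar M q) = heckeBetaBar Qbar M q)
    (hwβ : w.comp (heckeBetaBar Qbar M q) = heckeAlphaBar Qbar M q)
    {x : JZero (M * q)} (hx : pushJ (heckeAlphaBar Qbar M q) x = 0) :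
    heckeOperatorBar (M * q) ⟨q, hq⟩ x + pushJ w x = 0 := by
  classical
  obtain ⟨D, rfl⟩ := Pic0.mk_surjective x
  have : NeZero ((⟨q, hq⟩ : Nat.Primes) : ℕ) := ⟨hq.ne_zero⟩
  obtain ⟨E, hE, eE⟩ := heckeOperatorBar_mk (N := M * q) ⟨q, hq⟩ D
  simp only [scaledPush, scaledPull, ← heckeAlphaBar_eq,
    ← heckeBetaBar_eq] at eE
  rw [hE, pushJ_mk]
  rw [pushJ_mk, Pic0.mk, QuotientAddGroup.eq_zero_iff, AddSubgroup.mem_addSubgroupOf] at hx
  obtain ⟨h, hh0, hh⟩ := hx
  simp only [coe_pushDegZero] at hh
  have key : ((Divisor.pushforwardAlong (heckeAlphaBar Qbar (M * q) q) (integralAlong _)).comp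
        (Divisor.pullbackAlong (heckeBetaBar Qbar (M * q) q) (integralAlong _))) + pushDiv w =
      (Divisor.pullbackAlong (heckeBetaBar Qbar M q) (integralAlong _)).comp
        (pushDiv (heckeAlphaBar Qbar M q)) := by
    refine eq_of_eq_on_principal separatesPlaces_of_isFunctionField ?_
      ((isLocal_pullbackAlong _ _).comp (isLocal_pushforwardAlong _ _)) fun P f hf hP =>
        Finsupp.ext fun v => ?_
    · intro v
      obtain ⟨S₁, h₁⟩ := ((isLocal_pushforwardAlong (heckeAlphaBar Qbar (M * q) q)
        (integralAlong _)).comp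
          (isLocal_pullbackAlong (heckeBetaBar Qbar (M * q) q) (integralAlong _))) v
      obtain ⟨S₂, h₂⟩ := isLocal_pushforwardAlong w (integralAlong w) v
      refine ⟨S₁ ∪ S₂, fun Q hQ => ?_⟩
      rw [AddMonoidHom.add_apply, Finsupp.add_apply,
        h₁ Q fun t ht => hQ t (Finset.mem_union_left _ ht), pushDiv,
        h₂ Q fun t ht => hQ t (Finset.mem_union_right _ ht), add_zero]
    have hwn : normAlong w f = w f := by
      have hinv := al_involutive hwα hwβ
      let := algebraAlong w
      have hf' : f = algebraMap (modularFunctionFieldBar (M * q)) _ (w f) :=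
        (DFunLike.congr_fun hinv f).symm
      show Algebra.norm (modularFunctionFieldBar (M * q)) f = w f
      conv_lhs => rw [hf']
      rw [Algebra.norm_algebraMap]
      have := finrankAlong_of_involutive hinv
      unfold finrankAlong at this
      rw [this, pow_one]
    rw [AddMonoidHom.add_apply, AddMonoidHom.comp_apply, AddMonoidHom.comp_apply, Finsupp.add_apply,
      pushforwardAlong_apply_principal _ _ (FFBasic.finiteAlong _) (FFBasic.normFormulaAlong _ _)
        (by simpa using hf) (pullbackAlong_apply_principal _ _ hP),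
      pushDiv, pushforwardAlong_apply_principal w _ (FFBasic.finiteAlong w)
        (FFBasic.normFormulaAlong w _) hf hP,
      pullbackAlong_apply_principal _ _ (f := normAlong (heckeAlphaBar Qbar M q) f)
        (fun v' => show pushDiv (heckeAlphaBar Qbar M q) P v' = _ from
          pushforwardAlong_apply_principal _ _ (FFBasic.finiteAlong _)
            (FFBasic.normFormulaAlong _ _) hf hP v'),
      hwn, ← norm_alpha_beta_mul hq hqM hwα hwβ f, v.ord_mul
        (normAlong_ne_zero _ (FFBasic.finiteAlong _) (by simpa using hf)) (by simpa using hf)]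
  show QuotientAddGroup.mk (E + pushDegZero w D) = (0 : JZero (M * q))
  rw [QuotientAddGroup.eq_zero_iff, AddSubgroup.mem_addSubgroupOf]
  refine ⟨heckeBetaBar Qbar M q h, by simpa using hh0, fun v => ?_⟩
  have hk := congrArg (fun Q => Q v) (DFunLike.congr_fun key (D : Divisor Qbar _))
  simp only [AddMonoidHom.add_apply, AddMonoidHom.comp_apply, Finsupp.add_apply] at hk
  rw [AddSubgroup.coe_add, coe_pushDegZero, Finsupp.add_apply, eE]
  exact hk.trans (pullbackAlong_apply_principal _ _ hh v)

end FLTAgent.SemistableHecke
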