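import Fermat.Agent.SemistableHecke.NewformData
import Fermat.Agent.SemistableHecke.Assembly

/-!
# The local behaviour at `q ∥ N` of the representation of a newform

Away from the residue characteristic.
Main results: `exists_al_frob_rel` and `steinbergAt_of_linked`.
-/

set_option autoImplicit false

noncomputable section

open CongruenceSubgroup ModularCurve AlgebraicCurve FLTAgent.GaloisAttach FLTAgent.HeckeJacobian
open IsLocalRing MonoidAlgebra FLTAgent.ModularityLifting FLTAgent.DefRing

namespace FLTAgent.SemistableHecke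

open FLTAgent.Density (GalQ Qbar)

/-- The Frobenius relation on classes killed by both pushforwards, with an Atkin–Lehner
involution supplied. -/
theorem exists_al_frob_rel {M q p : ℕ} [NeZero M] [NeZero q] [Fact q.Prime] (hp : p.Prime)
    (hqp : q ≠ p) (hqM : ¬ q ∣ M) {A : ValuationSubring Qbar} (hA : A.LiesOverPrime q)
    {σ : GalQ} (hσ : A.IsFrobeniusAt σ q) :
    ∃ w : modularFunctionFieldBar (M * q) →ₐ[Qbar] modularFunctionFieldBar (M * q),
      w.comp (heckeAlphaBar Qbar M q) = heckeBetaBar Qbar M q ∧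
      w.comp (heckeBetaBar Qbar M q) = heckeAlphaBar Qbar M q ∧
      ∀ (k : ℕ) (x : JZero (M * q)), (p ^ k) • x = 0 →
        pushJ (heckeAlphaBar Qbar M q) x = 0 → pushJ (heckeBetaBar Qbar M q) x = 0 →
          σ • x + σ • σ • pushJ w x + q • (pushJ w x + σ • x) = 0 := by
  have hq : q.Prime := Fact.out
  have := Semistable.charP_residueField hA
  have := Deuring.isAlgClosed_residueField A
  have := Deuring.Modular.isFunctionFieldk (Semistable.Level.setting M q hqM hA).good
  set S := Semistable.Level.setting M q hqM hA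
  have hk := Semistable.Level.hbar_mem_kj S
    (Semistable.Level.setting 1 q hq.not_dvd_one hA)
  refine ⟨S.al.w, S.al.w_alpha, S.al.w_beta, fun k x hx h₁ h₂ => ?_⟩
  have ht := isTorus_add_frob (C := Semistable.Level.pairReduction S hk) S rfl rfl hA
    (pow_pos hp.pos k) hσ hx h₁ h₂
  obtain ⟨hσ', hfr⟩ := hσ
  have hw : ∀ t : JZero (M * q), pushJ S.al.w t =
      SemilinearAut.ofAlgAut (Semistable.Level.alEquiv S) • t :=
    pushJ_eq_smul (al_involutive S.al.w_alpha S.al.w_beta) _
      (fun f => by rw [SemilinearAut.ofAlgAut_smul, Semistable.Level.alEquiv_apply])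
  have h := Semistable.Level.frob_add_nsmul_al (σ := σ)
    (hσ := fun a ha => ((⟨σ, hσ'⟩ : A.decompositionSubgroup ℚ) • (⟨a, ha⟩ : A)).2) S hk
    (Semistable.admissible_residue hA fun hd => hqp ((Nat.prime_dvd_prime_iff_eq hq hp).mp
      (hq.dvd_of_dvd_pow hd)))
    (fun a => hfr (IsLocalRing.residue A a)) ht
  rwa [← hw, smul_add, map_add, pushJ_al_galois S.al.w_alpha S.al.w_beta, pushJ_w_w S] at h

variable {p : ℕ} [Fact p.Prime] {O' : Type} [CommRing O'] [IsDomain O']
  [IsDiscreteValuationRing O'] [IsAdicComplete (maximalIdeal O') O'] [CharZero O']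

/-- Inertia and Frobenius at a prime `q ≠ p` exactly dividing the level of a newform. -/
theorem steinbergAt_of_linked (hpO : (p : O') ∈ maximalIdeal O') {M q : ℕ} [NeZero M] [NeZero q]
    (hq : q.Prime) (hqp : q ≠ p) (hqM : ¬ q ∣ M) (ρ : MatRep O') {ε : ℤ}
    (hε : ε = 1 ∨ ε = -1) {S' : Set ℕ} {lam : OutRing S' →+* O'} {c : ℕ} {e : OutRing S'}
    (hL : letI := outModule (M * q) S';
      Transfer.Linked (J := JZero (M * q)) (cyc p) lam hpO c ρ)
    (he : lam e ≠ 0)
    (hw : letI := outModule (M * q) S';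
      ∀ w : modularFunctionFieldBar (M * q) →ₐ[Qbar] modularFunctionFieldBar (M * q),
        w.comp (heckeAlphaBar Qbar M q) = heckeBetaBar Qbar M q →
        w.comp (heckeBetaBar Qbar M q) = heckeAlphaBar Qbar M q →
        ∀ (k : ℕ) (x : JZero (M * q)), (p ^ k) • x = 0 →
          pushJ (heckeAlphaBar Qbar M q) (e • x) = 0 ∧
          pushJ (heckeBetaBar Qbar M q) (e • x) = 0 ∧ pushJ w (e • x) = -(ε • (e • x))) :
    SteinbergAt ρ q (ε : O') := by
  have hp : p.Prime := Fact.out
  have : Fact q.Prime := ⟨hq⟩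
  let := outModule (M * q) S'
  have := smulComm_outModule (M * q) p hp S'
  have hCH : ∀ g : GalQ, ρ g * ρ g - (ρ g).trace • ρ g + (ρ g).det • 1 = 0 := fun g => by
    ext i j
    fin_cases i <;> fin_cases j <;>
      simp [Matrix.mul_apply, Fin.sum_univ_two, Matrix.trace_fin_two, Matrix.det_fin_two] <;> ring
  intro P hP
  refine ⟨fun τ hτ => ?_, fun φ hφ => ?_⟩
  · have hc : cyc p τ = 1 := cyc_inertia p hq hqp hP hτ
    have hdet : (ρ τ).det = 1 := by rw [hL.det_eq, hc, map_one]
    have htr : (ρ τ).trace = 2 := by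
      refine (eq_of_forall_sub_mem_pow (I := maximalIdeal O') fun k => ?_).symm
      have h2 : IsWit (JZero (M * q)) (cyc p) (k + c) τ (2 : OutRing S') := fun x hx => by
        have hy := pow_nsmul_smul_zero τ⁻¹ hx
        have hu := unipotentSqOn (N := M * q) hp hq hqp (dvd_mul_left q M)
          (fun hd => hqM (Nat.dvd_of_mul_dvd_mul_right hq.pos (pow_two q ▸ hd))) hP hτ (k + c) _ hy
        rw [smul_inv_smul] at hu
        rw [chiNat_smul_eq (n := 1) (by rw [hc, Nat.cast_one]) hy, one_smul, hu,
          ← Nat.cast_ofNat (R := OutRing S'), Nat.cast_smul_eq_nsmul]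
      have h3 := hL.spec k τ 2 h2
      rwa [map_ofNat] at h3
    have h := hCH τ
    rw [htr, hdet, one_smul] at h
    rw [pow_two]
    calc (ρ τ - 1) * (ρ τ - 1) = ρ τ * ρ τ - (2 : O') • ρ τ + 1 := by
          rw [two_smul, sub_mul, mul_sub, mul_one, one_mul]; abel
      _ = 0 := h
  · obtain ⟨w, hwα, hwβ, hrel⟩ := exists_al_frob_rel (M := M) hp hqp hqM hP hφ
    let X : MonoidAlgebra ℤ GalQ := single φ 1 - single 1 (ε * q : ℤ)
    let Y : MonoidAlgebra ℤ GalQ := single φ 1 - single 1 ε
    have hε2 : ε * ε = 1 := by rcases hε with h | h <;> rw [h] <;> norm_num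
    have hkill : ∀ (k : ℕ) (x : JZero (M * q)), (p ^ k) • x = 0 →
        e • Transfer.act GalQ (JZero (M * q)) (X * Y) x = 0 := fun k x hx => by
      rw [← Transfer.act_smul]
      obtain ⟨h₁, h₂, h₃⟩ := hw w hwα hwβ k x hx
      have hy : (p ^ k) • (e • x) = 0 := by rw [smul_comm, hx, smul_zero]
      generalize e • x = y at h₁ h₂ h₃ hy
      have h := hrel k y hy h₁ h₂
      rw [h₃] at h
      let f : JZero (M * q) →+ JZero (M * q) := DistribSMul.toAddMonoidHom _ φ
      have hf : ∀ z : JZero (M * q), φ • z = f z := fun _ => rfl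
      have hact : ∀ (n : ℤ) (z : JZero (M * q)),
          Transfer.act GalQ (JZero (M * q)) (single φ 1 - single 1 n) z = f z - n • z :=
        fun n z => by
          rw [map_sub]
          show Transfer.act GalQ (JZero (M * q)) (single φ 1) z -
            Transfer.act GalQ (JZero (M * q)) (single 1 n) z = _
          rw [Transfer.act_single, Transfer.act_single, one_smul, one_smul, hf]
      rw [map_mul, Transfer.end_mul, hact, hact, map_sub, map_zsmul]
      simp only [hf, map_neg, map_zsmul] at h
      rcases hε with rfl | rfl <;> simp only [one_smul, one_mul, neg_smul, neg_mul, sub_neg_eq_add,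
        neg_neg, natCast_zsmul, nsmul_add] at h ⊢
      · linear_combination (norm := module) -h
      · linear_combination (norm := module) h
    have h0 := Transfer.det_eq_zero_of_kill hL two_ne_zero he hkill
    have hdet : (ρ φ).det = q := by rw [hL.det_eq, cyc_frobenius p hq hqp hP hφ, map_natCast]
    have hm : ∀ n : ℤ, (Transfer.mat GalQ O' ρ (single φ 1 - single 1 n)).det =
        (n : O') ^ 2 - (n : O') * (ρ φ).trace + q := fun n => by
      rw [map_sub, Transfer.mat_single, Transfer.mat_single, one_smul, map_one, ← hdet,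
        Matrix.det_fin_two, Matrix.det_fin_two, Matrix.trace_fin_two]
      simp only [Matrix.sub_apply, Matrix.smul_apply, Matrix.one_apply_eq,
        Matrix.one_apply_ne (show (0 : Fin 2) ≠ 1 by decide),
        Matrix.one_apply_ne (show (1 : Fin 2) ≠ 0 by decide), smul_zero, sub_zero]
      simp only [zsmul_eq_mul, mul_one]
      ring
    rw [map_mul, Matrix.det_mul, hm, hm, Int.cast_mul, Int.cast_natCast] at h0
    have hq0 : (q : O') ≠ 0 := Nat.cast_ne_zero.mpr hq.ne_zero
    have he2 : (ε : O') * ε = 1 := by rw [← Int.cast_mul, hε2, Int.cast_one]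
    rcases mul_eq_zero.mp h0 with h | h
    · refine mul_left_cancel₀ hq0 ?_
      linear_combination -(ε : O') * h + ((q : O') ^ 2 * ε - (q : O') * (ρ φ).trace) * he2
    · linear_combination -(ε : O') * h + ((ε : O') - (ρ φ).trace) * he2

end FLTAgent.SemistableHecke
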