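import Fermat.Agent.HeckeJacobian.Correspondence
import Mathlib.RingTheory.Norm.Transitivity
import Mathlib.FieldTheory.PrimitiveElement
import Mathlib.FieldTheory.IsAlgClosed.AlgebraicClosure
import Mathlib.RingTheory.LaurentSeries

/-!
# Norms as products over embeddings, and twisting of Laurent series

Main results: `normAlong_eq_prod` and the ring map `twist`.
-/

set_option autoImplicit false

noncomputable section

open AlgebraicCurve

namespace FLTAgent.SemistableHecke

open FLTAgent.HeckeJacobian

variable {K F F' Ω : Type*} [Field K] [Field F] [Field F'] [Field Ω]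
  [Algebra K F] [Algebra K F'] [CharZero F]

/-- The norm is the product over a complete list of embeddings. -/
theorem normAlong_eq_prod (φ : F →ₐ[K] F') (hfin : FiniteAlong K φ) (ι : F →+* Ω)
    {S : Type*} [Fintype S] (e : S → F' →+* Ω) (hinj : Function.Injective e)
    (hcomp : ∀ s x, e s (φ x) = ι x) (hcard : Fintype.card S = finrankAlong K φ) (y : F') :
    ι (normAlong φ y) = ∏ s, e s y := by
  classical
  let := algebraAlong φ
  have : Module.Finite F F' := hfin
  let c := algebraMap Ω (AlgebraicClosure Ω)
  let : Algebra F (AlgebraicClosure Ω) := (c.comp ι).toAlgebra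
  have : Algebra.IsSeparable F F' := inferInstance
  let f : S → (F' →ₐ[F] AlgebraicClosure Ω) := fun s =>
    { c.comp (e s) with commutes' := fun x => congrArg c (hcomp s x) }
  have hf : Function.Bijective f := by
    refine (Fintype.bijective_iff_injective_and_card f).mpr ⟨fun s t h => hinj
      (RingHom.ext fun z => c.injective (DFunLike.congr_fun h z)), ?_⟩
    rw [AlgHom.card, hcard]
    rfl
  apply c.injective
  rw [map_prod]
  exact (Algebra.norm_eq_prod_embeddings F (AlgebraicClosure Ω) y).trans
    ((Equiv.ofBijective f hf).prod_comp fun σ => σ y).symm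

/-- A complete list of embeddings contains every embedding with the same restriction. -/
theorem exists_eq_of_comp (φ : F →ₐ[K] F') (hfin : FiniteAlong K φ) (ι : F →+* Ω)
    {S : Type*} [Fintype S] (e : S → F' →+* Ω) (hinj : Function.Injective e)
    (hcomp : ∀ s x, e s (φ x) = ι x) (hcard : Fintype.card S = finrankAlong K φ)
    {Ω' : Type*} [Field Ω'] [IsAlgClosed Ω'] (c : Ω →+* Ω') (g : F' →+* Ω')
    (hg : ∀ x, g (φ x) = c (ι x)) : ∃ s, g = c.comp (e s) := by
  classical
  let := algebraAlong φ
  have : Module.Finite F F' := hfin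
  let : Algebra F Ω' := (c.comp ι).toAlgebra
  have : Algebra.IsSeparable F F' := inferInstance
  let f : S → (F' →ₐ[F] Ω') := fun s =>
    { c.comp (e s) with commutes' := fun x => congrArg c (hcomp s x) }
  have hf : Function.Bijective f := by
    refine (Fintype.bijective_iff_injective_and_card f).mpr ⟨fun s t h => hinj
      (RingHom.ext fun z => c.injective (DFunLike.congr_fun h z)), ?_⟩
    rw [AlgHom.card, hcard]
    rfl
  obtain ⟨s, hs⟩ := hf.2 { g with commutes' := hg }
  exact ⟨s, RingHom.ext fun z => (DFunLike.congr_fun hs z).symm⟩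

section Twist

variable {L : Type*} [Field L]

theorem support_twist_subset (u : Lˣ) (x : LaurentSeries L) :
    Function.support (fun n => ((u ^ n : Lˣ) : L) * x.coeff n) ⊆ x.support :=
  fun n hn h => hn (by simp only; rw [h, mul_zero])

/-- `a_n ↦ u^n a_n`. -/
def twist (u : Lˣ) : LaurentSeries L →+* LaurentSeries L where
  toFun x := ⟨fun n => ((u ^ n : Lˣ) : L) * x.coeff n,
    x.isPWO_support.mono (support_twist_subset u x)⟩
  map_one' := by
    ext n
    rcases eq_or_ne n 0 with rfl | hn <;> simp [HahnSeries.coeff_one, *]
  map_zero' := by ext n; simp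
  map_add' x y := by ext n; simp [mul_add]
  map_mul' x y := by
    ext n
    show ((u ^ n : Lˣ) : L) * (x * y).coeff n = _
    rw [HahnSeries.coeff_mul, HahnSeries.coeff_mul, Finset.mul_sum]
    refine Finset.sum_congr (Finset.ext fun ij => ?_) fun ij hij => ?_
    · simp only [Finset.mem_antidiagonal, HahnSeries.mem_support, ne_eq, mul_eq_zero,
        Units.ne_zero, false_or]
    · rw [Finset.mem_antidiagonal] at hij
      show _ = (_ * x.coeff ij.1) * (_ * y.coeff ij.2)
      rw [← hij.2.2, zpow_add, Units.val_mul]
      ring

/-- The coefficients of a series twisted in `q`. -/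
@[simp] theorem twist_coeff (u : Lˣ) (x : LaurentSeries L) (n : ℤ) :
    (twist u x).coeff n = ((u ^ n : Lˣ) : L) * x.coeff n := rfl

end Twist

end FLTAgent.SemistableHecke
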