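import Fermat.Agent.CongruenceRel.Setup
import Fermat.Agent.FiniteFlat.Descent
import Fermat.Agent.FiniteFlat.Places
import Fermat.Prelude.Thm_ModularCurve_coeff_jqModC_neg_one
import Fermat.Agent.SemistableHecke.SeriesNorm

/-!
# Residual series of elements of modular function fields

`HasBar A x r`: `x = a / b` with `a`, `b` series with coefficients in `A`, `b` residually nonzero,
and `r` the quotient of the residual series.  Every nonzero element of a modular function field
has a multiple by a constant with nonzero residual series.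
-/

set_option autoImplicit false

noncomputable section

namespace FLTAgent.SemistableHecke

open ModularCurve FLTAgent.CongruenceRel

local notation "Qbar" => AlgebraicClosure ℚ

variable {A : ValuationSubring Qbar}

local notation "kA" => IsLocalRing.ResidueField A
local notation "lift" => coeffMap (A.subtype)
local notation "red" => coeffMap (IsLocalRing.residue A)

variable (A) in
/-- `x` has residual series `r`. -/
def HasBar (x : LaurentSeries Qbar) (r : LaurentSeries kA) : Prop :=
  ∃ a b : LaurentSeries A, red b ≠ 0 ∧ x * lift b = lift a ∧ red a = r * red b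

theorem lift_injective : Function.Injective (lift : LaurentSeries A →+* LaurentSeries Qbar) :=
  coeffMap_injective Subtype.val_injective

theorem lift_ne_zero_of_red {b : LaurentSeries A} (hb : red b ≠ 0) : lift b ≠ 0 := fun h =>
  hb (by rw [lift_injective (h.trans (map_zero _).symm), map_zero])

theorem hasBar_lift (y : LaurentSeries A) : HasBar A (lift y) (red y) :=
  ⟨y, 1, by simp, by simp, by simp⟩

theorem hasBar_one : HasBar A 1 1 := by simpa using hasBar_lift (1 : LaurentSeries A)

theorem HasBar.unique {x : LaurentSeries Qbar} {r r' : LaurentSeries kA} (h : HasBar A x r)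
    (h' : HasBar A x r') : r = r' := by
  obtain ⟨a, b, hb, e, hr⟩ := h
  obtain ⟨a', b', hb', e', hr'⟩ := h'
  have h0 : a * b' = a' * b := lift_injective (by
    rw [map_mul, map_mul, ← e, ← e']; ring)
  have := congrArg red h0
  rw [map_mul, map_mul, hr, hr'] at this
  exact mul_right_cancel₀ (mul_ne_zero hb hb') (by linear_combination this)

theorem HasBar.mul {x y : LaurentSeries Qbar} {r s : LaurentSeries kA} (h : HasBar A x r)
    (h' : HasBar A y s) : HasBar A (x * y) (r * s) := by
  obtain ⟨a, b, hb, e, hr⟩ := h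
  obtain ⟨a', b', hb', e', hr'⟩ := h'
  refine ⟨a * a', b * b', by rw [map_mul]; exact mul_ne_zero hb hb', ?_, ?_⟩
  · rw [map_mul, map_mul, ← e, ← e']; ring
  · rw [map_mul, map_mul, hr, hr']; ring

theorem HasBar.pow {x : LaurentSeries Qbar} {r : LaurentSeries kA} (h : HasBar A x r) :
    ∀ n : ℕ, HasBar A (x ^ n) (r ^ n)
  | 0 => by simpa using hasBar_one (A := A)
  | n + 1 => by rw [pow_succ, pow_succ]; exact (h.pow n).mul h

theorem HasBar.prod {ι : Type*} (s : Finset ι) {x : ι → LaurentSeries Qbar}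
    {r : ι → LaurentSeries kA} (h : ∀ i ∈ s, HasBar A (x i) (r i)) :
    HasBar A (∏ i ∈ s, x i) (∏ i ∈ s, r i) := by
  induction s using Finset.cons_induction with
  | empty => simpa using hasBar_one (A := A)
  | cons i s hi ih =>
    rw [Finset.prod_cons, Finset.prod_cons]
    exact (h i (Finset.mem_cons_self i s)).mul
      (ih fun j hj => h j (Finset.mem_cons.mpr (Or.inr hj)))

theorem HasBar.inv {x : LaurentSeries Qbar} {r : LaurentSeries kA} (h : HasBar A x r)
    (hr : r ≠ 0) : HasBar A x⁻¹ r⁻¹ := by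
  obtain ⟨a, b, hb, e, hra⟩ := h
  have ha : red a ≠ 0 := hra ▸ mul_ne_zero hr hb
  refine ⟨b, a, ha, ?_, ?_⟩
  · have hx : x ≠ 0 := fun h0 => lift_ne_zero_of_red ha (by rw [← e, h0, zero_mul])
    rw [← e, inv_mul_cancel_left₀ hx]
  · rw [hra, inv_mul_cancel_left₀ hr]

theorem hasBar_const (a : A) :
    HasBar A (HahnSeries.single (0 : ℤ) (a : Qbar))
      (HahnSeries.single (0 : ℤ) (IsLocalRing.residue A a)) := by
  have h := hasBar_lift (HahnSeries.single (0 : ℤ) a)
  simpa only [coeffMap_single, ValuationSubring.subtype_apply] using h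

/-- Two residually nonzero constant multiples differ by a unit. -/
theorem HasBar.eq_const_mul {x : LaurentSeries Qbar} {c : Qbar} {r s : LaurentSeries kA}
    (h : HasBar A x r) (hr : r ≠ 0) (h' : HasBar A (HahnSeries.single 0 c * x) s) (hs : s ≠ 0) :
    ∃ d : kA, d ≠ 0 ∧ s = HahnSeries.single 0 d * r := by
  rcases eq_or_ne c 0 with rfl | hc
  · exfalso
    refine hs (h'.unique ?_)
    have h0 := hasBar_lift (0 : LaurentSeries A)
    simpa using h0
  rcases A.mem_or_inv_mem c with hA | hA
  · have h2 := (hasBar_const ⟨c, hA⟩).mul h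
    have e := h'.unique h2
    refine ⟨_, fun h0 => hs ?_, e⟩
    rw [e, h0, map_zero, zero_mul]
  · have h2 := (hasBar_const ⟨c⁻¹, hA⟩).mul h'
    rw [← mul_assoc, show ((⟨c⁻¹, hA⟩ : A) : Qbar) = c⁻¹ from rfl, HahnSeries.single_mul_single,
      add_zero, inv_mul_cancel₀ hc, HahnSeries.single_zero_one, one_mul] at h2
    have e := h.unique h2
    have hd : IsLocalRing.residue A (⟨c⁻¹, hA⟩ : A) ≠ 0 := fun h0 => hr (by
      rw [e, h0, map_zero, zero_mul])
    refine ⟨_, inv_ne_zero hd, ?_⟩
    rw [e, ← mul_assoc, HahnSeries.single_mul_single, add_zero, inv_mul_cancel₀ hd,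
      HahnSeries.single_zero_one, one_mul]

theorem qExpand_coeffMap {R S : Type*} [CommRing R] [CommRing S] (f : R →+* S) (n : ℕ) [NeZero n]
    (y : LaurentSeries R) : coeffMap f (qExpand R n y) = qExpand S n (coeffMap f y) :=
  ModularCurve.coeffMap_qExpand f n y

/-- Reduction commutes with `q ↦ q ^ n`. -/
theorem HasBar.qExpand {x : LaurentSeries Qbar} {r : LaurentSeries kA} (h : HasBar A x r)
    (n : ℕ) [NeZero n] :
    HasBar A (ModularCurve.qExpand Qbar n x) (ModularCurve.qExpand kA n r) := by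
  obtain ⟨a, b, hb, e, hr⟩ := h
  refine ⟨ModularCurve.qExpand A n a, ModularCurve.qExpand A n b, ?_, ?_, ?_⟩
  · rw [qExpand_coeffMap]
    exact fun h0 => hb (qExpand_injective n (h0.trans (map_zero _).symm))
  · rw [qExpand_coeffMap, qExpand_coeffMap, ← e, map_mul]
  · rw [qExpand_coeffMap, qExpand_coeffMap, hr, map_mul]

/-- Twisting by a root of unity congruent to `1` does not change residual series. -/
theorem HasBar.twist {x : LaurentSeries Qbar} {r : LaurentSeries kA} (h : HasBar A x r)
    {u : Qbarˣ} {v : Aˣ} (huv : ((v : A) : Qbar) = u) (hv : IsLocalRing.residue A (v : A) = 1) :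
    HasBar A (FLTAgent.SemistableHecke.twist u x) r := by
  obtain ⟨a, b, hb, e, hr⟩ := h
  have hzv : ∀ n : ℤ, ((u ^ n : Qbarˣ) : Qbar) = (((v ^ n : Aˣ) : A) : Qbar) := fun n => by
    have hmap : Units.map (A.subtype : A →* Qbar) v = u := Units.ext huv
    rw [← hmap, ← map_zpow]
    rfl
  have key : ∀ y : LaurentSeries A, ∃ z : LaurentSeries A,
      lift z = FLTAgent.SemistableHecke.twist u (lift y) ∧ red z = red y := by
    intro y
    refine ⟨⟨fun n => ((v ^ n : Aˣ) : A) * y.coeff n,
      y.isPWO_support.mono fun n hn h0 => hn (by simp only; rw [h0, mul_zero])⟩, ?_, ?_⟩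
    · ext n
      rw [twist_coeff, hzv]
      rfl
    · ext n
      show IsLocalRing.residue A (((v ^ n : Aˣ) : A) * y.coeff n) = _
      have h1 : Units.map (IsLocalRing.residue A : A →* kA) (v ^ n) = 1 := by
        rw [map_zpow, show Units.map (IsLocalRing.residue A : A →* kA) v = 1 from Units.ext hv,
          one_zpow]
      rw [map_mul, show IsLocalRing.residue A ((v ^ n : Aˣ) : A) = 1 from
        congrArg Units.val h1, one_mul]
      rfl
  obtain ⟨a', ha', har⟩ := key a
  obtain ⟨b', hb', hbr⟩ := key b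
  exact ⟨a', b', hbr ▸ hb, by rw [ha', hb', ← map_mul, e], by rw [har, hbr, hr]⟩

/-- Applying an automorphism of `A` to the coefficients. -/
theorem HasBar.coeffMap_aut {x : LaurentSeries Qbar} {r : LaurentSeries kA} (h : HasBar A x r)
    {σ : Qbar →+* Qbar} {σA : A →+* A} (hσ : ∀ a : A, (σA a : Qbar) = σ a) {ρ : kA →+* kA}
    (hρ : ∀ a : A, IsLocalRing.residue A (σA a) = ρ (IsLocalRing.residue A a)) :
    HasBar A (coeffMap σ x) (coeffMap ρ r) := by
  obtain ⟨a, b, hb, e, hr⟩ := h
  have h1 : ∀ y : LaurentSeries A, lift (coeffMap σA y) = coeffMap σ (lift y) := fun y => by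
    rw [coeffMap_coeffMap, coeffMap_coeffMap]
    exact coeffMap_congr (RingHom.ext hσ) y
  have h2 : ∀ y : LaurentSeries A, red (coeffMap σA y) = coeffMap ρ (red y) := fun y => by
    rw [coeffMap_coeffMap, coeffMap_coeffMap]
    exact coeffMap_congr (RingHom.ext hρ) y
  refine ⟨coeffMap σA a, coeffMap σA b, ?_, by rw [h1, h1, ← map_mul, e],
    by rw [h2, h2, hr, map_mul]⟩
  rw [h2]
  exact fun h0 => hb (coeffMap_injective ρ.injective (h0.trans (map_zero _).symm))

/-- Among coefficients in a number field lying in `A` one of largest absolute value exists. -/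
theorem exists_max_coeff {ℓ : ℕ} (hℓ : ℓ.Prime) (hA : A.LiesOverPrime ℓ) {x : LaurentSeries Qbar}
    {K₀ : IntermediateField ℚ Qbar} [FiniteDimensional ℚ K₀] (hK : ∀ n, x.coeff n ∈ K₀)
    (hx : x ≠ 0) (hint : ∀ n, x.coeff n ∈ A) :
    ∃ m, x.coeff m ≠ 0 ∧ ∀ n, x.coeff n / x.coeff m ∈ A := by
  obtain ⟨μ, hμ, hμ0, hdiv⟩ := exists_uniform_divisor hℓ hA K₀
  obtain ⟨m₀, hm₀⟩ : ∃ m, x.coeff m ≠ 0 := by
    by_contra! h
    exact hx (HahnSeries.ext (funext h))
  obtain ⟨N, hN⟩ := FiniteFlat.exists_ellpow_mul_mem hℓ hA (x.coeff m₀)⁻¹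
  obtain ⟨k, y, hy, hμk⟩ := FiniteFlat.exists_pow_div_mem hℓ hA hμ N
  have hk : μ ^ k / x.coeff m₀ ∈ A := by
    rw [hμk, div_eq_mul_inv, mul_right_comm]
    exact mul_mem hN hy
  have key : ∀ j m, x.coeff m ≠ 0 → μ ^ j / x.coeff m ∈ A →
      ∃ m, x.coeff m ≠ 0 ∧ ∀ n, x.coeff n / x.coeff m ∈ A := by
    intro j
    induction j with
    | zero =>
      intro m hm h
      refine ⟨m, hm, fun n => ?_⟩
      rw [pow_zero, one_div] at h
      exact mul_mem (hint n) h
    | succ j ih =>
      intro m hm h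
      by_cases hmax : ∀ n, x.coeff n / x.coeff m ∈ A
      · exact ⟨m, hm, hmax⟩
      push Not at hmax
      obtain ⟨n, hn⟩ := hmax
      have hn0 : x.coeff n ≠ 0 := fun h0 => hn (by simp [h0])
      refine ih n hn0 ?_
      have hlt : x.coeff m / x.coeff n ∈ A.nonunits := by
        rw [ValuationSubring.mem_nonunits_iff, ← inv_div, map_inv₀]
        exact inv_lt_one_of_one_lt₀ (not_le.mp fun hle => hn ((A.valuation_le_one_iff _).mp hle))
      have h1 := mul_mem h (hdiv _ (div_mem (hK m) (hK n)) hlt)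
      convert h1 using 1
      field_simp
      ring
  exact key k m₀ hm₀ hk

/-- Integral series in a base-changed field of Laurent series can be scaled to have a nonzero
residual series. -/
theorem exists_scale_integral {ℓ : ℕ} (hℓ : ℓ.Prime) (hA : A.LiesOverPrime ℓ)
    {F₀ : IntermediateField ℚ (LaurentSeries ℚ)} {y : LaurentSeries A}
    (hy : lift y ∈ laurentBaseChange Qbar F₀) (hy0 : y ≠ 0) :
    ∃ (c : Qbar) (z : LaurentSeries A), c ≠ 0 ∧ red z ≠ 0 ∧
      lift z = HahnSeries.single 0 c * lift y := by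
  obtain ⟨K₀, hfin, hK⟩ := exists_finite_coeff_field F₀ hy
  obtain ⟨m, hm, hmax⟩ := exists_max_coeff hℓ hA hK
    (fun h => hy0 (lift_injective (h.trans (map_zero _).symm))) fun n => (y.coeff n).2
  let z : LaurentSeries A := ⟨fun n => ⟨_, hmax n⟩,
    y.isPWO_support.mono fun n hn h => hn (Subtype.ext (by simp [h]))⟩
  refine ⟨((lift y).coeff m)⁻¹, z, inv_ne_zero hm, fun h => ?_, ?_⟩
  · have h1 := congrArg (fun s => HahnSeries.coeff s m) h
    simp only [coeffMap_coeff, HahnSeries.coeff_zero] at h1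
    rw [show z.coeff m = 1 from Subtype.ext (div_self hm), map_one] at h1
    exact one_ne_zero h1
  · ext n
    rw [HahnSeries.coeff_single_zero_mul]
    show (lift y).coeff n / (lift y).coeff m = _
    rw [div_eq_inv_mul]

variable (A) in
/-- `x` is zero or, up to a constant, a quotient of residually nonzero integral series from the
field. -/
def Scalable (F₀ : IntermediateField ℚ (LaurentSeries ℚ)) (x : LaurentSeries Qbar) : Prop :=
  x = 0 ∨ ∃ (c : Qbar) (a b : LaurentSeries A), c ≠ 0 ∧ red a ≠ 0 ∧ red b ≠ 0 ∧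
    lift a ∈ laurentBaseChange Qbar F₀ ∧ lift b ∈ laurentBaseChange Qbar F₀ ∧
    HahnSeries.single 0 c * x * lift b = lift a

variable {F₀ : IntermediateField ℚ (LaurentSeries ℚ)}

theorem scalable_of_lift {y : LaurentSeries A} (hy : lift y ∈ laurentBaseChange Qbar F₀)
    (hr : red y ≠ 0) : Scalable A F₀ (lift y) :=
  Or.inr ⟨1, y, 1, one_ne_zero, hr, by simp, hy, by simp,
    by simp⟩

theorem scalable_const (a : Qbar) : Scalable A F₀ (algebraMap Qbar (LaurentSeries Qbar) a) := by
  rcases eq_or_ne a 0 with rfl | ha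
  · exact Or.inl (map_zero _)
  refine Or.inr ⟨a⁻¹, 1, 1, inv_ne_zero ha, by simp, by simp, by simp, by simp, ?_⟩
  rw [algebraMap_laurentSeries_eq_single, HahnSeries.single_mul_single, add_zero,
    inv_mul_cancel₀ ha]
  simp

theorem Scalable.mul {x y : LaurentSeries Qbar} (hx : Scalable A F₀ x) (hy : Scalable A F₀ y) :
    Scalable A F₀ (x * y) := by
  rcases hx with rfl | ⟨c, a, b, hc, ha, hb, hai, hbi, e⟩
  · exact Or.inl (zero_mul y)
  rcases hy with rfl | ⟨c', a', b', hc', ha', hb', hai', hbi', e'⟩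
  · exact Or.inl (mul_zero x)
  refine Or.inr ⟨c * c', a * a', b * b', mul_ne_zero hc hc',
    by rw [map_mul]; exact mul_ne_zero ha ha',
    by rw [map_mul]; exact mul_ne_zero hb hb', by rw [map_mul]; exact mul_mem hai hai',
    by rw [map_mul]; exact mul_mem hbi hbi', ?_⟩
  have hs : HahnSeries.single (0 : ℤ) (c * c') =
      HahnSeries.single 0 c * HahnSeries.single 0 c' := by
    rw [HahnSeries.single_mul_single, add_zero]
  rw [hs, (lift).map_mul, (lift).map_mul, ← e, ← e']
  ring

theorem Scalable.neg {x : LaurentSeries Qbar} (hx : Scalable A F₀ x) : Scalable A F₀ (-x) := by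
  have h := (scalable_const (A := A) (F₀ := F₀) (-1)).mul hx
  simpa using h

theorem Scalable.inv {x : LaurentSeries Qbar} (hx : Scalable A F₀ x) : Scalable A F₀ x⁻¹ := by
  rcases hx with rfl | ⟨c, a, b, hc, ha, hb, hai, hbi, e⟩
  · exact Or.inl inv_zero
  refine Or.inr ⟨c⁻¹, b, a, inv_ne_zero hc, hb, ha, hbi, hai, ?_⟩
  have hs : HahnSeries.single (0 : ℤ) c * HahnSeries.single 0 c⁻¹ = (1 : LaurentSeries Qbar) := by
    rw [HahnSeries.single_mul_single, add_zero, mul_inv_cancel₀ hc]; rfl
  have hx0 : x ≠ 0 := fun h0 => lift_ne_zero_of_red ha (by rw [← e, h0, mul_zero, zero_mul])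
  rw [← e]
  calc HahnSeries.single (0 : ℤ) c⁻¹ * x⁻¹ * (HahnSeries.single 0 c * x * lift b)
      = (HahnSeries.single (0 : ℤ) c * HahnSeries.single 0 c⁻¹) * (x⁻¹ * x) * lift b := by ring
    _ = lift b := by rw [hs, inv_mul_cancel₀ hx0, one_mul, one_mul]

theorem Scalable.add {ℓ : ℕ} (hℓ : ℓ.Prime) (hA : A.LiesOverPrime ℓ) {x y : LaurentSeries Qbar}
    (hx : Scalable A F₀ x) (hy : Scalable A F₀ y) : Scalable A F₀ (x + y) := by
  rcases hx with rfl | ⟨c, a, b, hc, ha, hb, hai, hbi, e⟩
  · rwa [zero_add]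
  rcases hy with rfl | ⟨c', a', b', hc', ha', hb', hai', hbi', e'⟩
  · rw [add_zero]
    exact Or.inr ⟨c, a, b, hc, ha, hb, hai, hbi, e⟩
  rcases eq_or_ne (x + y) 0 with h0 | h0
  · exact Or.inl h0
  obtain ⟨n₁, h₁⟩ := FiniteFlat.exists_ellpow_mul_mem hℓ hA c
  obtain ⟨n₂, h₂⟩ := FiniteFlat.exists_ellpow_mul_mem hℓ hA c'
  set e₀ : Qbar := (ℓ : Qbar) ^ n₁ * (ℓ : Qbar) ^ n₂
  have he : e₀ ≠ 0 := mul_ne_zero (pow_ne_zero _ (by exact_mod_cast hℓ.ne_zero))
    (pow_ne_zero _ (by exact_mod_cast hℓ.ne_zero))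
  have hu : e₀ * c ∈ A := by
    rw [mul_right_comm]; exact mul_mem h₁ (pow_mem (natCast_mem A ℓ) _)
  have hu' : e₀ * c' ∈ A := by
    rw [mul_assoc]; exact mul_mem (pow_mem (natCast_mem A ℓ) _) h₂
  set S : Qbar → LaurentSeries Qbar := fun t => HahnSeries.single (0 : ℤ) t
  have hS : ∀ t t', S (t * t') = S t * S t' := fun t t' => by
    simp only [S, HahnSeries.single_mul_single, add_zero]
  let N : LaurentSeries A := HahnSeries.single 0 (⟨_, hu'⟩ : A) * a * b'
    + HahnSeries.single 0 (⟨_, hu⟩ : A) * a' * b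
  have hN : lift N = S (e₀ * c * c') * (x + y) * lift (b * b') := by
    simp only [N, map_add, map_mul, coeffMap_single, ← e, ← e']
    show S (e₀ * c') * _ * _ + S (e₀ * c) * _ * _ = _
    simp only [hS, S]
    ring
  have hNm : lift N ∈ laurentBaseChange Qbar F₀ := by
    simp only [N, map_add, map_mul, coeffMap_single]
    refine add_mem (mul_mem (mul_mem ?_ hai) hbi') (mul_mem (mul_mem ?_ hai') hbi) <;>
    · rw [← algebraMap_laurentSeries_eq_single]
      exact IntermediateField.algebraMap_mem _ _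
  have hbb : red (b * b') ≠ 0 := by rw [map_mul]; exact mul_ne_zero hb hb'
  have hN0 : N ≠ 0 := fun h => by
    rw [h, map_zero, eq_comm, mul_eq_zero, mul_eq_zero, HahnSeries.single_eq_zero_iff] at hN
    rcases hN with (h1 | h1) | h1
    · exact mul_ne_zero (mul_ne_zero he hc) hc' h1
    · exact h0 h1
    · exact lift_ne_zero_of_red hbb h1
  obtain ⟨d, z, hd, hz, hdz⟩ := exists_scale_integral hℓ hA hNm hN0
  refine Or.inr ⟨d * (e₀ * c * c'), z, b * b', mul_ne_zero hd (mul_ne_zero (mul_ne_zero he hc) hc'),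
    hz, hbb, ?_, by rw [map_mul]; exact mul_mem hbi hbi', ?_⟩
  · rw [hdz, ← algebraMap_laurentSeries_eq_single]
    exact mul_mem (IntermediateField.algebraMap_mem _ _) hNm
  · rw [hdz, hN, show HahnSeries.single (0 : ℤ) (d * (e₀ * c * c')) = S d * S (e₀ * c * c') from
      hS _ _]
    ring

theorem scalable_coeffEmb_jq (N d : ℕ) [NeZero N] [NeZero d] (hd : d ∣ N) :
    Scalable A (modularFunctionFieldFull N) (coeffEmb Qbar (qExpand ℚ d jq)) := by
  have hlift : lift (qExpand A d (jqModC A)) = coeffEmb Qbar (qExpand ℚ d jq) := by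
    rw [qExpand_coeffMap, coeffMap_jqModC, coeffEmb_qExpand_jq]
  rw [← hlift]
  refine scalable_of_lift (hlift ▸ coeffEmb_mem_laurentBaseChange Qbar (jqd_mem_full N hd)) ?_
  rw [qExpand_coeffMap, coeffMap_jqModC]
  intro h
  have h1 := congrArg (fun s => HahnSeries.coeff s ((d : ℤ) * -1)) h
  simp only [qExpand_coeff_mul, coeff_jqModC_neg_one, HahnSeries.coeff_zero] at h1
  exact one_ne_zero h1

/-- Every element of a modular function field is scalable. -/
theorem scalable_of_mem {ℓ : ℕ} (hℓ : ℓ.Prime) (hA : A.LiesOverPrime ℓ) (N : ℕ) [NeZero N]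
    {x : LaurentSeries Qbar} (hx : x ∈ modularFunctionFieldBar N) :
    Scalable A (modularFunctionFieldFull N) x := by
  have hrat : ∀ z ∈ modularFunctionFieldFull N,
      Scalable A (modularFunctionFieldFull N) (coeffEmb Qbar z) := by
    intro z hz
    induction hz using IntermediateField.adjoin_induction with
    | mem y hy =>
      obtain ⟨d, hd0, hd, rfl⟩ := hy
      exact scalable_coeffEmb_jq N d hd
    | algebraMap r =>
      have : coeffEmb Qbar (algebraMap ℚ (LaurentSeries ℚ) r) =
          algebraMap Qbar (LaurentSeries Qbar) (r : Qbar) := by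
        rw [algebraMap_laurentSeries_eq_single, algebraMap_laurentSeries_eq_single]
        simp [coeffEmb]
      rw [this]
      exact scalable_const _
    | add a b _ _ ha hb => rw [map_add]; exact ha.add hℓ hA hb
    | inv a _ ha => rw [map_inv₀]; exact ha.inv
    | mul a b _ _ ha hb => rw [map_mul]; exact ha.mul hb
  rw [mem_laurentBaseChange_iff] at hx
  induction hx using Subfield.closure_induction with
  | mem y hy =>
    rcases hy with ⟨a, rfl⟩ | ⟨z, hz, rfl⟩
    · exact scalable_const a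
    · exact hrat z hz
  | one => simpa using scalable_const (A := A) (F₀ := modularFunctionFieldFull N) 1
  | add a b _ _ ha hb => exact ha.add hℓ hA hb
  | neg a _ ha => exact ha.neg
  | inv a _ ha => exact ha.inv
  | mul a b _ _ ha hb => exact ha.mul hb

/-- Every nonzero element has a constant multiple with nonzero residual series. -/
theorem exists_hasBar {ℓ : ℕ} (hℓ : ℓ.Prime) (hA : A.LiesOverPrime ℓ) {N : ℕ} [NeZero N]
    (f : modularFunctionFieldBar N) (hf : f ≠ 0) :
    ∃ (c : Qbar) (r : LaurentSeries kA), c ≠ 0 ∧ r ≠ 0 ∧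
      HasBar A ((c • f : modularFunctionFieldBar N) : LaurentSeries Qbar) r := by
  rcases scalable_of_mem hℓ hA N f.2 with h | ⟨c, a, b, hc, ha, hb, -, -, e⟩
  · exact absurd (Subtype.ext h) hf
  refine ⟨c, red a / red b, hc, div_ne_zero ha hb, a, b, hb, ?_, (div_mul_cancel₀ _ hb).symm⟩
  rw [← e, IntermediateField.coe_smul, Algebra.smul_def, algebraMap_laurentSeries_eq_single]

end FLTAgent.SemistableHecke
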