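import Fermat.Agent.SemistableHecke.Transfer
import Fermat.Agent.GaloisAttach.ModularTrace
import Fermat.Agent.HeckeJacobian.Main
import Fermat.Agent.MazurStep.Conjugation

/-!
# Linking a Galois representation with a Hecke ring containing bad operators

The trace of a representation attached to a character of the Hecke algebra away from a set `S`
satisfies the relations of `Transfer.Linked` for the polynomial ring on all primes outside `S`.
-/

set_option autoImplicit false

noncomputable section

open CongruenceSubgroup ModularCurve FLTAgent.GaloisAttach FLTAgent.HeckeJacobian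

namespace FLTAgent.SemistableHecke

open FLTAgent.Density (GalQ Qbar)

/-- All primes outside `S`. -/
abbrev OutPrime (S : Set ℕ) : Type := {ℓ : Nat.Primes // (ℓ : ℕ) ∉ S}

/-- The polynomial ring on all primes outside `S`. -/
abbrev OutRing (S : Set ℕ) : Type := MvPolynomial (OutPrime S) ℤ

/-- Inclusion into the formal Hecke algebra. -/
def outIncl (S : Set ℕ) : OutRing S →+* HeckeAlg :=
  (MvPolynomial.aeval fun i : OutPrime S => heckeGen i.1).toRingHom

variable (N : ℕ) [NeZero N]

open scoped Classical in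
/-- The Hecke operator at a prime outside `S`. -/
def outGen (S : Set ℕ) (i : OutPrime S) : CuspForm.heckeAlgebra N 2 S :=
  if h : (i.1 : ℕ) ∣ N then CuspForm.heckeAlgebra.U i.1.2 h i.2
  else CuspForm.heckeAlgebra.T i.1.2 h i.2

/-- The map to the Hecke algebra away from `S`. -/
def outTheta (S : Set ℕ) : OutRing S →+* CuspForm.heckeAlgebra N 2 S :=
  MvPolynomial.eval₂Hom (Int.castRingHom _) (outGen N S)

theorem coe_outTheta {S : Set ℕ} (r : OutRing S) :
    (outTheta N S r : Module.End ℂ (CuspForm (Gamma0 N) 2)) = heckeEvalS2 N (outIncl S r) := by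
  refine RingHom.congr_fun (f := (CuspForm.heckeAlgebra N 2 S).val.toRingHom.comp (outTheta N S))
    (g := (heckeEvalS2 N).comp (outIncl S)) (MvPolynomial.ringHom_ext (fun a => ?_) fun i => ?_) r
  · simp [outTheta, outIncl, ← MvPolynomial.algebraMap_eq]
  · simp only [RingHom.comp_apply, outTheta, outIncl, MvPolynomial.eval₂Hom_X',
      AlgHom.toRingHom_eq_coe, RingHom.coe_coe, MvPolynomial.aeval_X]
    show _ = ((MvPolynomial.aeval (heckeGenS2 N) (MvPolynomial.X i.1) :
      CuspForm.heckeAlgebra N 2 ∅) : Module.End ℂ (CuspForm (Gamma0 N) 2))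
    rw [MvPolynomial.aeval_X]
    unfold outGen heckeGenS2
    split <;> rfl

/-- The good primes outside a larger set, among all primes outside `S`. -/
def goodToOut {S S₁ : Set ℕ} (h : S ⊆ S₁) : GoodRing N S₁ →+* OutRing S :=
  (MvPolynomial.rename fun i : GoodPrime N S₁ =>
    (⟨i.1, fun hi => i.2.2 (h hi)⟩ : OutPrime S)).toRingHom

omit [NeZero N] in
theorem outIncl_goodToOut {S S₁ : Set ℕ} (h : S ⊆ S₁) (r : GoodRing N S₁) :
    outIncl S (goodToOut N h r) = goodIncl N S₁ r := by
  refine RingHom.congr_fun (f := (outIncl S).comp (goodToOut N h)) (g := goodIncl N S₁)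
    (MvPolynomial.ringHom_ext (fun a => ?_) fun i => ?_) r
  · simp [goodToOut, goodIncl, outIncl]
  · simp [goodToOut, goodIncl, outIncl]

theorem outTheta_goodToOut {S S₁ : Set ℕ} (h : S ⊆ S₁) (r : GoodRing N S₁) :
    outTheta N S (goodToOut N h r) =
      Subalgebra.inclusion (CuspForm.heckeAlgebra_mono h) (goodTheta N S₁ r) := by
  refine RingHom.congr_fun (f := (outTheta N S).comp (goodToOut N h))
    (g := (Subalgebra.inclusion (CuspForm.heckeAlgebra_mono h)).toRingHom.comp (goodTheta N S₁))
    (MvPolynomial.ringHom_ext (fun a => ?_) fun i => ?_) r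
  · simp [goodToOut, goodTheta, outTheta]
  · simp only [RingHom.comp_apply, goodToOut, outTheta, goodTheta, MvPolynomial.eval₂Hom_X',
      AlgHom.toRingHom_eq_coe, RingHom.coe_coe, MvPolynomial.rename_X]
    rw [outGen, dif_neg i.2.1]
    rfl

variable {N} {p : ℕ}

theorem exists_kill_bound_out (hp : p.Prime) (S : Set ℕ) :
    letI := heckeModuleBar N
    ∃ c, ∀ (k : ℕ) (r : OutRing S),
      (∀ x : JZero N, (p ^ (k + c)) • x = 0 → outIncl S r • x = 0) →
        ∃ r', outTheta N S r = (p ^ k) • outTheta N S r' := by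
  let := heckeModuleBar N
  have : Fact p.Prime := ⟨hp⟩
  let : Algebra Qbar ℂ := qbarToC.toAlgebra
  have hT : TorsionCount N p := torsionCount p
  have := finite_charLattice N
  have := free_charLattice N
  have : Module.Finite ℤ (Module.End ℤ (charLattice N)) := inferInstance
  obtain ⟨c, hc⟩ := exists_saturation_bound p
    (LinearMap.range ((latticeEval hT).comp (outIncl S)).toAddMonoidHom.toIntLinearMap)
  refine ⟨c, fun k r hr => ?_⟩
  obtain ⟨u, hu⟩ := exists_endo_of_divisible _ _ (exists_eq_smul_of_kills hT (k + c) _ hr)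
  obtain ⟨r', hr'⟩ := hc (k + c) u ⟨r, hu⟩
  refine ⟨r', ?_⟩
  have hr'' : latticeEval hT (outIncl S r') = (p ^ c) • u := hr'
  have h0 : latticeEval hT (outIncl S (r - (p ^ k) • r')) = 0 := by
    rw [map_sub, map_nsmul, map_sub, map_nsmul, hr'', hu, pow_add, mul_nsmul', sub_self]
  have h1 := heckeEvalS2_eq_zero hT _ h0
  rw [← coe_outTheta, map_sub, map_nsmul] at h1
  exact sub_eq_zero.mp (Subtype.ext h1)

variable [Fact p.Prime] {A : Type} [CommRing A] {I : Ideal A} [IsAdicComplete I A]
  {hpI : (p : A) ∈ I}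

/-- The link with the ring on all primes outside `S`. -/
theorem exists_linked_out {S S₁ : Set ℕ} (hS : S ⊆ S₁) (χ : CuspForm.heckeAlgebra N 2 S →+* A)
    {T : AttachedTrace N p S₁ I
      (χ.comp (Subalgebra.inclusion (CuspForm.heckeAlgebra_mono hS)).toRingHom)}
    {c : ℕ} (L : TraceLink hpI T c) (ρ : GalQ →* Matrix (Fin 2) (Fin 2) A)
    (htr : ∀ σ, (ρ σ).trace = T.f σ) (hdet : ∀ σ, (ρ σ).det = T.ε σ) :
    letI := heckeModuleBar N
    letI : Module (OutRing S) (JZero N) := Module.compHom (JZero N) (outIncl S)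
    ∃ c', Transfer.Linked (J := JZero N) (cyc p) (χ.comp (outTheta N S)) hpI c' ρ := by
  let := heckeModuleBar N
  let : Module (OutRing S) (JZero N) := Module.compHom (JZero N) (outIncl S)
  obtain ⟨c₂, hc₂⟩ := exists_kill_bound_out (N := N) (Fact.out : p.Prime) S
  have hkill : ∀ (k : ℕ) (t : OutRing S), (∀ x : JZero N, (p ^ (k + c₂)) • x = 0 → t • x = 0) →
      χ (outTheta N S t) ∈ I ^ k := by
    intro k t ht
    obtain ⟨r', hr'⟩ := hc₂ k t ht
    rw [hr', map_nsmul, nsmul_eq_mul, Nat.cast_pow]
    exact Ideal.mul_mem_right _ _ (Ideal.pow_mem_pow hpI k)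
  have hsmul : ∀ (t : GoodRing N S₁) (x : JZero N),
      goodToOut N hS t • x = goodIncl N S₁ t • x := fun t x => by
    show outIncl S (goodToOut N hS t) • x = _
    rw [outIncl_goodToOut]
  have hwit : ∀ (k : ℕ) (g : GalQ) (t : GoodRing N S₁), IsWitness (p := p) k g t →
      IsWit (JZero N) (cyc p) k g (goodToOut N hS t) := fun k g t ht x hx => by
    rw [hsmul]; exact ht x hx
  refine ⟨c + c₂, fun g => (hdet g).trans (L.det_eq g), fun k g => ?_, fun k g t ht => ?_,
    fun k t ht => ?_⟩
  · obtain ⟨t, ht⟩ := L.exists_wit k g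
    exact ⟨_, hwit k g t ht⟩
  · obtain ⟨t₀, ht₀⟩ := L.exists_wit (k + (c + c₂)) g
    have h1 : χ (outTheta N S (t - goodToOut N hS t₀)) ∈ I ^ (k + c) := hkill _ _ fun x hx => by
      rw [add_assoc] at hx
      rw [sub_smul, ← ht x hx, ← hwit _ g t₀ ht₀ x hx, sub_self]
    have h2 := L.spec (k + c₂) g t₀ (by
      rw [show k + c₂ + c = k + (c + c₂) by ring]
      exact ht₀)
    rw [map_sub, map_sub, outTheta_goodToOut] at h1
    have h3 := add_mem (Ideal.pow_le_pow_right (Nat.le_add_right k c) h1)
      (Ideal.pow_le_pow_right (Nat.le_add_right k c₂) h2)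
    rw [RingHom.comp_apply, htr]
    convert h3 using 1
    exact (sub_add_sub_cancel _ _ _).symm
  · exact hkill k t fun x hx => ht x (by
      rw [show k + (c + c₂) = (k + c₂) + c by ring, pow_add, mul_nsmul, hx, smul_zero])

end FLTAgent.SemistableHecke
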