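import Fermat.Agent.SemistableHecke.TrivFrob
import Fermat.Agent.SemistableHecke.TraceFacts

/-!
# Frobenius on the torsion new at `q`

Classes killed by both pushforwards satisfy: `x + φ (w x)` is toric, hence
`φ⁴ + q² = (1 + q²) φ²` on them.
-/

set_option autoImplicit false

noncomputable section

open AlgebraicCurve ModularCurve FLTAgent.HeckeJacobian FLTAgent.GaloisAttach

namespace FLTAgent.SemistableHecke

local notation "Qbar" => AlgebraicClosure ℚ

section PushSmul

variable {N : ℕ} [NeZero N]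

theorem normAlong_of_involutive
    {w : modularFunctionFieldBar N →ₐ[Qbar] modularFunctionFieldBar N}
    (hinv : w.comp w = AlgHom.id _ _) (f : modularFunctionFieldBar N) : normAlong w f = w f := by
  let := algebraAlong w
  have hf' : f = algebraMap (modularFunctionFieldBar N) _ (w f) := (DFunLike.congr_fun hinv f).symm
  show Algebra.norm (modularFunctionFieldBar N) f = w f
  conv_lhs => rw [hf']
  rw [Algebra.norm_algebraMap]
  have := finrankAlong_of_involutive hinv
  unfold finrankAlong at this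
  rw [this, pow_one]

theorem pushJ_eq_smul {w : modularFunctionFieldBar N →ₐ[Qbar] modularFunctionFieldBar N}
    (hinv : w.comp w = AlgHom.id _ _) (g : SemilinearAut Qbar (modularFunctionFieldBar N))
    (hg : ∀ f, g • f = w f) (x : JZero N) : pushJ w x = g • x := by
  obtain ⟨D, rfl⟩ := Pic0.mk_surjective x
  rw [pushJ_mk, SemilinearAut.pic0_smul_mk]
  refine congrArg Pic0.mk (Subtype.ext ?_)
  have key : pushDiv w = DistribSMul.toAddMonoidHom _ g := by
    refine eq_of_eq_on_principal separatesPlaces_of_isFunctionField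
      (isLocal_pushforwardAlong w (integralAlong w)) (isLocal_smul g)
      fun P f hf hP => Finsupp.ext fun v => ?_
    show pushDiv w P v = (g • P) v
    rw [smul_apply_principal g hP, pushDiv, pushforwardAlong_apply_principal w _
      (FFBasic.finiteAlong w) (FFBasic.normFormulaAlong w _) hf hP,
      normAlong_of_involutive hinv, hg]
  rw [coe_pushDegZero, SemilinearAut.coe_degZeroSMulHom]
  exact DFunLike.congr_fun key _

theorem pushJ_id (x : JZero N) :
    pushJ (AlgHom.id Qbar (modularFunctionFieldBar N)) x = x := by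
  rw [pushJ_eq_smul (w := AlgHom.id Qbar _) rfl 1 (fun f => one_smul _ f), one_smul]

end PushSmul

variable {M q : ℕ} [NeZero M] [NeZero q] [Fact q.Prime]
variable {A : ValuationSubring Qbar}

local notation "kA" => IsLocalRing.ResidueField A

variable (S : Semistable.Level.Setting M q A (IsLocalRing.residue A))

theorem pushJ_w_w (x : JZero (M * q)) : pushJ S.al.w (pushJ S.al.w x) = x := by
  rw [pushJ_comp, al_involutive S.al.w_alpha S.al.w_beta, pushJ_id]

theorem pushJ_alpha_w (x : JZero (M * q)) :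
    pushJ (heckeAlphaBar Qbar M q) (pushJ S.al.w x) = pushJ (heckeBetaBar Qbar M q) x := by
  rw [pushJ_comp, S.al.w_alpha]

theorem pushJ_beta_w (x : JZero (M * q)) :
    pushJ (heckeBetaBar Qbar M q) (pushJ S.al.w x) = pushJ (heckeAlphaBar Qbar M q) x := by
  rw [pushJ_comp, S.al.w_beta]

variable [IsAlgClosed (IsLocalRing.ResidueField A)] [CharP (IsLocalRing.ResidueField A) q]
  {ι : Type*} [Fintype ι]
  {C : Semistable.PairReduction A (IsLocalRing.residue A) (modularFunctionFieldBar (M * q))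
    (modularFunctionFieldFullC (IsLocalRing.ResidueField A) M)
    (modularFunctionFieldFullC (IsLocalRing.ResidueField A) M) ι}

theorem branch_red_congr {L F k Fb : Type*} [Field L] [Field F] [Field k] [Field Fb] [Algebra L F]
    [Algebra k Fb] {A : ValuationSubring L} {π : A →+* k} {B B' : Semistable.Branch A π F Fb}
    (h : B = B') (c : L) (u : F) (hm : c • u ∈ B'.O) : B.red c u = B'.res ⟨c • u, hm⟩ := by
  subst h
  exact B.red_eq hm

/-- Trivial residual classes on both branches give toric classes. -/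
theorem isTorus_of_triv (hb₁ : C.b₁ = Semistable.Level.branch₁ S)
    (hb₂ : C.b₂ = Semistable.Level.branch₂ S) (hA : A.LiesOverPrime q) {m : ℕ} (hm : 0 < m)
    {x : JZero (M * q)} (hx : m • x = 0) (h₁ : Triv A m x) (h₂ : Triv A m (pushJ S.al.w x)) :
    C.IsTorus m x := by
  obtain ⟨T, rfl⟩ := C.exists_torsionData hx
  have hM : ((T.bar.1 : LaurentSeries kA)) ≠ 0 ∧ ((T.bar.2 : LaurentSeries kA)) ≠ 0 :=
    ⟨fun h => T.bar_ne₁ (Subtype.ext h), fun h => T.bar_ne₂ (Subtype.ext h)⟩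
  have m₁ : T.c.1 • T.f ∈ (Semistable.Level.branch₁ S).O := hb₁ ▸ T.mem.1
  have m₂ : T.c.2 • T.f ∈ (Semistable.Level.branch₂ S).O := hb₂ ▸ T.mem.2
  have e₁ : (T.bar.1 : LaurentSeries kA) =
      Semistable.Gauss.res A (IsLocalRing.residue A) (Semistable.Level.ι₁ M q) ⟨_, m₁⟩ := by
    rw [← Semistable.Level.coe_res₁ S m₁]
    exact congrArg Subtype.val (branch_red_congr hb₁ T.c.1 T.f m₁)
  have e₂ : (T.bar.2 : LaurentSeries kA) =
      Semistable.Gauss.res A (IsLocalRing.residue A) (Semistable.Level.ι₂ S.al) ⟨_, m₂⟩ := by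
    rw [← Semistable.Level.coe_res₂ S m₂]
    exact congrArg Subtype.val (branch_red_congr hb₂ T.c.2 T.f m₂)
  have hb1 := (hasBar_iff (A := A) (Semistable.Level.ι₁ M q) (T.c.1 • T.f)
    (T.bar.1 : LaurentSeries kA)).mpr ⟨m₁, e₁.symm⟩
  have hb2 := (hasBar_iff (A := A) (Semistable.Level.ι₂ S.al) (T.c.2 • T.f)
    (T.bar.2 : LaurentSeries kA)).mpr ⟨m₂, e₂.symm⟩
  have hd₁ : IsData A m T.cls (T.c.1 • T.f) (T.bar.1 : LaurentSeries kA) :=
    ⟨⟨T.D, T.degree_eq⟩, rfl, smul_ne_zero T.c_ne₁ T.f_ne,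
      fun v => (T.div_eq v).trans (FFBasic.ord_smul_const v T.c_ne₁ _).symm, hM.1,
      hb1⟩
  have hd₂ : IsData A m (pushJ S.al.w T.cls) (S.al.w (T.c.2 • T.f))
      (T.bar.2 : LaurentSeries kA) := by
    refine ⟨pushDegZero S.al.w ⟨T.D, T.degree_eq⟩, (pushJ_mk _ _).symm,
      (map_ne_zero S.al.w).mpr (smul_ne_zero T.c_ne₂ T.f_ne), fun v => ?_, hM.2,
      hb2⟩
    rw [← normAlong_al S.al.w_alpha S.al.w_beta (T.c.2 • T.f), coe_pushDegZero]
    exact pushDiv_mul_eq_ord S.al.w (smul_ne_zero T.c_ne₂ T.f_ne)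
      (fun u => (T.div_eq u).trans (FFBasic.ord_smul_const u T.c_ne₂ _).symm) v
  obtain ⟨a₁, z₁, -, -, hz₁, r₁⟩ := h₁.of_data S hA hd₁
  obtain ⟨a₂, z₂, -, -, hz₂, r₂⟩ := h₂.of_data S hA hd₂
  refine Semistable.PairReduction.isTorus_of_bar hm T (φ := (⟨z₁, hz₁⟩, ⟨z₂, hz₂⟩)) (a₁ := a₁)
    (a₂ := a₂) (Subtype.ext ?_) (Subtype.ext ?_)
  · rw [r₁, IntermediateField.coe_smul, Algebra.smul_def, algebraMap_laurentSeries_eq_single]
    rfl
  · rw [r₂, IntermediateField.coe_smul, Algebra.smul_def, algebraMap_laurentSeries_eq_single]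
    rfl

/-- `x + φ (w x)` is toric for classes killed by both pushforwards. -/
theorem isTorus_add_frob (hb₁ : C.b₁ = Semistable.Level.branch₁ S)
    (hb₂ : C.b₂ = Semistable.Level.branch₂ S) (hA : A.LiesOverPrime q) {m : ℕ} (hm : 0 < m)
    {σ : Qbar ≃ₐ[ℚ] Qbar} (hσ : A.IsFrobeniusAt σ q) {x : JZero (M * q)} (hx : m • x = 0)
    (hα : pushJ (heckeAlphaBar Qbar M q) x = 0) (hβ : pushJ (heckeBetaBar Qbar M q) x = 0) :
    C.IsTorus m (x + σ • pushJ S.al.w x) := by
  have hwx : m • pushJ S.al.w x = 0 := by rw [← map_nsmul, hx, map_zero]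
  refine isTorus_of_triv S hb₁ hb₂ hA hm ?_
    (triv_add_frob_al S hA S.al.w_alpha S.al.w_beta hσ hx hα) ?_
  · rw [nsmul_add, hx, zero_add, smul_comm, hwx]
    exact smul_zero (A := JZero (M * q)) σ
  · rw [map_add, pushJ_al_galois S.al.w_alpha S.al.w_beta]
    exact triv_add_frob_al S hA S.al.w_alpha S.al.w_beta hσ hwx
      (by rw [pushJ_alpha_w S, hβ])

/-- The Frobenius relation on classes killed by both pushforwards. -/
theorem frob_sq_rel_of_new (hb₁ : C.b₁ = Semistable.Level.branch₁ S)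
    (hb₂ : C.b₂ = Semistable.Level.branch₂ S) (hA : A.LiesOverPrime q) {m : ℕ} (hm : 0 < m)
    {σ : Qbar ≃ₐ[ℚ] Qbar} (hσ : A.IsFrobeniusAt σ q)
    (hT : ∀ t, C.IsTorus m t → σ • t + q • pushJ S.al.w t = 0)
    {x : JZero (M * q)} (hx : m • x = 0)
    (hα : pushJ (heckeAlphaBar Qbar M q) x = 0) (hβ : pushJ (heckeBetaBar Qbar M q) x = 0) :
    σ • σ • σ • σ • x + q ^ 2 • x = (1 + q ^ 2) • σ • σ • x := by
  set w := S.al.w
  have hgal := pushJ_al_galois S.al.w_alpha S.al.w_beta σ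
  have key : ∀ y : JZero (M * q), m • y = 0 → pushJ (heckeAlphaBar Qbar M q) y = 0 →
      pushJ (heckeBetaBar Qbar M q) y = 0 →
      σ • y + σ • σ • pushJ w y + (q • pushJ w y + q • σ • y) = 0 := by
    intro y hy h1 h2
    have h := hT _ (isTorus_add_frob S hb₁ hb₂ hA hm hσ hy h1 h2)
    rwa [smul_add, map_add, hgal, pushJ_w_w S, nsmul_add] at h
  have e₁ := key x hx hα hβ
  have e₂ := key (pushJ w x) (by rw [← map_nsmul, hx, map_zero])
    (by rw [pushJ_alpha_w S, hβ]) (by rw [pushJ_beta_w S, hα])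
  rw [pushJ_w_w S] at e₂
  let φ : JZero (M * q) →+ JZero (M * q) := DistribSMul.toAddMonoidHom _ σ
  have h₁ := congrArg φ e₁
  have h₂ := congrArg (fun z => φ (φ z)) e₂
  have h₃ := congrArg (fun z => q • z) e₂
  simp only [map_add, map_nsmul, map_zero] at h₁ h₂
  simp only [nsmul_add, nsmul_zero] at h₃
  have hφ : ∀ z, φ z = σ • z := fun _ => rfl
  simp only [← hφ] at h₁ h₂ h₃ ⊢
  linear_combination (norm := module) h₂ + h₃ - (1 + q) • h₁

/-- The input of S35. -/
theorem frobSqRelOn_of_new {p : ℕ} (hb₁ : C.b₁ = Semistable.Level.branch₁ S)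
    (hb₂ : C.b₂ = Semistable.Level.branch₂ S) (hA : A.LiesOverPrime q) (hp : p.Prime)
    {σ : Qbar ≃ₐ[ℚ] Qbar} (hσ : A.IsFrobeniusAt σ q)
    (hcomm : letI := heckeModuleBar (M * q);
      SMulCommClass (Qbar ≃ₐ[ℚ] Qbar) HeckeAlg (JZero (M * q)))
    (hT : ∀ k t, C.IsTorus (p ^ k) t → σ • t + q • pushJ S.al.w t = 0)
    {T : Set ℕ} (e : GoodRing (M * q) T)
    (he : letI := heckeModuleBar M;
      ∀ (k : ℕ) (x : JZero M), (p ^ k) • x = 0 → goodIncl (M * q) T e • x = 0)
    (hAL : ALInputs q) : FrobSqRelOn (M * q) p (goodIncl (M * q) T e) q σ := by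
  let := heckeModuleBar (M * q)
  have := hcomm
  refine ⟨0, fun k x hx => ?_⟩
  rw [pow_zero, one_nsmul, one_nsmul]
  set r := goodIncl (M * q) T e
  have hrx : (p ^ k) • (r • x) = 0 := by rw [smul_comm, hx, smul_zero]
  have hα : pushJ (heckeAlphaBar Qbar M q) (r • x) = 0 := by
    rw [pushJ_alpha_smul Fact.out e x]
    exact he k _ (by rw [← map_nsmul, hx, map_zero])
  have hβ : pushJ (heckeBetaBar Qbar M q) (r • x) = 0 := by
    rw [pushJ_beta_smul Fact.out S.not_dvd hAL e x]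
    exact he k _ (by rw [← map_nsmul, hx, map_zero])
  have h := frob_sq_rel_of_new S hb₁ hb₂ hA (pow_pos hp.pos k) hσ (hT k) hrx hα hβ
  have hc : ∀ y : JZero (M * q), σ • r • y = r • σ • y := smul_comm σ r
  have hn : ∀ (n : ℕ) (y : JZero (M * q)), n • r • y = r • n • y := fun n => smul_comm n r
  simp only [hc, hn, ← smul_add] at h
  exact h

end FLTAgent.SemistableHecke
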