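import Fermat.Agent.SemistableHecke.FullLink
import Fermat.Agent.SemistableHecke.FormsKill
import Fermat.Agent.SemistableHecke.ModularNorm
import Fermat.Agent.SemistableHecke.NewPart
import Fermat.Agent.SemistableHecke.Separator
import Fermat.Agent.Newforms.BadPrimes
import Fermat.Agent.ModularityLifting.Points.Density
import Fermat.Agent.ModularityLifting.Setup
import Fermat.Agent.GaloisAttach.Supplied
import Fermat.Agent.ModularFF.AtkinLehnerQbar

/-!
# A Hecke element projecting to the torsion of a newform at a prime exactly dividing the level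

For a newform `g` of level `M q` with `a_q = ε` there is an element `e` of a Hecke ring containing
`U_q`, not killed by the eigencharacter, whose image on the torsion is killed by both pushforwards
and on which the Atkin–Lehner involution is `-ε`.
-/

set_option autoImplicit false

noncomputable section

open CongruenceSubgroup ModularCurve AlgebraicCurve FLTAgent.GaloisAttach FLTAgent.HeckeJacobian
open IsLocalRing FLTAgent.ModularityLifting FLTAgent.DefRing

namespace FLTAgent.SemistableHecke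

open FLTAgent.Density (GalQ Qbar)

/-- The module structure of the ring on the primes outside `S`. -/
abbrev outModule (N : ℕ) [NeZero N] (S : Set ℕ) : Module (OutRing S) (JZero N) :=
  letI := heckeModuleBar N
  Module.compHom (JZero N) (outIncl S)

theorem smulComm_outModule (N p : ℕ) [NeZero N] (hp : p.Prime) (S : Set ℕ) :
    letI := outModule N S
    SMulCommClass GalQ (OutRing S) (JZero N) := by
  let := heckeModuleBar N
  have := (jacobianInputs N hp).smulComm
  let := outModule N S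
  exact ⟨fun g r x => (smul_comm g (outIncl S r) x : _)⟩

variable {p : ℕ} [Fact p.Prime] {O' : Type} [CommRing O'] [IsDomain O']
  [IsDiscreteValuationRing O'] [IsAdicComplete (maximalIdeal O') O'] [CharZero O']

/-- The data attached to a newform at a prime exactly dividing its level. -/
theorem exists_newPart_data (hpO : (p : O') ∈ maximalIdeal O') {M q : ℕ} [NeZero M] [NeZero q]
    (hq : q.Prime) (hqM : ¬ q ∣ M) {g : CuspForm (Gamma0 (M * q)) 2} (hg : g.IsNewform)
    (S : Finset ℕ) (θ : CuspForm.heckeAlgebra (M * q) 2 (S : Set ℕ) →+* O')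
    (hker : RingHom.ker θ = RingHom.ker (Eigenforms.eigenChar (S := (S : Set ℕ)) hg.1))
    (T : AttachedTrace (M * q) p (S : Set ℕ) (maximalIdeal O') θ) (ρ : MatRep O')
    (htr : ∀ σ, (ρ σ).trace = T.f σ) :
    ∃ ε : ℤ, (ε = 1 ∨ ε = -1) ∧ ModularFormClass.qCoeff g q = ε ∧
      ∃ (S' : Set ℕ) (lam : OutRing S' →+* O') (c : ℕ) (e : OutRing S'),
        letI := outModule (M * q) S'
        Transfer.Linked (J := JZero (M * q)) (cyc p) lam hpO c ρ ∧ lam e ≠ 0 ∧
        ∀ w : modularFunctionFieldBar (M * q) →ₐ[Qbar] modularFunctionFieldBar (M * q),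
          w.comp (heckeAlphaBar Qbar M q) = heckeBetaBar Qbar M q →
          w.comp (heckeBetaBar Qbar M q) = heckeAlphaBar Qbar M q →
          ∀ (k : ℕ) (x : JZero (M * q)), (p ^ k) • x = 0 →
            pushJ (heckeAlphaBar Qbar M q) (e • x) = 0 ∧
            pushJ (heckeBetaBar Qbar M q) (e • x) = 0 ∧ pushJ w (e • x) = -(ε • (e • x)) := by
  classical
  have hp : p.Prime := Fact.out
  have hq2 : ¬ q ^ 2 ∣ M * q := fun hd => hqM (Nat.dvd_of_mul_dvd_mul_right hq.pos (pow_two q ▸ hd))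
  have hsq : ModularFormClass.qCoeff g q ^ 2 = 1 :=
    ((Newforms.newformBadPrimeCoeff
      fun K _ _ => MFIntegral.hasIntegralStructure K 2) g hg q hq (dvd_mul_left q M)).1 hq2
  obtain ⟨ε, hε1, hε⟩ :
      ∃ ε : ℤ, (ε = 1 ∨ ε = -1) ∧ ModularFormClass.qCoeff g q = ε := by
    rcases sq_eq_one_iff.mp hsq with h | h
    · exact ⟨1, Or.inl rfl, by rw [h, Int.cast_one]⟩
    · exact ⟨-1, Or.inr rfl, by rw [h, Int.cast_neg, Int.cast_one]⟩
  refine ⟨ε, hε1, hε, ?_⟩
  let B : Finset ℕ := S ∪ (M * q).primeFactors ∪ {p}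
  let S' : Set ℕ := (↑B : Set ℕ) \ {q}
  have hB : ∀ r : ℕ, r.Prime → r ∣ M * q → r ∈ B := fun r hr hd =>
    Finset.mem_union_left _ (Finset.mem_union_right _
      (Nat.mem_primeFactors.mpr ⟨hr, hd, NeZero.ne _⟩))
  have hSB : ∀ r, r ∉ B → r ∉ (↑S : Set ℕ) := fun r hr h =>
    hr (Finset.mem_union_left _ (Finset.mem_union_left _ (Finset.mem_coe.mp h)))
  -- the character on the larger algebra
  let χ₀ : CuspForm.heckeAlgebra (M * q) 2 (↑S : Set ℕ) →+* ℂ := Eigenforms.eigenChar hg.1
  have hrange : ∀ t : CuspForm.heckeAlgebra (M * q) 2 S',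
      Eigenforms.eigenChar hg.1 t ∈ χ₀.range := by
    rintro ⟨x, hx⟩
    induction hx using Algebra.adjoin_induction with
    | mem y hy =>
      rcases hy with ⟨ℓ, hℓ, hℓN, hℓS, rfl⟩ | ⟨r, hrN, hr, hrS, rfl⟩
      · have hℓB : ℓ ∉ B := fun h => hℓS ⟨Finset.mem_coe.mpr h, fun h' => hℓN (by
          rw [Set.mem_singleton_iff.mp h']; exact dvd_mul_left q M)⟩
        refine ⟨CuspForm.heckeAlgebra.T hℓ hℓN (hSB ℓ hℓB), ?_⟩
        exact (Eigenforms.eigenChar_T hg.1 hℓ hℓN (hSB ℓ hℓB)).trans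
          (Eigenforms.eigenChar_T hg.1 hℓ hℓN hℓS).symm
      · have hrq : r = q := by
          by_contra h
          exact hrS ⟨Finset.mem_coe.mpr (hB r hr hrN), h⟩
        subst hrq
        refine ⟨(ε : CuspForm.heckeAlgebra (M * r) 2 (↑S : Set ℕ)), ?_⟩
        rw [map_intCast, ← hε]
        exact (Eigenforms.eigenChar_U hg.1 hr hrN hrS).symm
    | algebraMap n =>
      refine ⟨(n : CuspForm.heckeAlgebra (M * q) 2 (↑S : Set ℕ)), ?_⟩
      exact (map_intCast χ₀ n).trans (map_intCast (Eigenforms.eigenChar hg.1) n).symm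
    | add a b ha hb h₁ h₂ =>
      obtain ⟨u, hu⟩ := h₁
      obtain ⟨v, hv⟩ := h₂
      exact ⟨u + v, by rw [map_add, hu, hv, ← map_add]; rfl⟩
    | mul a b ha hb h₁ h₂ =>
      obtain ⟨u, hu⟩ := h₁
      obtain ⟨v, hv⟩ := h₂
      exact ⟨u * v, by rw [map_mul, hu, hv, ← map_mul]; rfl⟩
  have hle : RingHom.ker χ₀.rangeRestrict ≤ RingHom.ker θ := fun x hx => by
    rw [hker, RingHom.mem_ker]
    exact congrArg Subtype.val (RingHom.mem_ker.mp hx)
  let ι : χ₀.range →+* O' :=
    χ₀.rangeRestrict.liftOfSurjective χ₀.rangeRestrict_surjective ⟨θ, hle⟩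
  have hι : ∀ t, ι (χ₀.rangeRestrict t) = θ t := fun t =>
    RingHom.liftOfRightInverse_comp_apply _ _ _ _ t
  have hι0 : ∀ z : χ₀.range, ι z = 0 → z = 0 := by
    rintro ⟨z, t, rfl⟩ hz
    have : t ∈ RingHom.ker θ := by rw [RingHom.mem_ker, ← hι]; exact hz
    rw [hker] at this
    exact Subtype.ext (RingHom.mem_ker.mp this)
  let χ : CuspForm.heckeAlgebra (M * q) 2 S' →+* O' :=
    ι.comp ((Eigenforms.eigenChar hg.1).codRestrict χ₀.range hrange)
  -- the trace
  have hBS' : S' ⊆ (↑B : Set ℕ) := Set.sdiff_subset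
  obtain ⟨T₁, c₁, L₁⟩ := exists_attachedTrace_link (jacobianInputs (M * q) hp) frobeniusDivisions
    B.finite_toSet (maximalIdeal O') hpO
    (χ.comp (Subalgebra.inclusion (CuspForm.heckeAlgebra_mono hBS')).toRingHom)
  have hfε : T.f = T₁.f ∧ T.ε = T₁.ε := by
    refine HeckePoints.eq_of_frobenius frobeniusDivisions (I := maximalIdeal O')
      (HeckePoints.traceCont_of_attached T).1 (HeckePoints.traceCont_of_attached T₁).1
      (HeckePoints.traceCont_of_attached T).2 (HeckePoints.traceCont_of_attached T₁).2 B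
      fun ℓ hℓ hℓB P hP σ hσ => ?_
    have hℓN : ¬ ℓ ∣ M * q := fun hd => hℓB (hB ℓ hℓ hd)
    have hℓB' : ℓ ∉ (↑B : Set ℕ) := fun h => hℓB (Finset.mem_coe.mp h)
    have hℓp : ℓ ≠ p := fun h => hℓB (Finset.mem_union_right _ (Finset.mem_singleton.mpr h))
    obtain ⟨a₁, b₁⟩ := T.frob ℓ hℓ hℓN (hSB ℓ hℓB) hℓp P hP σ hσ
    obtain ⟨a₂, b₂⟩ := T₁.frob ℓ hℓ hℓN hℓB' hℓp P hP σ hσ
    refine ⟨a₁.trans (Eq.trans ?_ a₂.symm), b₁.trans b₂.symm⟩
    rw [← hι]
    refine congrArg ι (Subtype.ext ?_)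
    exact (Eigenforms.eigenChar_T hg.1 hℓ hℓN (hSB ℓ hℓB)).trans
      (Eigenforms.eigenChar_T hg.1 hℓ hℓN (fun h => hℓB' (hBS' h))).symm
  have htr₁ : ∀ σ, (ρ σ).trace = T₁.f σ := fun σ => by rw [htr, hfε.1]
  have hdet₁ : ∀ σ, (ρ σ).det = T₁.ε σ :=
    det_eq_of_trace_eq (fun a ha => (mul_eq_zero.mp ha).resolve_left two_ne_zero) T₁ ρ htr₁
  obtain ⟨c, hL⟩ := exists_linked_out hBS' χ L₁ ρ htr₁ hdet₁
  -- the element
  have hdvd : M ∣ M * q := dvd_mul_right M q
  have hne : M ≠ M * q := by nlinarith [NeZero.pos M, hq.one_lt]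
  obtain ⟨e₀, he0, heg⟩ := exists_separator frobeniusDivisions
    (fun N _ p hp => jacobianInputs N hp) hg hdvd hne B hB
  let iq : OutPrime S' := ⟨⟨q, hq⟩, fun h => h.2 rfl⟩
  refine ⟨S', χ.comp (outTheta (M * q) S'), c,
    goodToOut (M * q) hBS' e₀ * (MvPolynomial.X iq + (ε : OutRing S')), hL, ?_, ?_⟩
  · have h1 : χ (outTheta (M * q) S' (goodToOut (M * q) hBS' e₀)) ≠ 0 := fun h0 => by
      rw [outTheta_goodToOut] at h0
      exact heg (congrArg Subtype.val (hι0 _ h0))
    have h2 : χ (outTheta (M * q) S' (MvPolynomial.X iq)) = (ε : O') := by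
      rw [← map_intCast ι ε]
      refine congrArg ι (Subtype.ext ?_)
      show Eigenforms.eigenChar hg.1 (outTheta (M * q) S' (MvPolynomial.X iq)) =
        ((ε : χ₀.range) : ℂ)
      rw [SubringClass.coe_intCast, ← hε, outTheta, MvPolynomial.eval₂Hom_X', outGen,
        dif_pos (dvd_mul_left q M)]
      exact Eigenforms.eigenChar_U hg.1 hq (dvd_mul_left q M) iq.2
    rw [map_mul, map_add, map_intCast]
    show χ (outTheta (M * q) S' (goodToOut (M * q) hBS' e₀)) *
      (χ (outTheta (M * q) S' (MvPolynomial.X iq)) + (ε : O')) ≠ 0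
    rw [h2, ← two_mul]
    refine mul_ne_zero h1 (mul_ne_zero two_ne_zero (Int.cast_ne_zero.mpr ?_))
    rcases hε1 with h | h <;> rw [h] <;> decide
  · intro w hwα hwβ k x hx
    let := heckeModuleBar (M * q)
    let := outModule (M * q) S'
    set a := goodToOut (M * q) hBS' e₀
    have hkill : ∀ z : JZero (M * q), (p ^ k) • z = 0 →
        pushJ (heckeAlphaBar Qbar M q) (a • z) = 0 ∧
          pushJ (heckeBetaBar Qbar M q) (a • z) = 0 := by
      intro z hz
      have hs : a • z = goodIncl (M * q) _ e₀ • z := by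
        show outIncl S' a • z = _
        rw [outIncl_goodToOut]
      rw [hs, pushJ_alpha_smul hq e₀ z, pushJ_beta_smul hq hqM (ModularFF.alInputs q hq) e₀ z]
      have hM := formsKillTorsion (M * q) M p hdvd hp _ e₀ he0 k
      exact ⟨hM _ (by rw [← map_nsmul, hz, map_zero]), hM _ (by rw [← map_nsmul, hz, map_zero])⟩
    have hU : ∀ y : JZero (M * q), pushJ (heckeAlphaBar Qbar M q) y = 0 →
        (MvPolynomial.X iq : OutRing S') • y = -pushJ w y := by
      intro y hy
      refine eq_neg_of_add_eq_zero_left ?_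
      have h := heckeOperatorBar_add_al hq hqM hwα hwβ hy
      rw [← h]
      congr 1
      show outIncl S' (MvPolynomial.X iq) • y = _
      simp only [outIncl, AlgHom.toRingHom_eq_coe, RingHom.coe_coe, MvPolynomial.aeval_X]
      rw [heckeModuleBar_smul_def (heckeOperatorsCommuteBar (M * q)), heckeEvalBar_heckeGen]
    set u := (MvPolynomial.X iq + (ε : OutRing S')) • x with hu
    have hu0 : (p ^ k) • u = 0 := by rw [smul_comm, hx, smul_zero]
    rw [mul_smul, ← hu]
    obtain ⟨h₁, h₂⟩ := hkill u hu0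
    refine ⟨h₁, h₂, ?_⟩
    have hU2 : ∀ z : JZero (M * q), (p ^ k) • z = 0 →
        (MvPolynomial.X iq : OutRing S') • (MvPolynomial.X iq : OutRing S') • a • z = a • z := by
      intro z hz
      obtain ⟨k₁, -⟩ := hkill z hz
      obtain ⟨k₂, -⟩ := hkill ((MvPolynomial.X iq : OutRing S') • z)
        (by rw [smul_comm, hz, smul_zero])
      rw [smul_comm a] at k₂
      rw [hU _ k₂, hU _ k₁, map_neg, neg_neg, pushJ_comp, al_involutive hwα hwβ, pushJ_id]
    rw [← neg_eq_iff_eq_neg, ← hU _ h₁, hu]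
    have hε2 : ε * ε = 1 := by rcases hε1 with h | h <;> rw [h] <;> norm_num
    have hexp : a • (MvPolynomial.X iq + (ε : OutRing S')) • x =
        (MvPolynomial.X iq : OutRing S') • a • x + ε • (a • x) := by
      rw [add_smul, Int.cast_smul_eq_zsmul, smul_add, smul_comm a ε x,
        smul_comm a (MvPolynomial.X iq : OutRing S') x]
    rw [hexp, smul_add, hU2 x hx, smul_comm (MvPolynomial.X iq : OutRing S') ε, zsmul_add,
      smul_smul ε ε, hε2, one_zsmul, add_comm]

end FLTAgent.SemistableHecke
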