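import Fermat.Agent.GaloisAttach.Main
import Fermat.Agent.Eigenforms.Character

/-!
# Eigenvalue systems are determined by almost all prime coefficients

Two attached trace functions whose values agree at the Frobenius elements outside a finite set
of primes agree everywhere.
-/

set_option autoImplicit false

noncomputable section

namespace FLTAgent.SemistableHecke

open FLTAgent.GaloisAttach
open FLTAgent.Density (GalQ Qbar)

theorem attachedTrace_unique (hF : FrobeniusDivisions) {A : Type} [CommRing A] {I : Ideal A}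
    [IsAdicComplete I A] {N₁ N₂ : ℕ} [NeZero N₁] [NeZero N₂] {p : ℕ} {S₁ S₂ : Set ℕ}
    {χ₁ : CuspForm.heckeAlgebra N₁ 2 S₁ →+* A} {χ₂ : CuspForm.heckeAlgebra N₂ 2 S₂ →+* A}
    (T₁ : AttachedTrace N₁ p S₁ I χ₁) (T₂ : AttachedTrace N₂ p S₂ I χ₂) (B : Finset ℕ)
    (h : ∀ ℓ : ℕ, ℓ.Prime → ℓ ∉ B → ∀ P : ValuationSubring Qbar, P.LiesOverPrime ℓ →
      ∀ σ : GalQ, P.IsFrobeniusAt σ ℓ → T₁.f σ = T₂.f σ ∧ T₁.ε σ = T₂.ε σ) (g : GalQ) :
    T₁.f g = T₂.f g := by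
  refine eq_of_forall_sub_mem_pow (I := I) fun n => ?_
  obtain ⟨L₁, hL₁fd, hL₁⟩ := T₁.continuous n
  obtain ⟨L₂, hL₂fd, hL₂⟩ := T₂.continuous n
  let L := IntermediateField.normalClosure ℚ (L₁ ⊔ L₂ : IntermediateField ℚ Qbar) Qbar
  have : FiniteDimensional ℚ (L₁ ⊔ L₂ : IntermediateField ℚ Qbar) :=
    IntermediateField.finiteDimensional_sup _ _
  have : Normal ℚ L := normalClosure.normal ℚ _ Qbar
  have : IsGalois ℚ L := IsGalois.mk
  obtain ⟨ℓ, hℓ, hℓB, P, hP, σ, hσ, j, hj⟩ := hF L g B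
  obtain ⟨hf, hε⟩ := h ℓ hℓ hℓB P hP σ hσ
  have hpow : ∀ i, T₁.f (σ ^ i) = T₂.f (σ ^ i) := by
    intro i
    induction i using Nat.twoStepInduction with
    | zero => rw [pow_zero, T₁.one, T₂.one]
    | one => rw [pow_one, hf]
    | more i ih ih1 =>
      have h1 := T₁.mul (σ ^ (i + 1)) σ
      have h2 := T₂.mul (σ ^ (i + 1)) σ
      rw [← pow_succ, show σ ^ (i + 1) * σ⁻¹ = σ ^ i by rw [pow_succ, mul_inv_cancel_right]]
        at h1 h2
      rw [ih, ih1, hf, hε] at h1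
      linear_combination h1 - h2
  set τ := (σ ^ j)⁻¹ * g with hτ
  have hg : g = σ ^ j * τ := by rw [hτ, mul_inv_cancel_left]
  have hfix : ∀ x ∈ L, τ x = x := fun x hx => by
    rw [hτ, AlgEquiv.mul_apply, hj x hx]
    exact (σ ^ j).symm_apply_apply x
  have hle : (L₁ ⊔ L₂ : IntermediateField ℚ Qbar) ≤ L := IntermediateField.le_normalClosure _
  have h1 := (hL₁ τ fun x hx => hfix x (hle (le_sup_left (b := L₂) hx))).2 (σ ^ j)
  have h2 := (hL₂ τ fun x hx => hfix x (hle (le_sup_right (a := L₁) hx))).2 (σ ^ j)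
  rw [← hg] at h1 h2
  rw [hpow j] at h1
  have := sub_mem h1 h2
  rwa [sub_sub_sub_cancel_right] at this

/-- Prime coefficients of two normalised eigenforms which agree outside a finite set agree at
every prime not dividing either level. -/
theorem qCoeff_eq_of_agree {N₁ N₂ : ℕ} [NeZero N₁] [NeZero N₂]
    (hF : FrobeniusDivisions) (hJ₁ : ∀ p : ℕ, p.Prime → JacobianInputs N₁ p)
    (hJ₂ : ∀ p : ℕ, p.Prime → JacobianInputs N₂ p)
    {g₁ : CuspForm (CongruenceSubgroup.Gamma0 N₁) 2} (hg₁ : g₁.IsNormalizedEigenform)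
    {g₂ : CuspForm (CongruenceSubgroup.Gamma0 N₂) 2} (hg₂ : g₂.IsNormalizedEigenform)
    (B : Finset ℕ)
    (h : ∀ ℓ : ℕ, ℓ.Prime → ¬ ℓ ∣ N₁ → ¬ ℓ ∣ N₂ → ℓ ∉ B →
      ModularFormClass.qCoeff g₁ ℓ = ModularFormClass.qCoeff g₂ ℓ)
    {ℓ : ℕ} (hℓ : ℓ.Prime) (hℓ₁ : ¬ ℓ ∣ N₁) (hℓ₂ : ¬ ℓ ∣ N₂) :
    ModularFormClass.qCoeff g₁ ℓ = ModularFormClass.qCoeff g₂ ℓ := by
  classical
  set a : integralClosure ℤ ℂ :=
    Eigenforms.intQCoeff (MFIntegral.hasIntegralStructure N₁ 2) hg₁ ℓ -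
      Eigenforms.intQCoeff (MFIntegral.hasIntegralStructure N₂ 2) hg₂ ℓ with ha
  suffices ha0 : a = 0 by
    exact congrArg Subtype.val (sub_eq_zero.mp ha0)
  by_contra hne
  have hbot : Ideal.comap (algebraMap ℤ (integralClosure ℤ ℂ)) (Ideal.span {a}) ≠ ⊥ :=
    Ideal.comap_ne_bot_of_integral_mem hne (Ideal.mem_span_singleton_self a)
      (Algebra.IsIntegral.isIntegral a)
  obtain ⟨c, hc, hc0⟩ := Submodule.exists_mem_ne_zero_of_ne_bot hbot
  obtain ⟨p, hpc, hp⟩ := Nat.exists_infinite_primes (max c.natAbs ℓ + 1)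
  have hpc' : c.natAbs < p ∧ ℓ < p := by omega
  obtain ⟨𝔪, h𝔪⟩ : ∃ 𝔪 : Ideal (integralClosure ℤ ℂ), 𝔪.IsMaximal ∧
      (p : integralClosure ℤ ℂ) ∈ 𝔪 := by
    have hu : ¬ IsUnit (p : integralClosure ℤ ℂ) := by
      intro hu
      obtain ⟨v, hv⟩ := hu.exists_right_inv
      have hint : IsIntegral ℤ ((p : ℚ)⁻¹) := by
        have : IsIntegral ℤ ((v : ℂ)) := v.2
        have hv' : (v : ℂ) = algebraMap ℚ ℂ (p : ℚ)⁻¹ := by
          have := congrArg Subtype.val hv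
          simp only [MulMemClass.coe_mul, OneMemClass.coe_one] at this
          rw [map_inv₀, map_natCast]
          refine eq_inv_of_mul_eq_one_right ?_
          simpa using this
        rw [hv'] at this
        exact (isIntegral_algebraMap_iff (algebraMap ℚ ℂ).injective).mp this
      obtain ⟨n, hn⟩ := IsIntegrallyClosed.isIntegral_iff.mp hint
      have hn' : (n * p : ℤ) = 1 := by
        have : (algebraMap ℤ ℚ n) * (p : ℚ) = 1 := by
          rw [hn, inv_mul_cancel₀ (Nat.cast_ne_zero.mpr hp.ne_zero)]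
        rw [eq_intCast] at this
        exact_mod_cast this
      have := Int.eq_one_of_mul_eq_one_left (by omega) hn'
      exact hp.ne_one (by exact_mod_cast this)
    obtain ⟨𝔪, h1, h2⟩ := Ideal.exists_le_maximal _
      (Ideal.span_singleton_eq_top.not.mpr hu)
    exact ⟨𝔪, h1, h2 (Ideal.mem_span_singleton_self _)⟩
  obtain ⟨h𝔪, hp𝔪⟩ := h𝔪
  have : Fact p.Prime := ⟨hp⟩
  let := Ideal.Quotient.field 𝔪
  have hp0 : ((p : ℕ) : integralClosure ℤ ℂ ⧸ 𝔪) = 0 := by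
    rw [← map_natCast (Ideal.Quotient.mk 𝔪), Ideal.Quotient.eq_zero_iff_mem]
    exact hp𝔪
  have hpI : (p : integralClosure ℤ ℂ ⧸ 𝔪) ∈ (⊥ : Ideal (integralClosure ℤ ℂ ⧸ 𝔪)) := by
    rw [Ideal.mem_bot]; exact hp0
  obtain ⟨T₁⟩ := exists_attachedTrace hp (hJ₁ p hp) hF ({p} : Finset ℕ).finite_toSet ⊥ hpI
    ((Ideal.Quotient.mk 𝔪).comp (eigenCharInt _ hg₁))
  obtain ⟨T₂⟩ := exists_attachedTrace hp (hJ₂ p hp) hF ({p} : Finset ℕ).finite_toSet ⊥ hpI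
    ((Ideal.Quotient.mk 𝔪).comp (eigenCharInt _ hg₂))
  have hfun := attachedTrace_unique hF T₁ T₂ (B ∪ N₁.primeFactors ∪ N₂.primeFactors ∪ {p})
    fun r hr hrB P hP σ hσ => by
      simp only [Finset.mem_union, Finset.mem_singleton, not_or] at hrB
      have hr₁ : ¬ r ∣ N₁ := fun hd =>
        hrB.1.1.2 (Nat.mem_primeFactors.mpr ⟨hr, hd, NeZero.ne N₁⟩)
      have hr₂ : ¬ r ∣ N₂ := fun hd =>
        hrB.1.2 (Nat.mem_primeFactors.mpr ⟨hr, hd, NeZero.ne N₂⟩)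
      have hrS : r ∉ ((↑({p} : Finset ℕ)) : Set ℕ) := by simpa using hrB.2
      obtain ⟨u₁, v₁⟩ := T₁.frob r hr hr₁ hrS hrB.2 P hP σ hσ
      obtain ⟨u₂, v₂⟩ := T₂.frob r hr hr₂ hrS hrB.2 P hP σ hσ
      refine ⟨?_, v₁.trans v₂.symm⟩
      rw [u₁, u₂, RingHom.comp_apply, RingHom.comp_apply]
      refine congrArg _ (Subtype.ext ?_)
      rw [coe_eigenCharInt_T hg₁ hr hr₁ hrS, coe_eigenCharInt_T hg₂ hr hr₂ hrS]
      exact h r hr hr₁ hr₂ hrB.1.1.1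
  have hℓp : ℓ ≠ p := hpc'.2.ne
  have hℓS : ℓ ∉ ((↑({p} : Finset ℕ)) : Set ℕ) := by simpa using hℓp
  obtain ⟨P, hP⟩ := Density.exists_liesOverPrime hℓ
  obtain ⟨σ, hσ⟩ := Density.exists_isFrobeniusAt P hℓ hP
  have e := hfun σ
  rw [(T₁.frob ℓ hℓ hℓ₁ hℓS hℓp P hP σ hσ).1, (T₂.frob ℓ hℓ hℓ₂ hℓS hℓp P hP σ hσ).1,
    RingHom.comp_apply, RingHom.comp_apply, Ideal.Quotient.eq] at e
  have ham : a ∈ 𝔪 := by
    rw [ha]
    convert e using 2 <;> refine Subtype.ext ?_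
    · exact (coe_eigenCharInt_T hg₁ hℓ hℓ₁ hℓS).symm
    · exact (coe_eigenCharInt_T hg₂ hℓ hℓ₂ hℓS).symm
  have hcm : (c : integralClosure ℤ ℂ) ∈ 𝔪 := by
    have : Ideal.span {a} ≤ 𝔪 := (Ideal.span_singleton_le_iff_mem _).mpr ham
    simpa using this hc
  have hco : IsCoprime (c : ℤ) (p : ℤ) := by
    rw [Int.isCoprime_iff_nat_coprime, Int.natAbs_natCast]
    exact (hp.coprime_iff_not_dvd.mpr fun hd =>
      absurd (Nat.le_of_dvd (Int.natAbs_pos.mpr hc0) hd) (not_le.mpr hpc'.1)).symm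
  obtain ⟨u, v, huv⟩ := hco
  refine h𝔪.ne_top (Ideal.eq_top_iff_one _ |>.mpr ?_)
  have := 𝔪.add_mem (𝔪.mul_mem_left (u : integralClosure ℤ ℂ) hcm)
    (𝔪.mul_mem_left (v : integralClosure ℤ ℂ) hp𝔪)
  convert this using 1
  exact_mod_cast huv.symm

end FLTAgent.SemistableHecke
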