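import Fermat.Agent.SemistableHecke.Residual
import Fermat.Agent.SemistableHecke.ModularNorm
import Fermat.Agent.Semistable.Branches
import Fermat.Agent.Semistable.Torsion

/-!
# Torsion classes with trivial residual class on the branch at infinity

For `x ∈ J₀(Mq)[m]` with `m D = div f`, the residual series of `f` is determined by `x` up to
constants and `m`-th powers.  If the pushforward of `x` to level `M` vanishes, the norm formula
shows that `x + φ (w x)` has trivial residual series, `φ` a Frobenius at `q`.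
-/

set_option autoImplicit false

noncomputable section

open AlgebraicCurve ModularCurve FLTAgent.HeckeJacobian FLTAgent.CongruenceRel

namespace FLTAgent.SemistableHecke

local notation "Qbar" => AlgebraicClosure ℚ

variable {A : ValuationSubring Qbar}

local notation "kA" => IsLocalRing.ResidueField A
local notation "lift" => coeffMap (A.subtype)
local notation "red" => coeffMap (IsLocalRing.residue A)

theorem hasBar_iff {F : Type*} [Field F] [Algebra Qbar F] (ι : F →ₐ[Qbar] LaurentSeries Qbar)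
    (f : F) (r : LaurentSeries (IsLocalRing.ResidueField A)) :
    HasBar A (ι f) r ↔
      ∃ h : f ∈ Semistable.Gauss.ring A (IsLocalRing.residue A) ι,
        Semistable.Gauss.res A (IsLocalRing.residue A) ι ⟨f, h⟩ = r := by
  constructor
  · rintro ⟨a, b, hb, e, hr⟩
    exact ⟨⟨a, b, hb, e⟩, (Semistable.Gauss.res_mk A (IsLocalRing.residue A) ι _ hb e).trans
      (by rw [hr, mul_div_cancel_right₀ _ hb])⟩
  · rintro ⟨⟨a, b, hb, e⟩, rfl⟩
    exact ⟨a, b, hb, e, by
      rw [Semistable.Gauss.res_mk A (IsLocalRing.residue A) ι _ hb e, div_mul_cancel₀ _ hb]⟩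

theorem single_mul_eq_smul (c : Qbar) {N : ℕ} (f : modularFunctionFieldBar N) :
    HahnSeries.single (0 : ℤ) c * (f : LaurentSeries Qbar) =
      ((c • f : modularFunctionFieldBar N) : LaurentSeries Qbar) := by
  rw [IntermediateField.coe_smul, Algebra.smul_def, algebraMap_laurentSeries_eq_single]

/-! ### Trivial residual series -/

variable (A) in
/-- A series equal to a constant times an `m`-th power in the special fibre of `X₀(M)`. -/
def IsTrivRes (M m : ℕ) (r : LaurentSeries kA) : Prop :=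
  ∃ (c : kA) (z : LaurentSeries kA), c ≠ 0 ∧ z ≠ 0 ∧ z ∈ modularFunctionFieldFullC kA M ∧
    r = HahnSeries.single 0 c * z ^ m

theorem IsTrivRes.mul {M m : ℕ} {r s : LaurentSeries kA} (h : IsTrivRes A M m r)
    (h' : IsTrivRes A M m s) : IsTrivRes A M m (r * s) := by
  obtain ⟨c, z, hc, hz, hzm, rfl⟩ := h
  obtain ⟨d, w, hd, hw, hwm, rfl⟩ := h'
  refine ⟨c * d, z * w, mul_ne_zero hc hd, mul_ne_zero hz hw, mul_mem hzm hwm, ?_⟩
  rw [show HahnSeries.single (0 : ℤ) (c * d) =
    HahnSeries.single 0 c * HahnSeries.single 0 d by rw [HahnSeries.single_mul_single, add_zero]]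
  ring

theorem IsTrivRes.inv {M m : ℕ} {r : LaurentSeries kA} (h : IsTrivRes A M m r) :
    IsTrivRes A M m r⁻¹ := by
  obtain ⟨c, z, hc, hz, hzm, rfl⟩ := h
  refine ⟨c⁻¹, z⁻¹, inv_ne_zero hc, inv_ne_zero hz, inv_mem hzm, ?_⟩
  rw [mul_inv, inv_pow]
  congr 1
  refine inv_eq_of_mul_eq_one_right ?_
  rw [HahnSeries.single_mul_single, add_zero, mul_inv_cancel₀ hc, HahnSeries.single_zero_one]

theorem isTrivRes_const {M m : ℕ} {c : kA} (hc : c ≠ 0) :
    IsTrivRes A M m (HahnSeries.single 0 c) :=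
  ⟨c, 1, hc, one_ne_zero, one_mem _, by rw [one_pow, mul_one]⟩

theorem isTrivRes_pow {M m : ℕ} {z : LaurentSeries kA} (hz : z ≠ 0)
    (hzm : z ∈ modularFunctionFieldFullC kA M) : IsTrivRes A M m (z ^ m) :=
  ⟨1, z, one_ne_zero, hz, hzm, by rw [HahnSeries.single_zero_one, one_mul]⟩

/-! ### Classes -/

variable {M q : ℕ} [NeZero M] [NeZero q]

variable (A) in
/-- Torsion data for `x`: `m D = div f`, `f` with nonzero residual series `r`. -/
def IsData (m : ℕ) (x : JZero (M * q)) (f : modularFunctionFieldBar (M * q))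
    (r : LaurentSeries kA) : Prop :=
  ∃ D : Divisor.degZero (K := Qbar) (F := modularFunctionFieldBar (M * q)),
    Pic0.mk D = x ∧ f ≠ 0 ∧
      (∀ v, (m : ℤ) * (D : Divisor Qbar (modularFunctionFieldBar (M * q))) v = v.ord f) ∧
      r ≠ 0 ∧ HasBar A (f : LaurentSeries Qbar) r

variable (A) in
/-- `x` has trivial residual class at infinity. -/
def Triv (m : ℕ) (x : JZero (M * q)) : Prop :=
  ∃ f r, IsData A m x f r ∧ IsTrivRes A M m r

omit [NeZero M] [NeZero q] in
theorem IsData.mul {m : ℕ} {x y : JZero (M * q)} {f g : modularFunctionFieldBar (M * q)}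
    {r s : LaurentSeries kA} (h : IsData A m x f r) (h' : IsData A m y g s) :
    IsData A m (x + y) (f * g) (r * s) := by
  obtain ⟨D, hD, hf, hdiv, hr, hb⟩ := h
  obtain ⟨E, hE, hg, hdiv', hs, hb'⟩ := h'
  refine ⟨D + E, by rw [← hD, ← hE]; rfl, mul_ne_zero hf hg, fun v => ?_, mul_ne_zero hr hs, ?_⟩
  · rw [AddSubgroup.coe_add, Finsupp.add_apply, mul_add, hdiv, hdiv', v.ord_mul hf hg]
  · rw [MulMemClass.coe_mul]; exact hb.mul hb'

omit [NeZero M] [NeZero q] in
theorem IsData.neg {m : ℕ} {x : JZero (M * q)} {f : modularFunctionFieldBar (M * q)}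
    {r : LaurentSeries kA} (h : IsData A m x f r) : IsData A m (-x) f⁻¹ r⁻¹ := by
  obtain ⟨D, hD, hf, hdiv, hr, hb⟩ := h
  refine ⟨-D, by rw [← hD]; rfl, inv_ne_zero hf, fun v => ?_, inv_ne_zero hr, ?_⟩
  · rw [AddSubgroup.coe_neg, Finsupp.neg_apply, mul_neg, hdiv, v.ord_inv]
  · rw [show ((f⁻¹ : modularFunctionFieldBar (M * q)) : LaurentSeries Qbar) =
      (f : LaurentSeries Qbar)⁻¹ from rfl]
    exact hb.inv hr

omit [NeZero M] [NeZero q] in
theorem Triv.add {m : ℕ} {x y : JZero (M * q)} (h : Triv A m x) (h' : Triv A m y) :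
    Triv A m (x + y) := by
  obtain ⟨f, r, hf, hr⟩ := h
  obtain ⟨g, s, hg, hs⟩ := h'
  exact ⟨_, _, hf.mul hg, hr.mul hs⟩

omit [NeZero M] [NeZero q] in
theorem Triv.neg {m : ℕ} {x : JZero (M * q)} (h : Triv A m x) : Triv A m (-x) := by
  obtain ⟨f, r, hf, hr⟩ := h
  exact ⟨_, _, hf.neg, hr.inv⟩

theorem exists_isData {ℓ : ℕ} (hℓ : ℓ.Prime) (hA : A.LiesOverPrime ℓ) {m : ℕ}
    {x : JZero (M * q)} (hx : m • x = 0) : ∃ f r, IsData A m x f r := by
  obtain ⟨D, rfl⟩ := Pic0.mk_surjective x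
  have h : (Pic0.mk (m • D) : JZero (M * q)) = 0 := hx
  rw [Pic0.mk, QuotientAddGroup.eq_zero_iff, AddSubgroup.mem_addSubgroupOf] at h
  obtain ⟨f, hf, hfD⟩ := h
  obtain ⟨c, r, hc, hr, hb⟩ := exists_hasBar hℓ hA f hf
  refine ⟨c • f, r, D, rfl, smul_ne_zero hc hf, fun v => ?_, hr, hb⟩
  rw [FFBasic.ord_smul_const v hc, ← hfD v, AddSubgroup.coe_nsmul, Finsupp.smul_apply,
    nsmul_eq_mul]

theorem IsData.exists_eq {m : ℕ} {x : JZero (M * q)} {f g : modularFunctionFieldBar (M * q)}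
    {r s : LaurentSeries kA} (h : IsData A m x f r) (h' : IsData A m x g s) :
    ∃ (c : Qbar) (u : modularFunctionFieldBar (M * q)), c ≠ 0 ∧ u ≠ 0 ∧
      g = c • (f * u ^ m) := by
  obtain ⟨D, hD, hf, hdiv, hr, hb⟩ := h
  obtain ⟨E, hE, hg, hdiv', hs, hb'⟩ := h'
  have := (QuotientAddGroup.eq.mp (hD.trans hE.symm) : _)
  rw [AddSubgroup.mem_addSubgroupOf] at this
  obtain ⟨u, hu, huv⟩ := this
  obtain ⟨c, hc⟩ : ∃ c : Qbar,
      algebraMap Qbar (modularFunctionFieldBar (M * q)) c = g / (f * u ^ m) := by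
    refine Semistable.exists_eq_algebraMap_of_isIntegral (IsAlgebraic.isIntegral
      (FFBasic.isAlgebraic_iff_forall_ord_eq_zero.mpr fun v => ?_))
    rw [div_eq_mul_inv, v.ord_mul hg (inv_ne_zero (mul_ne_zero hf (pow_ne_zero m hu))), v.ord_inv,
      v.ord_mul hf (pow_ne_zero m hu), ← zpow_natCast, v.ord_zpow, ← hdiv, ← hdiv', ← huv v,
      AddSubgroup.coe_add, AddSubgroup.coe_neg, Finsupp.add_apply, Finsupp.neg_apply]
    ring
  have hgc : g = c • (f * u ^ m) := by
    rw [Algebra.smul_def, hc, div_mul_cancel₀ _ (mul_ne_zero hf (pow_ne_zero m hu))]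
  exact ⟨c, u, fun h0 => hg (by rw [hgc, h0, zero_smul]), hu, hgc⟩

section Setting

variable [Fact q.Prime] [IsAlgClosed (IsLocalRing.ResidueField A)]
  [CharP (IsLocalRing.ResidueField A) q]
  (S : Semistable.Level.Setting M q A (IsLocalRing.residue A))

include S in
theorem bar_mem {f : modularFunctionFieldBar (M * q)} {r : LaurentSeries kA}
    (h : HasBar A (f : LaurentSeries Qbar) r) : r ∈ modularFunctionFieldFullC kA M := by
  obtain ⟨hm, rfl⟩ := (hasBar_iff (Semistable.Level.ι₁ M q) f r).mp h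
  exact Semistable.Level.res_mem₁ S ⟨f, hm⟩

include S in
/-- Triviality does not depend on the data. -/
theorem Triv.of_data (hA : A.LiesOverPrime q) {m : ℕ} {x : JZero (M * q)} (h : Triv A m x)
    {g : modularFunctionFieldBar (M * q)} {s : LaurentSeries kA} (h' : IsData A m x g s) :
    IsTrivRes A M m s := by
  obtain ⟨f, r, hf, hr⟩ := h
  obtain ⟨c, u, -, hu, rfl⟩ := hf.exists_eq h'
  obtain ⟨e, t, he, ht, hbu⟩ := exists_hasBar Fact.out hA u hu
  obtain ⟨-, -, -, -, hr0, hbf⟩ := hf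
  obtain ⟨-, -, -, -, hs0, hbs⟩ := h'
  have key : (((c • (f * u ^ m) : modularFunctionFieldBar (M * q))) : LaurentSeries Qbar) =
      HahnSeries.single 0 (c * (e ^ m)⁻¹) *
        ((f : LaurentSeries Qbar) *
          ((e • u : modularFunctionFieldBar (M * q)) : LaurentSeries Qbar) ^ m) := by
    rw [← SubmonoidClass.coe_pow, ← MulMemClass.coe_mul, single_mul_eq_smul]
    congr 1
    rw [smul_pow, mul_smul_comm, smul_smul, mul_assoc, inv_mul_cancel₀ (pow_ne_zero m he), mul_one]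
  rw [key] at hbs
  obtain ⟨d, hd, rfl⟩ := (hbf.mul (hbu.pow m)).eq_const_mul (mul_ne_zero hr0 (pow_ne_zero m ht))
    hbs hs0
  exact (isTrivRes_const hd).mul (hr.mul (isTrivRes_pow ht (bar_mem S hbu)))

end Setting

end FLTAgent.SemistableHecke
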